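/-
Row 38, block P, seat P-pl (helper15), part 1: the NORM FORMULA for a finite SEPARABLE extension of
function fields over an algebraically closed field of ANY characteristic.

`Lib/HeckeInputs` proves it in characteristic `0` through Mathlib's
`Ideal.relNorm_eq_pow_of_isMaximal`, which wants `PerfectField (FractionRing A)`.  Here the
relative norm of a prime is computed by counting: `relNorm P = 𝔪 ^ s_P` with `s_P ≥ 1`,
`∑ e_P s_P = n` (`relNorm_algebraMap`) and `∑ e_P f_P = n` with `f_P = 1`, hence `s_P = 1`.
-/
import Mathlib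
import Fermat.Agent.Lib.HeckeInputs.FundId

set_option autoImplicit false
set_option linter.deprecated false
set_option linter.unusedSectionVars false
set_option linter.style.haveILetI false

noncomputable section

open IsDedekindDomain WithZero AlgebraicCurve

namespace Fermat.Agent.R38

section DVR

variable {K F F' A B : Type*} [Field K] [Field F] [Field F']
  [Algebra K F] [Algebra K F'] [Algebra F F'] [IsScalarTower K F F'] [FiniteDimensional F F']
  [CommRing A] [IsDomain A] [IsDiscreteValuationRing A] [Algebra A F] [IsFractionRing A F]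
  [Algebra A F'] [IsScalarTower A F F'] [Algebra K A] [IsScalarTower K A F]
  [CommRing B] [IsDedekindDomain B] [Algebra A B] [Algebra B F'] [IsFractionRing B F']
  [IsScalarTower A B F'] [Module.Finite A B] [Module.IsTorsionFree A B]
  [Algebra K B] [IsScalarTower K B F']

/-- the relative norm of a prime over the maximal ideal is a positive power of it. -/
theorem r38pl_exists_relNorm (P : Ideal B) [P.IsPrime]
    [P.LiesOver (IsLocalRing.maximalIdeal A)] :
    ∃ s : ℕ, 1 ≤ s ∧ Ideal.relNorm A P = IsLocalRing.maximalIdeal A ^ s := by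
  obtain ⟨s, hs⟩ := Ideal.exists_relNorm_eq_pow_of_isPrime P (IsLocalRing.maximalIdeal A)
  refine ⟨s, ?_, hs⟩
  by_contra h0
  have hs0 : s = 0 := by omega
  subst hs0
  rw [pow_zero, Ideal.one_eq_top] at hs
  have hle := Ideal.relNorm_le_comap A P
  rw [hs, top_le_iff, Ideal.comap_eq_top_iff] at hle
  exact (Ideal.IsPrime.ne_top inferInstance) hle

/-- the exponent `s_P` of the relative norm of a prime `P` over the maximal ideal
(junk value `1` elsewhere). -/
def r38pl_s (A : Type*) {B : Type*} [CommRing A] [IsDomain A] [IsDiscreteValuationRing A]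
    [CommRing B] [IsDedekindDomain B] [Algebra A B] [Module.Finite A B]
    [Module.IsTorsionFree A B] (P : Ideal B) : ℕ := by
  classical
  exact if h : P.IsPrime ∧ P.LiesOver (IsLocalRing.maximalIdeal A) then
    haveI := h.1
    haveI := h.2
    (r38pl_exists_relNorm (A := A) P).choose
  else 1

theorem r38pl_s_spec (P : Ideal B) [hP : P.IsPrime]
    [hL : P.LiesOver (IsLocalRing.maximalIdeal A)] :
    1 ≤ r38pl_s A P ∧ Ideal.relNorm A P = IsLocalRing.maximalIdeal A ^ r38pl_s A P := by
  classical
  unfold r38pl_s
  rw [dif_pos ⟨hP, hL⟩]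
  exact (r38pl_exists_relNorm (A := A) P).choose_spec

theorem r38pl_maximalIdeal_pow_injective :
    Function.Injective (fun n : ℕ => (IsLocalRing.maximalIdeal A) ^ n) := by
  intro a b hab
  obtain ⟨π, hπ⟩ := IsDiscreteValuationRing.exists_irreducible A
  have hm : IsLocalRing.maximalIdeal A = Ideal.span {π} := hπ.maximalIdeal_eq
  simp only [hm, Ideal.span_singleton_pow] at hab
  rw [Ideal.span_singleton_eq_span_singleton] at hab
  by_contra hne
  rcases Nat.lt_or_gt_of_ne hne with h | h
  · obtain ⟨u, hu⟩ := hab
    have h1 : π ^ a * (↑u - π ^ (b - a)) = 0 := by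
      rw [mul_sub, hu, ← pow_add, Nat.add_sub_cancel' h.le, sub_self]
    rcases mul_eq_zero.mp h1 with h2 | h2
    · exact pow_ne_zero _ hπ.ne_zero h2
    · have h3 : (↑u : A) = π ^ (b - a) := sub_eq_zero.mp h2
      have h4 : IsUnit (π ^ (b - a)) := h3 ▸ u.isUnit
      have h5 : IsUnit π := isUnit_of_dvd_unit (dvd_pow_self π (by omega)) h4
      exact hπ.not_isUnit h5
  · obtain ⟨u, hu⟩ := hab.symm
    have h1 : π ^ b * (↑u - π ^ (a - b)) = 0 := by
      rw [mul_sub, hu, ← pow_add, Nat.add_sub_cancel' h.le, sub_self]
    rcases mul_eq_zero.mp h1 with h2 | h2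
    · exact pow_ne_zero _ hπ.ne_zero h2
    · have h3 : (↑u : A) = π ^ (a - b) := sub_eq_zero.mp h2
      have h4 : IsUnit (π ^ (a - b)) := h3 ▸ u.isUnit
      have h5 : IsUnit π := isUnit_of_dvd_unit (dvd_pow_self π (by omega)) h4
      exact hπ.not_isUnit h5

/-- **the relative norm of a height one prime is the maximal ideal** (residue field `K`
algebraically closed; no separability, no perfectness). -/
theorem r38pl_relNorm_prime [IsAlgClosed K]
    (hres : Function.Surjective
      ((Ideal.Quotient.mk (IsLocalRing.maximalIdeal A)).comp (algebraMap K A)))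
    (Q : HeightOneSpectrum B) :
    Ideal.relNorm A Q.asIdeal = IsLocalRing.maximalIdeal A := by
  classical
  have hp0 : IsLocalRing.maximalIdeal A ≠ ⊥ := Fermat.Agent.HeckeInputs.hi_maximalIdeal_ne_bot
  haveI : Algebra.IsIntegral A B := Algebra.IsIntegral.of_finite A B
  have hprod := Ideal.map_algebraMap_eq_finsetProd_pow (R := B) (S := A)
    (p := IsLocalRing.maximalIdeal A) hp0
  have hnorm := Ideal.relNorm_algebraMap B (IsLocalRing.maximalIdeal A)
  have hsum := Ideal.sum_ramification_inertia_eq_finrank (IsLocalRing.maximalIdeal A) B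
  have hmem : ∀ P ∈ ((IsLocalRing.maximalIdeal A).primesOver B).toFinset,
      P.IsPrime ∧ P.LiesOver (IsLocalRing.maximalIdeal A) := by
    intro P hP
    rw [Set.mem_toFinset] at hP
    exact hP
  have hspec : ∀ P ∈ ((IsLocalRing.maximalIdeal A).primesOver B).toFinset,
      1 ≤ r38pl_s A P ∧
        Ideal.relNorm A P = IsLocalRing.maximalIdeal A ^ r38pl_s A P := by
    intro P hP
    haveI := (hmem P hP).1
    haveI := (hmem P hP).2
    exact r38pl_s_spec P
  -- `∑ s_P e_P = n`
  have h1 : IsLocalRing.maximalIdeal A ^ Module.finrank A B =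
      IsLocalRing.maximalIdeal A ^
        (∑ P ∈ ((IsLocalRing.maximalIdeal A).primesOver B).toFinset,
          r38pl_s A P * P.ramificationIdx A) := by
    rw [← hnorm, hprod, map_prod, ← Finset.prod_pow_eq_pow_sum]
    refine Finset.prod_congr rfl fun P hP => ?_
    rw [map_pow, (hspec P hP).2, ← pow_mul]
  have h2 : Module.finrank A B =
      ∑ P ∈ ((IsLocalRing.maximalIdeal A).primesOver B).toFinset,
          r38pl_s A P * P.ramificationIdx A :=
    r38pl_maximalIdeal_pow_injective h1
  -- `∑ e_P = n`
  have h3 : ∑ P ∈ ((IsLocalRing.maximalIdeal A).primesOver B).toFinset,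
      P.ramificationIdx A = Module.finrank A B := by
    rw [← hsum, Finset.sum_set_coe (f := fun q : Ideal B =>
      q.ramificationIdx A * q.inertiaDeg A)]
    refine Finset.sum_congr rfl fun P hP => ?_
    haveI := (hmem P hP).1
    haveI := (hmem P hP).2
    haveI : P.IsMaximal := Ideal.IsMaximal.of_liesOver_isMaximal P (IsLocalRing.maximalIdeal A)
    rw [Fermat.Agent.S24Dec.inertiaDeg_eq_one_of_isAlgClosed (K := K)
      (IsLocalRing.maximalIdeal A) hres P, mul_one]
  -- termwise equality
  have hle : ∀ P ∈ ((IsLocalRing.maximalIdeal A).primesOver B).toFinset,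
      P.ramificationIdx A ≤ r38pl_s A P * P.ramificationIdx A := fun P hP =>
    Nat.le_mul_of_pos_left _ (hspec P hP).1
  have heq := (Finset.sum_eq_sum_iff_of_le hle).mp (h3.trans h2)
  have hQ : Q.asIdeal ∈ ((IsLocalRing.maximalIdeal A).primesOver B).toFinset := by
    rw [Set.mem_toFinset]
    exact ⟨Q.isPrime, Fermat.Agent.HeckeInputs.hi_liesOver Q⟩
  have hQe := heq Q.asIdeal hQ
  haveI := Q.isPrime
  have hepos : 0 < Q.asIdeal.ramificationIdx A := Ideal.ramificationIdx_pos _ _
  have hs1 : r38pl_s A Q.asIdeal = 1 := by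
    have : 1 * Q.asIdeal.ramificationIdx A = r38pl_s A Q.asIdeal * Q.asIdeal.ramificationIdx A := by
      rw [one_mul]; exact hQe
    exact (Nat.eq_of_mul_eq_mul_right hepos this).symm
  rw [(hspec Q.asIdeal hQ).2, hs1, pow_one]

open Fermat.Agent.HeckeInputs in
/-- the relative norm of a nonzero ideal of `B`. -/
theorem r38pl_relNorm_eq [IsAlgClosed K]
    (hres : Function.Surjective
      ((Ideal.Quotient.mk (IsLocalRing.maximalIdeal A)).comp (algebraMap K A)))
    (I : Ideal B) (hI : I ≠ 0) :
    Ideal.relNorm A I = IsLocalRing.maximalIdeal A ^ hi_totalCount A I := by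
  induction I using UniqueFactorizationMonoid.induction_on_prime with
  | h₁ => exact absurd rfl hI
  | h₂ x hx =>
    obtain rfl : x = 1 := by rwa [Ideal.isUnit_iff, ← Ideal.one_eq_top] at hx
    rw [map_one, hi_totalCount_one, pow_zero]
  | h₃ a p ha hp ih =>
    have hpQ : p ≠ ⊥ := hp.ne_zero
    have hprime : p.IsPrime := Ideal.isPrime_of_prime hp
    let Q : HeightOneSpectrum B := ⟨p, hprime, hpQ⟩
    have h1 : Ideal.relNorm A p = IsLocalRing.maximalIdeal A :=
      r38pl_relNorm_prime (K := K) hres Q
    have h2 : hi_totalCount A p = 1 := hi_totalCount_prime Q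
    rw [map_mul, ih ha, h1, hi_totalCount_mul hp.ne_zero ha, h2, pow_add, pow_one]

variable (v : Place K F)
  (hv : ∀ x : F, x ∈ v.toValuationSubring ↔ x ∈ Set.range (algebraMap A F))

open Fermat.Agent.HeckeInputs in
variable (A) in
include hv in
/-- the norm formula for elements of `B`. -/
theorem r38pl_ord_norm_algebraMap [IsAlgClosed K]
    [HasPrincipalDivisors K F'] [IsIntegralClosure B A F']
    (hres : Function.Surjective
      ((Ideal.Quotient.mk (IsLocalRing.maximalIdeal A)).comp (algebraMap K A)))
    (b : B) (hb : b ≠ 0) :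
    v.ord (Algebra.norm F (algebraMap B F' b)) = ∑ w ∈ v.fiber F', w.ord (algebraMap B F' b) := by
  haveI : Algebra.IsIntegral A B := Algebra.IsIntegral.of_finite A B
  have hI : Ideal.span {b} ≠ (0 : Ideal B) := by
    rw [Ne, Ideal.zero_eq_bot, Ideal.span_singleton_eq_bot]
    exact hb
  rw [hi_sum_ord_algebraMap A v hv b hb, ← Algebra.algebraMap_intNorm (A := A) (K := F)]
  apply hi_ord_of_span_eq v hv
  rw [← Ideal.relNorm_singleton, r38pl_relNorm_eq (K := K) hres _ hI]

open Fermat.Agent.HeckeInputs in
variable (A B) in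
include hv B in
/-- the norm formula: `ord_v (N f) = ∑_{w ∣ v} ord_w f`. -/
theorem r38pl_ord_norm [IsAlgClosed K]
    [HasPrincipalDivisors K F'] [IsIntegralClosure B A F']
    (hres : Function.Surjective
      ((Ideal.Quotient.mk (IsLocalRing.maximalIdeal A)).comp (algebraMap K A)))
    (f : F') (hf : f ≠ 0) :
    v.ord (Algebra.norm F f) = ∑ w ∈ v.fiber F', w.ord f := by
  obtain ⟨b₁, b₂, hb₂, rfl⟩ := IsFractionRing.div_surjective (A := B) f
  have hb₂0 : b₂ ≠ 0 := nonZeroDivisors.ne_zero hb₂
  have hb₁0 : b₁ ≠ 0 := by
    rintro rfl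
    simp at hf
  have h1 : algebraMap B F' b₁ ≠ 0 := by
    rwa [Ne, map_eq_zero_iff _ (IsFractionRing.injective B F')]
  have h2 : algebraMap B F' b₂ ≠ 0 := by
    rwa [Ne, map_eq_zero_iff _ (IsFractionRing.injective B F')]
  have hn1 : Algebra.norm F (algebraMap B F' b₁) ≠ 0 := Algebra.norm_ne_zero_iff.mpr h1
  have hn2 : Algebra.norm F (algebraMap B F' b₂) ≠ 0 := Algebra.norm_ne_zero_iff.mpr h2
  have hinv : Algebra.norm F (algebraMap B F' b₂)⁻¹ = (Algebra.norm F (algebraMap B F' b₂))⁻¹ := by
    apply eq_inv_of_mul_eq_one_left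
    rw [← map_mul, inv_mul_cancel₀ h2, map_one]
  rw [div_eq_mul_inv, map_mul, hinv, v.ord_mul hn1 (inv_ne_zero hn2), v.ord_inv,
    r38pl_ord_norm_algebraMap A v hv hres b₁ hb₁0, r38pl_ord_norm_algebraMap A v hv hres b₂ hb₂0,
    ← sub_eq_add_neg, ← Finset.sum_sub_distrib]
  refine Finset.sum_congr rfl fun w _ => ?_
  rw [w.ord_mul h1 (inv_ne_zero h2), w.ord_inv, sub_eq_add_neg]

end DVR

section Global

open Fermat.Agent.S24Diff

variable {K F F' : Type*} [Field K] [Field F] [Field F']
  [Algebra K F] [Algebra K F'] [Algebra F F'] [IsScalarTower K F F'] [FiniteDimensional F F']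
  [IsAlgClosed K]

/-- every place of a function field over an algebraically closed field has inertia degree `1`
(any characteristic). -/
theorem r38pl_inertiaDeg_eq_one {x' : F'} (h' : IsFunctionFieldOver K F' x') (w : Place K F') :
    w.inertiaDeg F = 1 := by
  have h1 := w.deg_restrict_mul_inertiaDeg (F := F)
  rw [Fermat.Agent.S24Res.deg_eq_one h' w] at h1
  exact Nat.eq_one_of_mul_eq_one_left h1

section Local

variable (v : Place K F)

/-- the algebra structure of `F'` over the valuation ring of `v`. -/
abbrev r38pl_algA : Algebra v.toValuationSubring F' :=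
  ((algebraMap F F').comp (algebraMap v.toValuationSubring F)).toAlgebra

theorem r38pl_towerA :
    letI := r38pl_algA (F' := F') v; IsScalarTower v.toValuationSubring F F' :=
  letI := r38pl_algA (F' := F') v
  IsScalarTower.of_algebraMap_eq fun _ => rfl

theorem r38pl_towerKA :
    letI := r38pl_algA (F' := F') v; IsScalarTower K v.toValuationSubring F' :=
  letI := r38pl_algA (F' := F') v
  IsScalarTower.of_algebraMap_eq fun a => by
    show algebraMap K F' a = algebraMap F F' ((algebraMap K v.toValuationSubring a : _) : F)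
    rw [Place.coe_algebraMap, ← IsScalarTower.algebraMap_apply]

theorem r38pl_hv (x : F) :
    x ∈ v.toValuationSubring ↔ x ∈ Set.range (algebraMap v.toValuationSubring F) := by
  constructor
  · intro hx
    exact ⟨⟨x, hx⟩, rfl⟩
  · rintro ⟨a, rfl⟩
    exact a.2

theorem r38pl_hres {x : F} (h : IsFunctionFieldOver K F x) :
    Function.Surjective
      ((Ideal.Quotient.mk (IsLocalRing.maximalIdeal v.toValuationSubring)).comp
        (algebraMap K v.toValuationSubring)) := by
  intro z
  obtain ⟨f, rfl⟩ := Ideal.Quotient.mk_surjective z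
  obtain ⟨a, ha⟩ := Fermat.Agent.S24Res.exists_sub_mem_maximalIdeal h v f
  refine ⟨a, ?_⟩
  rw [RingHom.comp_apply, eq_comm, Ideal.Quotient.eq]
  exact ha

variable (F') in
/-- the norm formula at `v`, for a separable extension (any characteristic). -/
theorem r38pl_ord_norm_global [Algebra.IsSeparable F F'] [HasPrincipalDivisors K F'] {x : F}
    (h : IsFunctionFieldOver K F x) (f : F') (hf : f ≠ 0) :
    v.ord (Algebra.norm F f) = ∑ w ∈ v.fiber F', w.ord f := by
  letI := r38pl_algA (F' := F') v
  haveI := r38pl_towerA (F' := F') v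
  haveI := r38pl_towerKA (F' := F') v
  haveI : IsDedekindDomain (integralClosure v.toValuationSubring F') :=
    integralClosure.isDedekindDomain v.toValuationSubring F F'
  haveI : IsFractionRing (integralClosure v.toValuationSubring F') F' :=
    integralClosure.isFractionRing_of_finite_extension F F'
  haveI : Module.Finite v.toValuationSubring (integralClosure v.toValuationSubring F') :=
    IsIntegralClosure.finite v.toValuationSubring F F' _
  haveI : Module.IsTorsionFree v.toValuationSubring (integralClosure v.toValuationSubring F') := by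
    haveI : Module.IsTorsionFree v.toValuationSubring F' :=
      .trans_faithfulSMul v.toValuationSubring F F'
    exact IsIntegralClosure.isTorsionFree v.toValuationSubring F'
  exact r38pl_ord_norm v.toValuationSubring (integralClosure v.toValuationSubring F') v
    (r38pl_hv v) (r38pl_hres v h) f hf

end Local

variable (K F F') in
/-- **the norm formula for a finite separable extension of function fields** over an
algebraically closed field of any characteristic. -/
theorem r38pl_pushforwardNormFormula [Algebra.IsSeparable F F'] [HasPrincipalDivisors K F']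
    {x : F} {x' : F'} (h : IsFunctionFieldOver K F x) (h' : IsFunctionFieldOver K F' x') :
    Divisor.PushforwardNormFormula K F F' := by
  intro f hf D hD v
  rw [Fermat.Agent.HeckeInputs.hi_pushforward_apply, r38pl_ord_norm_global F' v h f hf]
  refine Finset.sum_congr rfl fun w _ => ?_
  rw [r38pl_inertiaDeg_eq_one h' w, Nat.cast_one, mul_one, hD]

end Global

section Along

open Fermat.Agent.S24Diff

variable {K F F' : Type*} [Field K] [Field F] [Field F'] [Algebra K F] [Algebra K F']
  [IsAlgClosed K]

/-- **the norm formula along a finite separable morphism of function fields**, any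
characteristic. -/
theorem r38pl_normFormulaAlong (φ : F →ₐ[K] F') (hfin : FiniteAlong K φ)
    (hsep : letI := algebraAlong φ; Algebra.IsSeparable F F')
    [HasPrincipalDivisors K F'] {x : F} (h : IsFunctionFieldOver K F x) {x' : F'}
    (h' : IsFunctionFieldOver K F' x') : NormFormulaAlong K φ hfin := by
  letI := algebraAlong φ
  haveI := isScalarTower_along φ
  haveI : FiniteDimensional F F' := hfin
  haveI : Algebra.IsSeparable F F' := hsep
  exact r38pl_pushforwardNormFormula K F F' h h'

end Along

end Fermat.Agent.R38
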