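/-
Row 38 (target S44), block D / P, seat ETA-LEV (c) (helper26; split by helper83):
**the Atkin–Lehner involution `w_Q` is compatible with raising the level away from `Q`**.

`D, D' : ALData`, `D'.Q = D.Q`, `D.R ∣ D'.R`.  Then `F_{QR} ⊆ F_{QR'}` (as subfields of `ℚ̄((q))`) and
`w_{D'} (x) = w_D (x)` for `x ∈ F_{QR}`:

* `r38_atkinLehner_inclusion` : `atkinLehner D' (incl x) = incl (atkinLehner D x)`;
* `r38_coe_atkinLehner_inclusion` : the same as an equality of Laurent series;
* `r38_valSetupZero_mem_iff`, `r38_valSetupZero_red` : if a constant reduction `S'` of `F_{QR'}`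
  restricts to `S` on `F_{QR}` (valuation rings, resp. reduction maps along `ι : Fk → Fk'`), then
  `v_0' = v_∞' ∘ w_{D'}` restricts to `v_0 = v_∞ ∘ w_D` in the same sense.
-/
import Mathlib
import Fermat.Agent.Lib.BadRed.Mod.ValZero

set_option autoImplicit false
set_option linter.unusedVariables false
set_option linter.unusedSectionVars false
set_option linter.style.haveILetI false

noncomputable section

namespace Fermat.Agent.R38

open Fermat.Agent.AtkinLehner Fermat.Agent.S24 Fermat.Agent.Deuring Fermat.Agent.BadRed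
  ModularCurve

/-- `F_N ⊆ F_M` for `N ∣ M` (generators `j(q^d)`, `d ∣ N`). -/
theorem r38_fbar_le_of_dvd {N M : ℕ} (h : N ∣ M) :
    modularFunctionFieldBar N ≤ modularFunctionFieldBar M := by
  rw [modularFunctionFieldBar_eq_adjoin N, modularFunctionFieldBar_eq_adjoin M]
  apply IntermediateField.adjoin.mono
  rintro x ⟨d, hdne, hd, rfl⟩
  exact ⟨d, hdne, hd.trans h, rfl⟩

/-- the level `Q R` divides the level `Q' R'` -/
theorem r38_level_dvd (D D' : ALData) (hQ : D'.Q = D.Q) (hR : D.R ∣ D'.R) :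
    D.Q * D.R ∣ D'.Q * D'.R := by
  rw [hQ]
  exact Nat.mul_dvd_mul_left _ hR

/-- the inclusion of `j(q^d)` -/
theorem r38_inclusion_jF {N M : ℕ}
    (hle : modularFunctionFieldBar N ≤ modularFunctionFieldBar M) (d : ℕ) [NeZero d]
    (hd : d ∣ N) (hd' : d ∣ M) :
    IntermediateField.inclusion hle (jF N d hd) = jF M d hd' := by
  apply Subtype.ext
  rw [IntermediateField.coe_inclusion, coe_jF, coe_jF]

/-- **`w_{D'}` restricts to `w_D` on `F_{QR}`** (`D'.Q = D.Q`, `D.R ∣ D'.R`). -/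
theorem r38_atkinLehner_inclusion (D D' : ALData) (hQ : D'.Q = D.Q) (hR : D.R ∣ D'.R)
    (hle : modularFunctionFieldBar (D.Q * D.R) ≤ modularFunctionFieldBar (D'.Q * D'.R))
    (x : modularFunctionFieldBar (D.Q * D.R)) :
    atkinLehner D' (IntermediateField.inclusion hle x) =
      IntermediateField.inclusion hle (atkinLehner D x) := by
  obtain ⟨x, hx⟩ := x
  have hx' : x ∈ IntermediateField.adjoin Kbar (serGens (D.Q * D.R)) := by
    rw [← modularFunctionFieldBar_eq_adjoin]
    exact hx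
  have hmem : ∀ y, y ∈ IntermediateField.adjoin Kbar (serGens (D.Q * D.R)) →
      y ∈ modularFunctionFieldBar (D.Q * D.R) := by
    intro y hy
    rw [modularFunctionFieldBar_eq_adjoin]
    exact hy
  refine IntermediateField.adjoin_induction Kbar
    (p := fun y _ => ∀ h : y ∈ modularFunctionFieldBar (D.Q * D.R),
      atkinLehner D' (IntermediateField.inclusion hle ⟨y, h⟩) =
        IntermediateField.inclusion hle (atkinLehner D ⟨y, h⟩))
    ?_ ?_ ?_ ?_ ?_ hx' hx
  · rintro y ⟨d, hdne, hd, rfl⟩ h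
    have e : (⟨qExpand Kbar d (jqModC Kbar), h⟩ : modularFunctionFieldBar (D.Q * D.R)) =
        jF (D.Q * D.R) d hd := rfl
    rw [e]
    obtain ⟨d₁, e₁, d₂, f₂, h1, h2, rfl⟩ := exists_factor D hd
    obtain ⟨p1, p2, p3, p4⟩ := factor_pos D h1 h2
    haveI : NeZero (e₁ * d₂) := ⟨(Nat.mul_pos p2 p3).ne'⟩
    obtain ⟨c, hc⟩ := hR
    have h1' : d₁ * e₁ = D'.Q := by rw [hQ]; exact h1
    have h2' : d₂ * (f₂ * c) = D'.R := by rw [hc, ← h2, mul_assoc]
    have hdvd : D.Q * D.R ∣ D'.Q * D'.R := r38_level_dvd D D' hQ ⟨c, hc⟩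
    have hd1 : e₁ * d₂ ∣ D.Q * D.R := by
      rw [← h1, ← h2]
      exact Nat.mul_dvd_mul (Dvd.intro_left d₁ rfl) (Dvd.intro f₂ rfl)
    rw [atkinLehner_jF D d₁ e₁ d₂ f₂ h1 h2 hd hd1,
      r38_inclusion_jF hle (d₁ * d₂) hd (hd.trans hdvd),
      r38_inclusion_jF hle (e₁ * d₂) hd1 (hd1.trans hdvd),
      atkinLehner_jF D' d₁ e₁ d₂ (f₂ * c) h1' h2' (hd.trans hdvd) (hd1.trans hdvd)]
  · intro c h
    have e : (⟨algebraMap Kbar (LaurentSeries Kbar) c, h⟩ :
        modularFunctionFieldBar (D.Q * D.R)) =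
        algebraMap Kbar (modularFunctionFieldBar (D.Q * D.R)) c := rfl
    rw [e, AlgEquiv.commutes, AlgHom.commutes, AlgEquiv.commutes]
  · intro y z hy hz ihy ihz h
    have hy' := hmem y hy
    have hz' := hmem z hz
    have e : (⟨y + z, h⟩ : modularFunctionFieldBar (D.Q * D.R)) = ⟨y, hy'⟩ + ⟨z, hz'⟩ := rfl
    rw [e, map_add, map_add, map_add, map_add, ihy hy', ihz hz']
  · intro y hy ihy h
    have hy' := hmem y hy
    have e : (⟨y⁻¹, h⟩ : modularFunctionFieldBar (D.Q * D.R)) = (⟨y, hy'⟩)⁻¹ := rfl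
    rw [e, map_inv₀, map_inv₀, map_inv₀, map_inv₀, ihy hy']
  · intro y z hy hz ihy ihz h
    have hy' := hmem y hy
    have hz' := hmem z hz
    have e : (⟨y * z, h⟩ : modularFunctionFieldBar (D.Q * D.R)) = ⟨y, hy'⟩ * ⟨z, hz'⟩ := rfl
    rw [e, map_mul, map_mul, map_mul, map_mul, ihy hy', ihz hz']

/-- the same as an equality of Laurent series -/
theorem r38_coe_atkinLehner_inclusion (D D' : ALData) (hQ : D'.Q = D.Q) (hR : D.R ∣ D'.R)
    (hle : modularFunctionFieldBar (D.Q * D.R) ≤ modularFunctionFieldBar (D'.Q * D'.R))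
    (x : modularFunctionFieldBar (D.Q * D.R)) :
    ((atkinLehner D' (IntermediateField.inclusion hle x) :
        modularFunctionFieldBar (D'.Q * D'.R)) : LaurentSeries Kbar) =
      ((atkinLehner D x : modularFunctionFieldBar (D.Q * D.R)) : LaurentSeries Kbar) := by
  rw [r38_atkinLehner_inclusion D D' hQ hR hle x, IntermediateField.coe_inclusion]

section ValSetup

variable {k Fk Fk' : Type*} [Field k] [Field Fk] [Algebra k Fk] [Field Fk'] [Algebra k Fk']

/-- **`v_0` compat, valuation rings**: if `O_{v_∞'} ∩ F_{QR} = O_{v_∞}` then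
`O_{v_0'} ∩ F_{QR} = O_{v_0}`. -/
theorem r38_valSetupZero_mem_iff (D D' : ALData) (hQ : D'.Q = D.Q) (hR : D.R ∣ D'.R)
    (hle : modularFunctionFieldBar (D.Q * D.R) ≤ modularFunctionFieldBar (D'.Q * D'.R))
    (S : ValSetup Kbar (modularFunctionFieldBar (D.Q * D.R)) k Fk)
    (S' : ValSetup Kbar (modularFunctionFieldBar (D'.Q * D'.R)) k Fk')
    (hOv : ∀ x, IntermediateField.inclusion hle x ∈ S'.Ov ↔ x ∈ S.Ov)
    (x : modularFunctionFieldBar (D.Q * D.R)) :
    IntermediateField.inclusion hle x ∈ (valSetupZero D' S').Ov ↔ x ∈ (valSetupZero D S).Ov := by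
  rw [mem_valSetupZero_Ov, mem_valSetupZero_Ov, r38_atkinLehner_inclusion D D' hQ hR hle x, hOv]

/-- **`v_0` compat, reductions**: if `red_∞' ∘ incl = ι ∘ red_∞` then
`red_0' ∘ incl = ι ∘ red_0`. -/
theorem r38_valSetupZero_red (D D' : ALData) (hQ : D'.Q = D.Q) (hR : D.R ∣ D'.R)
    (hle : modularFunctionFieldBar (D.Q * D.R) ≤ modularFunctionFieldBar (D'.Q * D'.R))
    (S : ValSetup Kbar (modularFunctionFieldBar (D.Q * D.R)) k Fk)
    (S' : ValSetup Kbar (modularFunctionFieldBar (D'.Q * D'.R)) k Fk')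
    (ι : Fk → Fk')
    (hred : ∀ x, S'.red (IntermediateField.inclusion hle x) = ι (S.red x))
    (x : modularFunctionFieldBar (D.Q * D.R)) :
    (valSetupZero D' S').red (IntermediateField.inclusion hle x) =
      ι ((valSetupZero D S).red x) := by
  rw [valSetupZero_red, valSetupZero_red, r38_atkinLehner_inclusion D D' hQ hR hle x, hred]

end ValSetup

end Fermat.Agent.R38
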