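/-
Row 38 (target S44), block D / P, seat ETA-LEV (a) (helper26):
**the Gauss constant reduction is compatible with raising the level**.

Abstract part (`Lib/GaussInt`): for intermediate fields `F ≤ F'` of `K((q))` and a valuation
subring `A` of `K`, `gaussSub A F ≤ gaussSub A F'` and the residues agree on `gaussSub A F`.

Modular part: `S`, `S'` constant reductions of `F_N ⊆ F_{N'}` which are both Gauss setups at the
same place `A` (`IsGaussSetup N N₀ A S`, `IsGaussSetup N' N₀' A S'`).  Then for `x ∈ F_N`: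

* `r38_gauss_mem_iff` : `incl x ∈ S'.Ov ↔ x ∈ S.Ov`;
* `r38_gauss_coe_red` : `S'.red (incl x) = S.red x` as Laurent series over the residue field;
* `r38_gauss_red` : `S'.red (incl x) = incl₀ (S.red x)` when `F_k(N₀) ≤ F_k(N₀')`.
-/
import Mathlib
import Fermat.Agent.Lib.BadRed.Mod.GaussSetup

set_option autoImplicit false
set_option linter.unusedVariables false
set_option linter.unusedSectionVars false
set_option linter.style.haveILetI false
set_option synthInstance.maxHeartbeats 400000

noncomputable section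

namespace Fermat.Agent.R38

open Fermat.Agent.GaussInt Fermat.Agent.Deuring Fermat.Agent.BadRed Fermat.Agent.S24 ModularCurve
  Fermat.Agent.F3G

/-! ### abstract part -/

section Abstract

variable {K : Type*} [Field K] {A : ValuationSubring K}
  {F F' : IntermediateField K (LaurentSeries K)}

/-- a presentation in `F` is a presentation in `F' ⊇ F` -/
theorem r38_isPres_mono (hle : F ≤ F') {f : LaurentSeries K} {Y₁ Y₂ : LaurentSeries A}
    (h : IsPres A F f Y₁ Y₂) : IsPres A F' f Y₁ Y₂ :=
  ⟨hle h.mem₁, hle h.mem₂, h.prim, h.eq⟩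

theorem r38_gaussSub_mono (hle : F ≤ F') : gaussSub A F ≤ gaussSub A F' := by
  rintro f ⟨Y₁, Y₂, h⟩
  exact ⟨Y₁, Y₂, r38_isPres_mono hle h⟩

/-- the residues at the two levels agree on the smaller Gauss ring -/
theorem r38_gaussResFun_eq (hle : F ≤ F') {f : LaurentSeries K} (hf : f ∈ gaussSub A F) :
    gaussResFun A F' f = gaussResFun A F f := by
  obtain ⟨Y₁, Y₂, h⟩ := hf
  rw [gaussResFun_eq h, gaussResFun_eq (r38_isPres_mono hle h)]

/-- an element outside a valuation ring has an inverse which is a non-unit of the valuation ring -/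
theorem r38_inv_nonunit {L : Type*} [Field L] (O : ValuationSubring L) {x : L} (hx : x ∉ O) :
    ∃ h : x⁻¹ ∈ O, ¬ IsUnit (⟨x⁻¹, h⟩ : O) := by
  have hinv : x⁻¹ ∈ O := (O.mem_or_inv_mem x).resolve_left hx
  refine ⟨hinv, fun hu => hx ?_⟩
  have h1 : O.valuation x⁻¹ = 1 := (O.valuation_eq_one_iff ⟨x⁻¹, hinv⟩).mp hu
  rw [map_inv₀, inv_eq_one] at h1
  exact (O.valuation_le_one_iff x).mp h1.le

/-- the reduction of an element of the valuation ring vanishes iff the element is not a unit;
in terms of `red` -/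
theorem r38_red_eq_zero_iff {K₁ F₁ k₁ Fk₁ : Type*} [Field K₁] [Field F₁] [Algebra K₁ F₁] [Field k₁]
    [Field Fk₁] [Algebra k₁ Fk₁] (T : ValSetup K₁ F₁ k₁ Fk₁) {f : F₁} (hf : f ∈ T.Ov) :
    T.red f = 0 ↔ ¬ IsUnit (⟨f, hf⟩ : T.Ov) := by
  unfold ValSetup.red
  rw [dif_pos hf]
  exact T.ρ_eq_zero_iff ⟨f, hf⟩

theorem r38_red_of_not_mem {K₁ F₁ k₁ Fk₁ : Type*} [Field K₁] [Field F₁] [Algebra K₁ F₁] [Field k₁]
    [Field Fk₁] [Algebra k₁ Fk₁] (T : ValSetup K₁ F₁ k₁ Fk₁) {f : F₁} (hf : f ∉ T.Ov) :
    T.red f = 0 := by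
  unfold ValSetup.red
  rw [dif_neg hf]

/-- the reduction of the inverse of an element outside the valuation ring vanishes -/
theorem r38_red_inv_eq_zero {K₁ F₁ k₁ Fk₁ : Type*} [Field K₁] [Field F₁] [Algebra K₁ F₁]
    [Field k₁] [Field Fk₁] [Algebra k₁ Fk₁] (T : ValSetup K₁ F₁ k₁ Fk₁) {f : F₁}
    (hf : f ∉ T.Ov) : f⁻¹ ∈ T.Ov ∧ T.red f⁻¹ = 0 := by
  obtain ⟨h, hnu⟩ := r38_inv_nonunit T.Ov hf
  exact ⟨h, (r38_red_eq_zero_iff T h).mpr hnu⟩

/-- elements of the valuation ring with product `1` have non-zero reduction -/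
theorem r38_red_ne_zero_of_mul_eq_one {K₁ F₁ k₁ Fk₁ : Type*} [Field K₁] [Field F₁]
    [Algebra K₁ F₁] [Field k₁] [Field Fk₁] [Algebra k₁ Fk₁] (T : ValSetup K₁ F₁ k₁ Fk₁)
    {f g : F₁} (hf : f ∈ T.Ov) (hg : g ∈ T.Ov) (hfg : f * g = 1) : T.red f ≠ 0 := by
  rw [Ne, r38_red_eq_zero_iff T hf, not_not]
  exact ⟨⟨⟨f, hf⟩, ⟨g, hg⟩, Subtype.ext hfg, Subtype.ext (by rw [mul_comm]; exact hfg)⟩, rfl⟩

/-- the zero elements of two subfields coincide in the ambient field -/
theorem r38_coe_eq_of_eq_zero {K₁ L : Type*} [Field K₁] [Field L] [Algebra K₁ L]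
    {F₁ F₂ : IntermediateField K₁ L} {a : F₁} {b : F₂} (ha : a = 0) (hb : b = 0) :
    (a : L) = (b : L) := by
  rw [ha, hb]
  rfl

theorem r38_eq_zero_of_coe_eq {K₁ L : Type*} [Field K₁] [Field L] [Algebra K₁ L]
    {F₁ F₂ : IntermediateField K₁ L} {a : F₁} {b : F₂} (hab : (a : L) = (b : L)) (hb : b = 0) :
    a = 0 := by
  apply Subtype.ext
  rw [hab, hb]
  rfl

end Abstract

/-! ### modular part -/

section Modular

local notation "Qb" => AlgebraicClosure ℚ

variable {N N' N₀ N₀' : ℕ} [NeZero N] [NeZero N'] [NeZero N₀] [NeZero N₀']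
  {A : ValuationSubring Qb}
  {S : ValSetup Qb (modularFunctionFieldBar N) (IsLocalRing.ResidueField A)
    (modularFunctionFieldFullC (IsLocalRing.ResidueField A) N₀)}
  {S' : ValSetup Qb (modularFunctionFieldBar N') (IsLocalRing.ResidueField A)
    (modularFunctionFieldFullC (IsLocalRing.ResidueField A) N₀')}

/-- `O_{S'} ∩ F_N ⊇ O_S` -/
theorem r38_gauss_mem_of_mem (hS : IsGaussSetup N N₀ A S) (hS' : IsGaussSetup N' N₀' A S')
    (hle : modularFunctionFieldBar N ≤ modularFunctionFieldBar N') {x : modularFunctionFieldBar N}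
    (hx : x ∈ S.Ov) : IntermediateField.inclusion hle x ∈ S'.Ov := by
  rw [hS'.mem_iff, IntermediateField.coe_inclusion]
  exact r38_gaussSub_mono hle ((hS.mem_iff x).mp hx)

/-- the reductions agree on `O_S` -/
theorem r38_gauss_coe_red_of_mem (hS : IsGaussSetup N N₀ A S)
    (hS' : IsGaussSetup N' N₀' A S')
    (hle : modularFunctionFieldBar N ≤ modularFunctionFieldBar N') {x : modularFunctionFieldBar N}
    (hx : x ∈ S.Ov) :
    ((S'.red (IntermediateField.inclusion hle x) :
        modularFunctionFieldFullC (IsLocalRing.ResidueField A) N₀') :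
        LaurentSeries (IsLocalRing.ResidueField A)) =
      ((S.red x : modularFunctionFieldFullC (IsLocalRing.ResidueField A) N₀) :
        LaurentSeries (IsLocalRing.ResidueField A)) := by
  rw [hS'.coe_red _ (r38_gauss_mem_of_mem hS hS' hle hx), hS.coe_red _ hx,
    IntermediateField.coe_inclusion]
  exact r38_gaussResFun_eq hle ((hS.mem_iff x).mp hx)

set_option maxHeartbeats 3200000 in
/-- **`O_{S'} ∩ F_N = O_S`**. -/
theorem r38_gauss_mem_iff (hS : IsGaussSetup N N₀ A S) (hS' : IsGaussSetup N' N₀' A S')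
    (hle : modularFunctionFieldBar N ≤ modularFunctionFieldBar N') (x : modularFunctionFieldBar N) :
    IntermediateField.inclusion hle x ∈ S'.Ov ↔ x ∈ S.Ov := by
  refine ⟨fun hx' => ?_, r38_gauss_mem_of_mem hS hS' hle⟩
  by_contra hx
  obtain ⟨hinv, hred⟩ := r38_red_inv_eq_zero S hx
  have hx0 : x ≠ 0 := fun h0 => hx (by rw [h0]; exact S.Ov.zero_mem)
  have hinv' : IntermediateField.inclusion hle x⁻¹ ∈ S'.Ov :=
    r38_gauss_mem_of_mem hS hS' hle hinv
  have hred' : S'.red (IntermediateField.inclusion hle x⁻¹) = 0 :=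
    r38_eq_zero_of_coe_eq (K₁ := IsLocalRing.ResidueField A)
      (L := LaurentSeries (IsLocalRing.ResidueField A))
      (F₁ := modularFunctionFieldFullC (IsLocalRing.ResidueField A) N₀')
      (F₂ := modularFunctionFieldFullC (IsLocalRing.ResidueField A) N₀)
      (r38_gauss_coe_red_of_mem hS hS' hle hinv) hred
  have hmul : IntermediateField.inclusion hle x⁻¹ * IntermediateField.inclusion hle x = 1 := by
    rw [← map_mul, inv_mul_cancel₀ hx0, map_one]
  exact r38_red_ne_zero_of_mul_eq_one S' hinv' hx' hmul hred'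

set_option maxHeartbeats 3200000 in
/-- **the reductions agree** (as Laurent series over the residue field), for every `x ∈ F_N`. -/
theorem r38_gauss_coe_red (hS : IsGaussSetup N N₀ A S) (hS' : IsGaussSetup N' N₀' A S')
    (hle : modularFunctionFieldBar N ≤ modularFunctionFieldBar N') (x : modularFunctionFieldBar N) :
    ((S'.red (IntermediateField.inclusion hle x) :
        modularFunctionFieldFullC (IsLocalRing.ResidueField A) N₀') :
        LaurentSeries (IsLocalRing.ResidueField A)) =
      ((S.red x : modularFunctionFieldFullC (IsLocalRing.ResidueField A) N₀) :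
        LaurentSeries (IsLocalRing.ResidueField A)) := by
  by_cases hx : x ∈ S.Ov
  · exact r38_gauss_coe_red_of_mem hS hS' hle hx
  · have hx' : IntermediateField.inclusion hle x ∉ S'.Ov :=
      fun h => hx ((r38_gauss_mem_iff hS hS' hle x).mp h)
    exact r38_coe_eq_of_eq_zero (K₁ := IsLocalRing.ResidueField A)
      (L := LaurentSeries (IsLocalRing.ResidueField A))
      (F₁ := modularFunctionFieldFullC (IsLocalRing.ResidueField A) N₀')
      (F₂ := modularFunctionFieldFullC (IsLocalRing.ResidueField A) N₀)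
      (r38_red_of_not_mem S' hx') (r38_red_of_not_mem S hx)

/-- **the reductions agree**, with the inclusion `F_k(N₀) ⊆ F_k(N₀')` of the residue function
fields. -/
theorem r38_gauss_red (hS : IsGaussSetup N N₀ A S) (hS' : IsGaussSetup N' N₀' A S')
    (hle : modularFunctionFieldBar N ≤ modularFunctionFieldBar N')
    (hle₀ : modularFunctionFieldFullC (IsLocalRing.ResidueField A) N₀ ≤
      modularFunctionFieldFullC (IsLocalRing.ResidueField A) N₀') (x : modularFunctionFieldBar N) :
    S'.red (IntermediateField.inclusion hle x) = IntermediateField.inclusion hle₀ (S.red x) := by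
  apply Subtype.ext
  rw [r38_gauss_coe_red hS hS' hle x, IntermediateField.coe_inclusion]

/-- `F_k(N₀) ⊆ F_k(N₀')` for `N₀ ∣ N₀'`. -/
theorem r38_fullC_le_of_dvd (k : Type*) [Field k] {M M' : ℕ} (h : M ∣ M') :
    modularFunctionFieldFullC k M ≤ modularFunctionFieldFullC k M' := by
  unfold modularFunctionFieldFullC
  apply IntermediateField.adjoin.mono
  rintro x ⟨d, hdne, hd, rfl⟩
  exact ⟨d, hdne, hd.trans h, rfl⟩

end Modular

end Fermat.Agent.R38
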