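/-
Row 38 wave (architect helper81), block D / P, seat (PU) of AUX-DESC (helper96):
**places of the residue function field lift to a higher level.**

`k` algebraically closed (any characteristic), `R ∣ R'`, `ι = mc_inclC k h` the inclusion
`F_k(R) ⊆ F_k(R')`:

* `r38_placeUp`       : every place `Q` of `F_k(R)` has a place `Q'` of `F_k(R')` above it, with
                        `ord_{Q'} (ι x) = e · ord_Q x` for all `x`, `e ≥ 1`
                        (`ι = IntermediateField.inclusion hle₀`);
* `r38_placeUp_dvd`   : the same for `mc_inclC k h`, `h : R ∣ R'`.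
-/
import Mathlib
import Fermat.Agent.Lib.RedTr.Basic
import Fermat.Agent.Lib.RedTr.FundIdK
import Fermat.Agent.Lib.RedTr.ModularCompat
import Fermat.Agent.Lib.RR.OfModularCFinal

set_option autoImplicit false
set_option linter.unusedSectionVars false
set_option linter.style.haveILetI false

noncomputable section

open ModularCurve AlgebraicCurve

set_option synthInstance.maxHeartbeats 400000

namespace Fermat.Agent.R38

open Fermat.Agent.RedTr Fermat.Agent.RR IntermediateField

section Abstract

variable {K E F : Type*} [Field K] [Field E] [Field F] [Algebra K E] [Algebra K F]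

/-- a place above, with the ramification index: abstract form. -/
theorem r38_placeUp_abs (hE : IsRRField K E) (hF : IsRRField K F) (φ : E →ₐ[K] F)
    (hfin : FiniteAlong K φ) (Q : Place K E) :
    ∃ (Q' : Place K F) (e : ℕ), 0 < e ∧ ∀ x : E, Q'.ord (φ x) = (e : ℤ) * Q.ord x := by
  have hφ : φ.toRingHom.IsIntegral := by
    letI := algebraAlong φ
    haveI : Module.Finite E F := hfin
    intro z
    exact (Algebra.IsIntegral.of_finite E F).isIntegral z
  haveI : HasPrincipalDivisors K F := hasPD hF
  have hFI : FundamentalIdentityAlong K φ hφ := fundIdK hE hF φ hφ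
  obtain ⟨Q', hQ'⟩ := exists_restrictAlong_eq hE hF φ hφ hFI hfin Q
  refine ⟨Q', Place.ramificationIndexAlong φ Q', ramificationIndexAlong_pos φ hφ Q', fun x => ?_⟩
  rw [Place.ord_restrictAlong φ hφ Q' x, hQ']

end Abstract

section Modular

variable (k : Type*) [Field k] [IsAlgClosed k] {M M' : ℕ} [NeZero M] [NeZero M']

/-- the inclusion `F_k(M) ⊆ F_k(M')` is finite. -/
theorem r38_placeUp_finite
    (hle₀ : modularFunctionFieldFullC k M ≤ modularFunctionFieldFullC k M')
    (hRR' : IsRRField k (modularFunctionFieldFullC k M')) :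
    FiniteAlong k (IntermediateField.inclusion hle₀) := by
  haveI : FiniteDimensional
      k⟮IntermediateField.inclusion hle₀ (Fermat.Agent.RRMod.jC k M)⟯
      (modularFunctionFieldFullC k M') := by
    have e : IntermediateField.inclusion hle₀ (Fermat.Agent.RRMod.jC k M) =
        Fermat.Agent.RRMod.jC k M' := Subtype.ext rfl
    rw [e]
    exact fundIdK_finiteDimensional hRR' (Fermat.Agent.RRMod.transcendental_jC k M')
  exact mc_finiteAlong _ (Fermat.Agent.RRMod.jC k M)

/-- **(PU)**: every place of `F_k(M)` has a place of `F_k(M')` above it (`F_k(M) ⊆ F_k(M')`),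
with `ord_{Q'} (ι x) = e · ord_Q x`, `e ≥ 1`. -/
theorem r38_placeUp
    (hle₀ : modularFunctionFieldFullC k M ≤ modularFunctionFieldFullC k M')
    (hRR : IsRRField k (modularFunctionFieldFullC k M))
    (hRR' : IsRRField k (modularFunctionFieldFullC k M'))
    (Q : Place k (modularFunctionFieldFullC k M)) :
    ∃ (Q' : Place k (modularFunctionFieldFullC k M')) (e : ℕ), 0 < e ∧
      ∀ x : modularFunctionFieldFullC k M,
        Q'.ord (IntermediateField.inclusion hle₀ x) = (e : ℤ) * Q.ord x :=
  r38_placeUp_abs hRR hRR' (IntermediateField.inclusion hle₀)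
    (r38_placeUp_finite k hle₀ hRR') Q

/-- **(PU)** for `M ∣ M'` and `mc_inclC`. -/
theorem r38_placeUp_dvd (h : M ∣ M') (Q : Place k (modularFunctionFieldFullC k M)) :
    ∃ (Q' : Place k (modularFunctionFieldFullC k M')) (e : ℕ), 0 < e ∧
      ∀ x : modularFunctionFieldFullC k M, Q'.ord (mc_inclC k h x) = (e : ℤ) * Q.ord x :=
  r38_placeUp k (mc_fullC_le k h) (Fermat.Agent.RRMod.isRRField_fullC' k M)
    (Fermat.Agent.RRMod.isRRField_fullC' k M') Q

end Modular

end Fermat.Agent.R38
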