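/-
Row 38 (S44), block P / D, seat AUX-DESC (helper83): descent of the slope congruence (INT) from an
auxiliary level.

`D D' : ALData` with the same prime `p = D.Q = D'.Q` and `D.R ∣ D'.R` (`p ∤ D'.R`);
`S = kpS D` (`v_∞` at level `p R`), `S' = kpS D'` (`v_∞` at level `p R'`),
`α : F_{pR} → F_{pR'}` and `ᾱ : F_k(R) → F_k(R')` the inclusions.

* `auxDesc_red_fwU`      : `ū' = ᾱ ū`;
* `auxDesc_isRedInf`     : a normalised reduction `r` of `g` gives the normalised reduction `ᾱ r`
                           of `α g`;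
* `r38_auxDesc_of_placeUp`, `r38_auxDesc` : **AUX-DESC**: (INT) at level `p R'` for `α g` implies
  (INT) at level `p R` for `g`, provided `p ∤ ε'` at the nodes of level `p R'` (P-eps at `D'`).
  Over the node `i` there is a node `i'` with `ε_{i'} = e ε_i`, `ord_{i'} (ᾱ r) = e ord_i r`,
  and `p ∤ e` because `p ∤ ε_{i'}`.
-/
import Mathlib
import Fermat.Agent.R38.SpineDefs
import Fermat.Agent.R38.P.LevelGauss
import Fermat.Agent.R38.P.PlaceUp

set_option autoImplicit false
set_option linter.style.haveILetI false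
set_option linter.unusedSectionVars false
set_option linter.unusedVariables false
set_option synthInstance.maxHeartbeats 400000
set_option maxHeartbeats 1000000

noncomputable section

namespace Fermat.Agent.R38

open ModularCurve AlgebraicCurve Fermat.Agent.F3 Fermat.Agent.F3G
  Fermat.Agent.GaussInt Fermat.Agent.AtkinLehner Fermat.Agent.Deuring Fermat.Agent.RR
  Fermat.Agent.BadRed Fermat.Agent.EKp

local notation "Qb" => AlgebraicClosure ℚ

variable (D : ALData) [NeZero D.Q] [NeZero D.R] [NeZero (D.Q * D.R)]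
  (A : ValuationSubring Qb) (hq : D.Q.Prime) (hA : A.LiesOverPrime D.Q) (hqR : ¬ D.Q ∣ D.R)
  (D' : ALData) [NeZero D'.Q] [NeZero D'.R] [NeZero (D'.Q * D'.R)]
  (hq' : D'.Q.Prime) (hA' : A.LiesOverPrime D'.Q) (hqR' : ¬ D'.Q ∣ D'.R)

/-- `kpEps_cast` with the instances derived from `hq`, `hA` (two `CharP` instances on the same
residue field must never be in scope together: the characteristic is an out-parameter). -/
theorem auxDesc_kpEps_cast (i : kpIota D A hq hA hqR) :
    ((kpEps D A hq hA hqR i : ℕ) : ℤ) = i.1.ord ((kpS D A hq hA hqR).red (fwU D)) := by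
  haveI : Fact D.Q.Prime := ⟨hq⟩
  haveI : CharP (IsLocalRing.ResidueField A) D.Q :=
    Fermat.Agent.FrobTrace.charP_residueField A hA
  haveI : IsAlgClosed (IsLocalRing.ResidueField A) := Fermat.Agent.GaussInt.isAlgClosed_residue A
  haveI : PerfectRing (IsLocalRing.ResidueField A) D.Q := inferInstance
  exact kpEps_cast D A hq hA hqR i

/-- `kpEps_pos` with the instances derived from `hq`, `hA`. -/
theorem auxDesc_kpEps_pos (i : kpIota D A hq hA hqR) : 0 < kpEps D A hq hA hqR i := by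
  haveI : Fact D.Q.Prime := ⟨hq⟩
  haveI : CharP (IsLocalRing.ResidueField A) D.Q :=
    Fermat.Agent.FrobTrace.charP_residueField A hA
  haveI : IsAlgClosed (IsLocalRing.ResidueField A) := Fermat.Agent.GaussInt.isAlgClosed_residue A
  haveI : PerfectRing (IsLocalRing.ResidueField A) D.Q := inferInstance
  exact kpEps_pos D A hq hA hqR i

/-- `ū' = ᾱ ū`: the reductions of `u = Δ(z)/Δ(pz)` at the two levels agree. -/
theorem auxDesc_red_fwU (hQ : D'.Q = D.Q)
    (hle₀ : modularFunctionFieldFullC (IsLocalRing.ResidueField A) D.R ≤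
      modularFunctionFieldFullC (IsLocalRing.ResidueField A) D'.R) :
    (kpS D' A hq' hA' hqR').red (fwU D') =
      IntermediateField.inclusion hle₀ ((kpS D A hq hA hqR).red (fwU D)) := by
  apply Subtype.ext
  rw [fw_coe_red_uF D' A hq' hA' _ (isGaussSetup_gaussSetupBad D' hq' hqR' A hA'),
    IntermediateField.coe_inclusion,
    fw_coe_red_uF D A hq hA _ (isGaussSetup_gaussSetupBad D hq hqR A hA), hQ]

/-- a normalised reduction of `g` gives a normalised reduction of `α g`. -/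
theorem auxDesc_isRedInf
    (hle : modularFunctionFieldBar (D.Q * D.R) ≤ modularFunctionFieldBar (D'.Q * D'.R))
    (hle₀ : modularFunctionFieldFullC (IsLocalRing.ResidueField A) D.R ≤
      modularFunctionFieldFullC (IsLocalRing.ResidueField A) D'.R)
    {g : FBar (D.Q * D.R)} {r : modularFunctionFieldFullC (IsLocalRing.ResidueField A) D.R}
    (h : spIsRedInf D A hq hA hqR g r) :
    spIsRedInf D' A hq' hA' hqR' (IntermediateField.inclusion hle g)
      (IntermediateField.inclusion hle₀ r) := by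
  obtain ⟨c, hc, hmem, hred, hr0⟩ := h
  have hS := isGaussSetup_gaussSetupBad D hq hqR A hA
  have hS' := isGaussSetup_gaussSetupBad D' hq' hqR' A hA'
  have e1 : IntermediateField.inclusion hle g / algebraMap Qb (FBar (D'.Q * D'.R)) c =
      IntermediateField.inclusion hle (g / algebraMap Qb (FBar (D.Q * D.R)) c) := by
    rw [map_div₀, AlgHom.commutes]
  unfold spIsRedInf
  refine ⟨c, hc, ?_, ?_, ?_⟩
  · rw [e1]
    exact (r38_gauss_mem_iff hS hS' hle _).mpr hmem
  · rw [e1, r38_gauss_red hS hS' hle hle₀, hred]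
  · intro h0
    apply hr0
    have := (map_eq_zero (IntermediateField.inclusion hle₀)).mp h0
    exact this

/-- **AUX-DESC**, from the existence of places of `F_k(R')` above the places of `F_k(R)`. -/
theorem r38_auxDesc_of_placeUp (hQ : D'.Q = D.Q)
    (hle : modularFunctionFieldBar (D.Q * D.R) ≤ modularFunctionFieldBar (D'.Q * D'.R))
    (hle₀ : modularFunctionFieldFullC (IsLocalRing.ResidueField A) D.R ≤
      modularFunctionFieldFullC (IsLocalRing.ResidueField A) D'.R)
    (hPU : ∀ Q : Place (IsLocalRing.ResidueField A)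
        (modularFunctionFieldFullC (IsLocalRing.ResidueField A) D.R),
      ∃ (Q' : Place (IsLocalRing.ResidueField A)
          (modularFunctionFieldFullC (IsLocalRing.ResidueField A) D'.R)) (e : ℕ), 0 < e ∧
        ∀ x : modularFunctionFieldFullC (IsLocalRing.ResidueField A) D.R,
          Q'.ord (IntermediateField.inclusion hle₀ x) = (e : ℤ) * Q.ord x)
    (hε' : ∀ Q' : Place (IsLocalRing.ResidueField A)
        (modularFunctionFieldFullC (IsLocalRing.ResidueField A) D'.R),
      0 < Q'.ord ((kpS D' A hq' hA' hqR').red (fwU D')) →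
        ¬ (D'.Q : ℤ) ∣ Q'.ord ((kpS D' A hq' hA' hqR').red (fwU D')))
    (g : FBar (D.Q * D.R))
    (h' : spSlopeInt D' A hq' hA' hqR' (IntermediateField.inclusion hle g)) :
    spSlopeInt D A hq hA hqR g := by
  intro r hr i j
  have hr' := auxDesc_isRedInf D A hq hA hqR D' hq' hA' hqR' hle hle₀ hr
  have hu := auxDesc_red_fwU D A hq hA hqR D' hq' hA' hqR' hQ hle₀
  obtain ⟨Qi, ei, hei, hordi⟩ := hPU i.1
  obtain ⟨Qj, ej, hej, hordj⟩ := hPU j.1
  have hεi := auxDesc_kpEps_cast D A hq hA hqR i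
  have hεj := auxDesc_kpEps_cast D A hq hA hqR j
  have hposi : (0 : ℤ) < (kpEps D A hq hA hqR i : ℤ) := by
    exact_mod_cast auxDesc_kpEps_pos D A hq hA hqR i
  have hposj : (0 : ℤ) < (kpEps D A hq hA hqR j : ℤ) := by
    exact_mod_cast auxDesc_kpEps_pos D A hq hA hqR j
  have hei' : (0 : ℤ) < (ei : ℤ) := by exact_mod_cast hei
  have hej' : (0 : ℤ) < (ej : ℤ) := by exact_mod_cast hej
  -- the orders of `ū'` at the places above
  have hui : Qi.ord ((kpS D' A hq' hA' hqR').red (fwU D')) =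
      (ei : ℤ) * (kpEps D A hq hA hqR i : ℤ) := by
    rw [hu, hordi, hεi]
  have huj : Qj.ord ((kpS D' A hq' hA' hqR').red (fwU D')) =
      (ej : ℤ) * (kpEps D A hq hA hqR j : ℤ) := by
    rw [hu, hordj, hεj]
  have hi' : 0 < Qi.ord ((kpS D' A hq' hA' hqR').red (fwU D')) := by
    rw [hui]
    exact mul_pos hei' hposi
  have hj' : 0 < Qj.ord ((kpS D' A hq' hA' hqR').red (fwU D')) := by
    rw [huj]
    exact mul_pos hej' hposj
  -- the nodes above
  obtain ⟨i', hi'e⟩ : ∃ i' : kpIota D' A hq' hA' hqR', i'.1 = Qi := ⟨⟨Qi, hi'⟩, rfl⟩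
  obtain ⟨j', hj'e⟩ : ∃ j' : kpIota D' A hq' hA' hqR', j'.1 = Qj := ⟨⟨Qj, hj'⟩, rfl⟩
  have key := h' _ hr' i' j'
  have hεi' : (kpEps D' A hq' hA' hqR' i' : ℤ) = (ei : ℤ) * (kpEps D A hq hA hqR i : ℤ) := by
    rw [auxDesc_kpEps_cast D' A hq' hA' hqR' i', hi'e, hui]
  have hεj' : (kpEps D' A hq' hA' hqR' j' : ℤ) = (ej : ℤ) * (kpEps D A hq hA hqR j : ℤ) := by
    rw [auxDesc_kpEps_cast D' A hq' hA' hqR' j', hj'e, huj]
  rw [hεi', hεj', hi'e, hj'e, hordi, hordj] at key
  -- `p ∤ e`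
  have hp : Prime (D'.Q : ℤ) := Nat.prime_iff_prime_int.mp hq'
  have hpi : ¬ (D'.Q : ℤ) ∣ (ei : ℤ) := fun hd =>
    hε' Qi hi' (by rw [hui]; exact Dvd.dvd.mul_right hd _)
  have hpj : ¬ (D'.Q : ℤ) ∣ (ej : ℤ) := fun hd =>
    hε' Qj hj' (by rw [huj]; exact Dvd.dvd.mul_right hd _)
  have hQZ : (D.Q : ℤ) = (D'.Q : ℤ) := by rw [hQ]
  rw [hQZ]
  have e2 : (ej : ℤ) * (kpEps D A hq hA hqR j : ℤ) * ((ei : ℤ) * i.1.ord r) -
      (ei : ℤ) * (kpEps D A hq hA hqR i : ℤ) * ((ej : ℤ) * j.1.ord r) =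
      (ei : ℤ) * ((ej : ℤ) * ((kpEps D A hq hA hqR j : ℤ) * i.1.ord r -
        (kpEps D A hq hA hqR i : ℤ) * j.1.ord r)) := by ring
  have key2 : (D'.Q : ℤ) ∣ (ei : ℤ) * ((ej : ℤ) * ((kpEps D A hq hA hqR j : ℤ) * i.1.ord r -
      (kpEps D A hq hA hqR i : ℤ) * j.1.ord r)) := by
    rw [← e2]
    exact key
  exact ((hp.dvd_or_dvd ((hp.dvd_or_dvd key2).resolve_left hpi)).resolve_left hpj)

/-- **AUX-DESC**: (INT) at the auxiliary level `p R'` for `α g` implies (INT) at level `p R` for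
`g` (`R ∣ R'`), provided `p ∤ ε'` at the nodes of level `p R'` (P-eps at `D'`). -/
theorem r38_auxDesc (hQ : D'.Q = D.Q) (hR : D.R ∣ D'.R)
    (hε' : ∀ Q' : Place (IsLocalRing.ResidueField A)
        (modularFunctionFieldFullC (IsLocalRing.ResidueField A) D'.R),
      0 < Q'.ord ((kpS D' A hq' hA' hqR').red (fwU D')) →
        ¬ (D'.Q : ℤ) ∣ Q'.ord ((kpS D' A hq' hA' hqR').red (fwU D')))
    (hle : modularFunctionFieldBar (D.Q * D.R) ≤ modularFunctionFieldBar (D'.Q * D'.R))
    (g : FBar (D.Q * D.R))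
    (h' : spSlopeInt D' A hq' hA' hqR' (IntermediateField.inclusion hle g)) :
    spSlopeInt D A hq hA hqR g :=
  haveI := Fermat.Agent.GaussInt.isAlgClosed_residue A
  r38_auxDesc_of_placeUp D A hq hA hqR D' hq' hA' hqR' hQ hle
    (r38_fullC_le_of_dvd (IsLocalRing.ResidueField A) hR)
    (fun Q => r38_placeUp (IsLocalRing.ResidueField A)
      (r38_fullC_le_of_dvd (IsLocalRing.ResidueField A) hR)
      (kpS D A hq hA hqR).hFk (kpS D' A hq' hA' hqR').hFk Q) hε' g h'

end Fermat.Agent.R38
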