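/-
Row 38 (S44), block P / D, seat AUX-DESC (helper83), FINAL: descent of the slope congruence (INT)
from an auxiliary level, UNCONDITIONAL for `p ≥ 5`, in the shape consumed by `R38/D/Pull.lean`
(`SpAuxDesc`, helper11).

`r38_spAuxDesc` : for `D D' : ALData` with `D'.Q = D.Q = p ≥ 5`, `D.R ∣ D'.R`:
`spSlopeInt D' (incl g) → spSlopeInt D g`.
(`r38_auxDesc` + P-eps at the level `D'`, helper27's `r38_not_dvd_ord_red_u`.)
-/
import Mathlib
import Fermat.Agent.R38.P.AuxDesc
import Fermat.Agent.R38.P.Eps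

set_option autoImplicit false
set_option linter.style.haveILetI false
set_option linter.unusedSectionVars false
set_option linter.unusedVariables false
set_option synthInstance.maxHeartbeats 400000
set_option maxHeartbeats 1000000

noncomputable section

namespace Fermat.Agent.R38

open ModularCurve AlgebraicCurve Fermat.Agent.F3 Fermat.Agent.F3G
  Fermat.Agent.GaussInt Fermat.Agent.AtkinLehner Fermat.Agent.Deuring Fermat.Agent.RR
  Fermat.Agent.BadRed Fermat.Agent.EKp

local notation "Qb" => AlgebraicClosure ℚ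

/-- **AUX-DESC** (unconditional, `p ≥ 5`): (INT) at the auxiliary level `p R'` for `α g` implies
(INT) at level `p R` for `g`. -/
theorem r38_spAuxDesc
    (D : ALData) [NeZero D.Q] [NeZero D.R] [NeZero (D.Q * D.R)]
    (A : ValuationSubring Qb) (hq : D.Q.Prime) (hA : A.LiesOverPrime D.Q) (hqR : ¬ D.Q ∣ D.R)
    [Fact D.Q.Prime] [CharP (IsLocalRing.ResidueField A) D.Q]
    [PerfectRing (IsLocalRing.ResidueField A) D.Q]
    (D' : ALData) [NeZero D'.Q] [NeZero D'.R] [NeZero (D'.Q * D'.R)]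
    (hq' : D'.Q.Prime) (hA' : A.LiesOverPrime D'.Q) (hqR' : ¬ D'.Q ∣ D'.R)
    [Fact D'.Q.Prime] [CharP (IsLocalRing.ResidueField A) D'.Q]
    [PerfectRing (IsLocalRing.ResidueField A) D'.Q]
    (h5 : 5 ≤ D.Q) (hQ : D'.Q = D.Q) (hR : D.R ∣ D'.R)
    (hle : modularFunctionFieldBar (D.Q * D.R) ≤ modularFunctionFieldBar (D'.Q * D'.R))
    (g : FBar (D.Q * D.R))
    (h' : spSlopeInt D' A hq' hA' hqR' (IntermediateField.inclusion hle g)) :
    spSlopeInt D A hq hA hqR g :=
  r38_auxDesc D A hq hA hqR D' hq' hA' hqR' hQ hR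
    (fun Q' hQ' => r38_not_dvd_ord_red_u D' A hq' hA' hqR' (by rw [hQ]; exact h5) Q' hQ')
    hle g h'

end Fermat.Agent.R38
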