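/-
Row 38 (S44), block P = (PHI), seat P0 (helper16): the ABSTRACT CORE.
Blueprint: NOTES/blueprint-row38.md, section 2.

`ι` the nodes, `ε i` the multiplicity of the node `i` (`p ∤ ε i`), `a i` the slope of the Kummer
generator `g` at the node `i`.

* `r38_slope_eq_kappa` : (INT) `ε j * a i ≡ ε i * a j` for all `i, j`  ⟹  `a ≡ κ ε` for one `κ`.
* `r38_phi_core`       : (INT) + `b ≡ 0` where `b i = t * a i + p * c i - κ * (l + 1) * ε i` is the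
  slope of `T_l (g / u ^ κ)` (`T_l g = c g ^ t φ ^ p`, `T_l u = c' u ^ (l + 1)`), `t ≢ l + 1`
  ⟹ `a ≡ 0`.
-/
import Mathlib

set_option autoImplicit false

namespace Fermat.Agent.R38

/-- (INT) ⟹ the slopes are proportional to the multiplicities modulo `p`. -/
theorem r38_slope_eq_kappa {ι : Type*} {p : ℕ} (hp : p.Prime) (ε a : ι → ℤ)
    (hε : ∀ i, ¬ (p : ℤ) ∣ ε i) (hint : ∀ i j, (p : ℤ) ∣ ε j * a i - ε i * a j) (i₀ : ι) :
    ∃ κ : ℤ, ∀ i, (p : ℤ) ∣ a i - κ * ε i := by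
  have hpZ : Prime (p : ℤ) := Nat.prime_iff_prime_int.mp hp
  have hcop : IsCoprime (ε i₀) (p : ℤ) := by
    rw [isCoprime_comm]
    exact (Prime.coprime_iff_not_dvd hpZ).mpr (hε i₀)
  obtain ⟨x, y, hxy⟩ := hcop
  -- `x * ε i₀ + y * p = 1`
  refine ⟨x * a i₀, fun i => ?_⟩
  have h1 := hint i i₀
  -- `ε i₀ * a i - ε i * a i₀ ≡ 0`; multiply by `x`
  have h2 : a i - x * a i₀ * ε i = x * (ε i₀ * a i - ε i * a i₀) + (p : ℤ) * (y * a i) := by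
    have : a i = (x * ε i₀ + y * p) * a i := by rw [hxy, one_mul]
    linear_combination this
  rw [h2]
  exact dvd_add (Dvd.dvd.mul_left h1 x) (dvd_mul_right _ _)

/-- **(PHI), abstract core.** -/
theorem r38_phi_core {ι : Type*} {p : ℕ} (hp : p.Prime) (ε a : ι → ℤ)
    (hε : ∀ i, ¬ (p : ℤ) ∣ ε i) (hint : ∀ i j, (p : ℤ) ∣ ε j * a i - ε i * a j)
    (t l : ℤ) (ht : ¬ (p : ℤ) ∣ t - (l + 1))
    (hstab : ∀ κ : ℤ, (∀ i, (p : ℤ) ∣ a i - κ * ε i) →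
      ∀ i, (p : ℤ) ∣ t * a i - κ * (l + 1) * ε i) :
    ∀ i, (p : ℤ) ∣ a i := by
  intro i₀
  have hpZ : Prime (p : ℤ) := Nat.prime_iff_prime_int.mp hp
  obtain ⟨κ, hκ⟩ := r38_slope_eq_kappa hp ε a hε hint i₀
  have h1 := hstab κ hκ i₀
  have h2 := hκ i₀
  -- `t a - κ (l+1) ε = t (a - κ ε) + κ ε (t - (l+1))`
  have h3 : (p : ℤ) ∣ κ * ε i₀ * (t - (l + 1)) := by
    have e : κ * ε i₀ * (t - (l + 1)) =
        (t * a i₀ - κ * (l + 1) * ε i₀) - t * (a i₀ - κ * ε i₀) := by ring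
    rw [e]
    exact dvd_sub h1 (Dvd.dvd.mul_left h2 t)
  have h4 : (p : ℤ) ∣ κ * ε i₀ := (hpZ.dvd_or_dvd h3).resolve_right ht
  have h5 : (p : ℤ) ∣ κ := (hpZ.dvd_or_dvd h4).resolve_right (hε i₀)
  have e : a i₀ = (a i₀ - κ * ε i₀) + κ * ε i₀ := by ring
  rw [e]
  exact dvd_add h2 (Dvd.dvd.mul_right h5 _)

end Fermat.Agent.R38
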