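/-
Row 38 (S44), block P = (PHI) (helper16): calculus of NORMALISED REDUCTIONS `S.red (h / c)` for an
abstract constant reduction `S : ValSetup K F k Fk`, and of their orders at a place of `Fk`.

* `r38_exists_red_ne_zero` : every `h ≠ 0` has a normalising constant;
* `r38_red_div_mul / _inv / _zpow / _pow` : the normalised reduction is multiplicative;
* `r38_ord_red_eq` : `ord_Q (S.red (h / c))` does not depend on the normalising constant `c`;
* `r38_ord_red_mul / _zpow` : additivity of the orders.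
-/
import Mathlib
import Fermat.Agent.Lib.Deuring.Basic
import Fermat.Agent.S24.Residue

set_option autoImplicit false

noncomputable section

namespace Fermat.Agent.R38

open AlgebraicCurve Fermat.Agent.RR Fermat.Agent.Deuring

variable {K F k Fk : Type*} [Field K] [Field F] [Algebra K F]
  [Field k] [Field Fk] [Algebra k Fk] (S : ValSetup K F k Fk)

/-- every nonzero function has a normalising constant. -/
theorem r38_exists_red_ne_zero {h : F} (hh : h ≠ 0) :
    ∃ c : K, c ≠ 0 ∧ S.red (h / algebraMap K F c) ≠ 0 := by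
  obtain ⟨c, hc, h1, h2⟩ := S.scale h hh
  refine ⟨c, hc, ?_⟩
  have hca : algebraMap K F c ≠ 0 := (map_ne_zero (algebraMap K F)).mpr hc
  rw [div_eq_mul_inv]
  exact S.red_ne_zero h1 h2 (mul_ne_zero hh (inv_ne_zero hca))

/-- the normalising constant is not zero. -/
theorem r38_const_ne_zero {h : F} {c : K} (hc : S.red (h / algebraMap K F c) ≠ 0) : c ≠ 0 := by
  rintro rfl
  apply hc
  rw [map_zero, div_zero, S.red_zero]

/-- the function is not zero. -/
theorem r38_fun_ne_zero {h : F} {c : K} (hc : S.red (h / algebraMap K F c) ≠ 0) : h ≠ 0 := by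
  rintro rfl
  apply hc
  rw [zero_div, S.red_zero]

/-- multiplicativity of the normalised reduction. -/
theorem r38_red_div_mul {h₁ h₂ : F} {c₁ c₂ : K} (hc₁ : S.red (h₁ / algebraMap K F c₁) ≠ 0)
    (hc₂ : S.red (h₂ / algebraMap K F c₂) ≠ 0) :
    S.red (h₁ * h₂ / algebraMap K F (c₁ * c₂)) =
      S.red (h₁ / algebraMap K F c₁) * S.red (h₂ / algebraMap K F c₂) := by
  rw [map_mul, mul_div_mul_comm]
  exact S.red_mul (S.mem_of_red_ne_zero hc₁) (S.mem_of_red_ne_zero hc₂)

/-- the normalised reduction of the inverse. -/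
theorem r38_red_div_inv {h : F} {c : K} (hc : S.red (h / algebraMap K F c) ≠ 0) :
    S.red (h⁻¹ / algebraMap K F c⁻¹) = (S.red (h / algebraMap K F c))⁻¹ := by
  have e : h⁻¹ / algebraMap K F c⁻¹ = (h / algebraMap K F c)⁻¹ := by
    rw [map_inv₀, inv_div_inv, inv_div]
  rw [e]
  exact S.red_inv (S.mem_of_red_ne_zero hc) (S.inv_mem_of_red_ne_zero hc)
    (S.ne_zero_of_red_ne_zero hc)

/-- the normalised reduction of a power. -/
theorem r38_red_div_pow {h : F} {c : K} (hc : S.red (h / algebraMap K F c) ≠ 0) (n : ℕ) :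
    S.red (h ^ n / algebraMap K F (c ^ n)) = S.red (h / algebraMap K F c) ^ n := by
  rw [map_pow, ← div_pow]
  exact S.red_pow (S.mem_of_red_ne_zero hc) n

/-- the normalised reduction of an integer power. -/
theorem r38_red_div_zpow {h : F} {c : K} (hc : S.red (h / algebraMap K F c) ≠ 0) (n : ℤ) :
    S.red (h ^ n / algebraMap K F (c ^ n)) = S.red (h / algebraMap K F c) ^ n := by
  cases n with
  | ofNat m =>
    simp only [Int.ofNat_eq_natCast, zpow_natCast]
    exact r38_red_div_pow S hc m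
  | negSucc m =>
    simp only [zpow_negSucc]
    have h1 := r38_red_div_pow S hc (m + 1)
    have h1ne : S.red (h ^ (m + 1) / algebraMap K F (c ^ (m + 1))) ≠ 0 := by
      rw [h1]
      exact pow_ne_zero _ hc
    rw [r38_red_div_inv S h1ne, h1]

/-- the normalised reduction of a nonzero constant. -/
theorem r38_red_div_const {a : K} (ha : a ≠ 0) :
    S.red (algebraMap K F a / algebraMap K F a) = 1 := by
  rw [div_self ((map_ne_zero (algebraMap K F)).mpr ha), S.red_one]

/-- two normalised reductions of the same function differ by a nonzero constant. -/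
theorem r38_red_div_ratio {h : F} {c c' : K} (hc : S.red (h / algebraMap K F c) ≠ 0)
    (hc' : S.red (h / algebraMap K F c') ≠ 0) :
    ∃ a : k, a ≠ 0 ∧
      S.red (h / algebraMap K F c') = algebraMap k Fk a * S.red (h / algebraMap K F c) := by
  have hc0 := r38_const_ne_zero S hc
  have hc'0 := r38_const_ne_zero S hc'
  have hh := r38_fun_ne_zero S hc
  have hca : algebraMap K F c ≠ 0 := (map_ne_zero (algebraMap K F)).mpr hc0
  have hca' : algebraMap K F c' ≠ 0 := (map_ne_zero (algebraMap K F)).mpr hc'0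
  -- `c / c'` is a unit of `A`
  have e1 : algebraMap K F (c / c') = (h / algebraMap K F c') * (h / algebraMap K F c)⁻¹ := by
    rw [map_div₀]
    field_simp
  have e2 : algebraMap K F (c' / c) = (h / algebraMap K F c) * (h / algebraMap K F c')⁻¹ := by
    rw [map_div₀]
    field_simp
  have m1 : algebraMap K F (c / c') ∈ S.Ov := by
    rw [e1]
    exact mul_mem (S.mem_of_red_ne_zero hc') (S.inv_mem_of_red_ne_zero hc)
  have m2 : algebraMap K F (c' / c) ∈ S.Ov := by
    rw [e2]
    exact mul_mem (S.mem_of_red_ne_zero hc) (S.inv_mem_of_red_ne_zero hc')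
  have a1 : c / c' ∈ S.A := (S.mem_Ov_iff _).mp m1
  have e3 : h / algebraMap K F c' = algebraMap K F (c / c') * (h / algebraMap K F c) := by
    rw [map_div₀]
    field_simp
  refine ⟨S.res ⟨c / c', a1⟩, ?_, ?_⟩
  · intro h0
    apply hc'
    rw [e3, S.red_mul m1 (S.mem_of_red_ne_zero hc), S.red_algebraMap a1, h0, map_zero, zero_mul]
  · rw [e3, S.red_mul m1 (S.mem_of_red_ne_zero hc), S.red_algebraMap a1]

/-- the order of the normalised reduction does not depend on the normalising constant. -/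
theorem r38_ord_red_eq (Q : Place k Fk) {h : F} {c c' : K}
    (hc : S.red (h / algebraMap K F c) ≠ 0) (hc' : S.red (h / algebraMap K F c') ≠ 0) :
    Q.ord (S.red (h / algebraMap K F c')) = Q.ord (S.red (h / algebraMap K F c)) := by
  obtain ⟨a, ha, e⟩ := r38_red_div_ratio S hc hc'
  rw [e, Q.ord_mul ((map_ne_zero (algebraMap k Fk)).mpr ha) hc,
    Fermat.Agent.S24Res.ord_algebraMap, zero_add]

/-- additivity of the orders of the normalised reductions. -/
theorem r38_ord_red_mul (Q : Place k Fk) {h₁ h₂ : F} {c₁ c₂ c : K}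
    (hc₁ : S.red (h₁ / algebraMap K F c₁) ≠ 0) (hc₂ : S.red (h₂ / algebraMap K F c₂) ≠ 0)
    (hc : S.red (h₁ * h₂ / algebraMap K F c) ≠ 0) :
    Q.ord (S.red (h₁ * h₂ / algebraMap K F c)) =
      Q.ord (S.red (h₁ / algebraMap K F c₁)) + Q.ord (S.red (h₂ / algebraMap K F c₂)) := by
  have h12 : S.red (h₁ * h₂ / algebraMap K F (c₁ * c₂)) ≠ 0 := by
    rw [r38_red_div_mul S hc₁ hc₂]
    exact mul_ne_zero hc₁ hc₂
  rw [r38_ord_red_eq S Q h12 hc, r38_red_div_mul S hc₁ hc₂, Q.ord_mul hc₁ hc₂]

/-- the orders of the normalised reductions of an integer power. -/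
theorem r38_ord_red_zpow (Q : Place k Fk) {h : F} {c c' : K} (n : ℤ)
    (hc : S.red (h / algebraMap K F c) ≠ 0) (hc' : S.red (h ^ n / algebraMap K F c') ≠ 0) :
    Q.ord (S.red (h ^ n / algebraMap K F c')) = n * Q.ord (S.red (h / algebraMap K F c)) := by
  have hn : S.red (h ^ n / algebraMap K F (c ^ n)) ≠ 0 := by
    rw [r38_red_div_zpow S hc]
    exact zpow_ne_zero _ hc
  rw [r38_ord_red_eq S Q hn hc', r38_red_div_zpow S hc, Q.ord_zpow]

/-- the order of the normalised reduction of a constant multiple. -/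
theorem r38_ord_red_const_mul (Q : Place k Fk) {h : F} {a c c' : K} (ha : a ≠ 0)
    (hc : S.red (h / algebraMap K F c) ≠ 0)
    (hc' : S.red (algebraMap K F a * h / algebraMap K F c') ≠ 0) :
    Q.ord (S.red (algebraMap K F a * h / algebraMap K F c')) =
      Q.ord (S.red (h / algebraMap K F c)) := by
  have h1 : S.red (algebraMap K F a / algebraMap K F a) ≠ 0 := by
    rw [r38_red_div_const S ha]
    exact one_ne_zero
  rw [r38_ord_red_mul S Q h1 hc hc', r38_red_div_const S ha, Q.ord_one, zero_add]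

/-! ### the slope function -/

open Classical in
/-- the SLOPE of `h` at the place `Q` of the residue field: the order at `Q` of a normalised
reduction of `h` (`0` for `h = 0`). -/
def r38Sl (Q : Place k Fk) (h : F) : ℤ :=
  if hh : h ≠ 0 then
    Q.ord (S.red (h / algebraMap K F (Classical.choose (r38_exists_red_ne_zero S hh))))
  else 0

/-- the order of ANY normalised reduction is the slope. -/
theorem r38Sl_eq (Q : Place k Fk) {h : F} {c : K} (hc : S.red (h / algebraMap K F c) ≠ 0) :
    Q.ord (S.red (h / algebraMap K F c)) = r38Sl S Q h := by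
  have hh := r38_fun_ne_zero S hc
  unfold r38Sl
  rw [dif_pos hh]
  exact (r38_ord_red_eq S Q hc (Classical.choose_spec (r38_exists_red_ne_zero S hh)).2).symm

/-- the slope of a unit of the Gauss ring. -/
theorem r38Sl_unit (Q : Place k Fk) {h : F} (hc : S.red h ≠ 0) :
    r38Sl S Q h = Q.ord (S.red h) := by
  have h1 : S.red (h / algebraMap K F 1) ≠ 0 := by rwa [map_one, div_one]
  rw [← r38Sl_eq S Q h1, map_one, div_one]

/-- the slope of a nonzero constant is `0`. -/
theorem r38Sl_const (Q : Place k Fk) {a : K} (ha : a ≠ 0) :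
    r38Sl S Q (algebraMap K F a) = 0 := by
  have h1 : S.red (algebraMap K F a / algebraMap K F a) ≠ 0 := by
    rw [r38_red_div_const S ha]
    exact one_ne_zero
  rw [← r38Sl_eq S Q h1, r38_red_div_const S ha, Q.ord_one]

/-- the slope is additive. -/
theorem r38Sl_mul (Q : Place k Fk) {h₁ h₂ : F} (hh₁ : h₁ ≠ 0) (hh₂ : h₂ ≠ 0) :
    r38Sl S Q (h₁ * h₂) = r38Sl S Q h₁ + r38Sl S Q h₂ := by
  obtain ⟨c₁, -, hc₁⟩ := r38_exists_red_ne_zero S hh₁
  obtain ⟨c₂, -, hc₂⟩ := r38_exists_red_ne_zero S hh₂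
  have h12 : S.red (h₁ * h₂ / algebraMap K F (c₁ * c₂)) ≠ 0 := by
    rw [r38_red_div_mul S hc₁ hc₂]
    exact mul_ne_zero hc₁ hc₂
  rw [← r38Sl_eq S Q h12, ← r38Sl_eq S Q hc₁, ← r38Sl_eq S Q hc₂,
    r38_red_div_mul S hc₁ hc₂, Q.ord_mul hc₁ hc₂]

/-- the slope of an integer power. -/
theorem r38Sl_zpow (Q : Place k Fk) {h : F} (hh : h ≠ 0) (n : ℤ) :
    r38Sl S Q (h ^ n) = n * r38Sl S Q h := by
  obtain ⟨c, -, hc⟩ := r38_exists_red_ne_zero S hh
  have hn : S.red (h ^ n / algebraMap K F (c ^ n)) ≠ 0 := by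
    rw [r38_red_div_zpow S hc]
    exact zpow_ne_zero _ hc
  rw [← r38Sl_eq S Q hn, ← r38Sl_eq S Q hc, r38_red_div_zpow S hc, Q.ord_zpow]

/-- the slope of a power. -/
theorem r38Sl_pow (Q : Place k Fk) {h : F} (hh : h ≠ 0) (n : ℕ) :
    r38Sl S Q (h ^ n) = n * r38Sl S Q h := by
  have := r38Sl_zpow S Q hh (n : ℤ)
  rwa [zpow_natCast] at this

/-- the slope of a constant multiple. -/
theorem r38Sl_const_mul (Q : Place k Fk) {a : K} (ha : a ≠ 0) {h : F} (hh : h ≠ 0) :
    r38Sl S Q (algebraMap K F a * h) = r38Sl S Q h := by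
  rw [r38Sl_mul S Q ((map_ne_zero (algebraMap K F)).mpr ha) hh, r38Sl_const S Q ha, zero_add]

end Fermat.Agent.R38
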