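/-
Row 38 (S44), block P = (PHI) (helper16): the ABSTRACT form of (PHI).

`S : ValSetup K F k Fk` a constant reduction, `u ∈ F` a Gauss unit (`ū = S.red u`; the ZEROS of
`ū` are the nodes, the POLES of `ū` the cusps), `T : F →* F` ("`T_ℓ` on functions") with reduction
`Tbar : Fk →* Fk`:

* (P-nr)  `S.red (T x) = Tbar (S.red x)` for the Gauss units `x`;
* (P-pl)  `Tbar` carries divisibility by `p` of the orders away from the cusps to the nodes;
* (P-u)   `T u = c · u ^ L`;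
* (P-eps) `p ∤ ord_Q ū` at the nodes;
* (P-eig) `T g = c · g ^ t · φ ^ p`, `p ∤ t - L`;
* (P-push) `p ∣ slope_Q g` at the places `Q` with `ord_Q ū = 0`;
* (INT)   `ord_Q' ū · slope_Q g ≡ ord_Q ū · slope_Q' g mod p` at the nodes `Q, Q'`.

Conclusion: `p ∣ slope_Q g` at the nodes.
-/
import Mathlib
import Fermat.Agent.R38.P.Core
import Fermat.Agent.R38.P.Slope

set_option autoImplicit false

noncomputable section

namespace Fermat.Agent.R38

open AlgebraicCurve Fermat.Agent.RR Fermat.Agent.Deuring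

variable {K F k Fk : Type*} [Field K] [Field F] [Algebra K F]
  [Field k] [Field Fk] [Algebra k Fk] (S : ValSetup K F k Fk)

/-- a monoid endomorphism of a field which does not kill `x ≠ 0` commutes with the inverse. -/
theorem r38_map_inv {F' : Type*} [Field F'] (T : F →* F') {x : F} (hx : x ≠ 0) :
    T x⁻¹ = (T x)⁻¹ := by
  have h1 : T x * T x⁻¹ = 1 := by rw [← map_mul, mul_inv_cancel₀ hx, map_one]
  exact eq_inv_of_mul_eq_one_right h1

theorem r38_map_ne_zero {F' : Type*} [Field F'] (T : F →* F') {x : F} (hx : x ≠ 0) :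
    T x ≠ 0 := by
  intro h0
  have h1 : T x * T x⁻¹ = 1 := by rw [← map_mul, mul_inv_cancel₀ hx, map_one]
  rw [h0, zero_mul] at h1
  exact zero_ne_one h1

theorem r38_map_zpow {F' : Type*} [Field F'] (T : F →* F') {x : F} (hx : x ≠ 0) (n : ℤ) :
    T (x ^ n) = T x ^ n := by
  cases n with
  | ofNat m => simp only [Int.ofNat_eq_natCast, zpow_natCast, map_pow]
  | negSucc m =>
    simp only [zpow_negSucc]
    rw [r38_map_inv T (pow_ne_zero _ hx), map_pow]

/-- **(PHI), abstract form.** -/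
theorem r38_phi_abs {p : ℕ} (hp : p.Prime) (T : F →* F) (Tbar : Fk →* Fk) (u : F)
    (hu : S.red u ≠ 0)
    (hnr : ∀ x : F, S.red x ≠ 0 → S.red (T x) = Tbar (S.red x))
    (hTc : ∀ c : K, c ≠ 0 → ∃ c' : K, c' ≠ 0 ∧ T (algebraMap K F c) = algebraMap K F c')
    (hpl : ∀ x : Fk, x ≠ 0 →
      (∀ Q : Place k Fk, 0 ≤ Q.ord (S.red u) → (p : ℤ) ∣ Q.ord x) →
      ∀ Q : Place k Fk, 0 < Q.ord (S.red u) → (p : ℤ) ∣ Q.ord (Tbar x))
    (L : ℕ) (hTu : ∃ c : K, c ≠ 0 ∧ T u = algebraMap K F c * u ^ L)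
    (heps : ∀ Q : Place k Fk, 0 < Q.ord (S.red u) → ¬ (p : ℤ) ∣ Q.ord (S.red u))
    (g : F) (hg0 : g ≠ 0)
    (hpush : ∀ Q : Place k Fk, Q.ord (S.red u) = 0 → (p : ℤ) ∣ r38Sl S Q g)
    (hint : ∀ Q Q' : Place k Fk, 0 < Q.ord (S.red u) → 0 < Q'.ord (S.red u) →
      (p : ℤ) ∣ Q'.ord (S.red u) * r38Sl S Q g - Q.ord (S.red u) * r38Sl S Q' g)
    (t : ℤ) (hTg : ∃ (c : K) (φ : F), c ≠ 0 ∧ φ ≠ 0 ∧ T g = algebraMap K F c * g ^ t * φ ^ p)
    (ht : ¬ (p : ℤ) ∣ t - (L : ℤ)) :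
    ∀ Q : Place k Fk, 0 < Q.ord (S.red u) → (p : ℤ) ∣ r38Sl S Q g := by
  classical
  have hu0 : u ≠ 0 := S.ne_zero_of_red_ne_zero hu
  -- the nodes
  set ι := {Q : Place k Fk // 0 < Q.ord (S.red u)} with hι
  have key : ∀ i : ι, (p : ℤ) ∣ r38Sl S i.1 g := by
    refine r38_phi_core hp (fun i : ι => i.1.ord (S.red u)) (fun i : ι => r38Sl S i.1 g)
      (fun i => heps i.1 i.2) (fun i j => hint i.1 j.1 i.2 j.2) t ((L : ℤ) - 1) ?_ ?_
    · rwa [sub_add_cancel]
    · intro κ hκ i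
      rw [sub_add_cancel]
      -- `G = g u^(-κ)`, normalised
      obtain ⟨cg, hcg0, hcg⟩ := r38_exists_red_ne_zero S hg0
      set G : F := g / algebraMap K F cg * u ^ (-κ) with hG
      have hcga : algebraMap K F cg ≠ 0 := (map_ne_zero (algebraMap K F)).mpr hcg0
      have huκ : S.red (u ^ (-κ)) ≠ 0 := by
        have h1 : S.red (u / algebraMap K F 1) ≠ 0 := by rwa [map_one, div_one]
        have h2 := r38_red_div_zpow S h1 (-κ)
        simp only [one_zpow, map_one, div_one] at h2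
        rw [h2]
        exact zpow_ne_zero _ hu
      have hGred : S.red G = S.red (g / algebraMap K F cg) * S.red (u ^ (-κ)) :=
        S.red_mul (S.mem_of_red_ne_zero hcg) (S.mem_of_red_ne_zero huκ)
      have hGne : S.red G ≠ 0 := by
        rw [hGred]
        exact mul_ne_zero hcg huκ
      have hG0 : G ≠ 0 := S.ne_zero_of_red_ne_zero hGne
      -- slopes of `G`
      have hslG : ∀ Q : Place k Fk, Q.ord (S.red G) = r38Sl S Q g - κ * Q.ord (S.red u) := by
        intro Q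
        rw [← r38Sl_unit S Q hGne, hG,
          r38Sl_mul S Q (div_ne_zero hg0 hcga) (zpow_ne_zero _ hu0), r38Sl_zpow S Q hu0,
          r38Sl_unit S Q hu, div_eq_mul_inv, r38Sl_mul S Q hg0 (inv_ne_zero hcga),
          ← map_inv₀, r38Sl_const S Q (inv_ne_zero hcg0)]
        ring
      -- off-cusp divisibility
      have hoff : ∀ Q : Place k Fk, 0 ≤ Q.ord (S.red u) → (p : ℤ) ∣ Q.ord (S.red G) := by
        intro Q hQ
        rw [hslG Q]
        rcases hQ.lt_or_eq with hpos | hzero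
        · exact hκ ⟨Q, hpos⟩
        · rw [← hzero, mul_zero, sub_zero]
          exact hpush Q hzero.symm
      have hT := hpl (S.red G) hGne hoff i.1 i.2
      rw [← hnr G hGne] at hT
      -- compute `T G`
      obtain ⟨c₁, φ, hc₁, hφ, hTg'⟩ := hTg
      obtain ⟨c₂, hc₂, hTu'⟩ := hTu
      obtain ⟨c₃, hc₃, hTc'⟩ := hTc cg hcg0
      have hTGne : S.red (T G) ≠ 0 := by
        rw [hnr G hGne]
        intro h0
        have := r38_map_ne_zero Tbar hGne
        exact this h0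
      have hTG : T G = algebraMap K F c₁ * g ^ t * φ ^ p * (algebraMap K F c₃)⁻¹ *
          (algebraMap K F c₂ * u ^ L) ^ (-κ) := by
        rw [hG, map_mul, div_eq_mul_inv, map_mul, r38_map_inv T hcga, hTc',
          r38_map_zpow T hu0, hTg', hTu']
      have hc₁a : algebraMap K F c₁ ≠ 0 := (map_ne_zero (algebraMap K F)).mpr hc₁
      have hc₂a : algebraMap K F c₂ ≠ 0 := (map_ne_zero (algebraMap K F)).mpr hc₂
      have hc₃a : algebraMap K F c₃ ≠ 0 := (map_ne_zero (algebraMap K F)).mpr hc₃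
      have hsl : i.1.ord (S.red (T G)) =
          t * r38Sl S i.1 g + p * r38Sl S i.1 φ - κ * (L * i.1.ord (S.red u)) := by
        rw [← r38Sl_unit S i.1 hTGne, hTG,
          r38Sl_mul S i.1 (mul_ne_zero (mul_ne_zero (mul_ne_zero hc₁a (zpow_ne_zero _ hg0))
            (pow_ne_zero _ hφ)) (inv_ne_zero hc₃a))
            (zpow_ne_zero _ (mul_ne_zero hc₂a (pow_ne_zero _ hu0))),
          r38Sl_mul S i.1 (mul_ne_zero (mul_ne_zero hc₁a (zpow_ne_zero _ hg0))
            (pow_ne_zero _ hφ)) (inv_ne_zero hc₃a),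
          r38Sl_mul S i.1 (mul_ne_zero hc₁a (zpow_ne_zero _ hg0)) (pow_ne_zero _ hφ),
          r38Sl_const_mul S i.1 hc₁ (zpow_ne_zero _ hg0), r38Sl_zpow S i.1 hg0,
          r38Sl_pow S i.1 hφ, ← map_inv₀, r38Sl_const S i.1 (inv_ne_zero hc₃),
          r38Sl_zpow S i.1 (mul_ne_zero hc₂a (pow_ne_zero _ hu0)),
          r38Sl_const_mul S i.1 hc₂ (pow_ne_zero _ hu0), r38Sl_pow S i.1 hu0,
          r38Sl_unit S i.1 hu]
        ring
      rw [hsl] at hT
      -- conclude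
      have e : t * r38Sl S i.1 g - κ * (L : ℤ) * i.1.ord (S.red u) =
          (t * r38Sl S i.1 g + p * r38Sl S i.1 φ - κ * (L * i.1.ord (S.red u))) -
            (p : ℤ) * r38Sl S i.1 φ := by ring
      show (p : ℤ) ∣ t * r38Sl S i.1 g - κ * (L : ℤ) * i.1.ord (S.red u)
      rw [e]
      exact dvd_sub hT (dvd_mul_right _ _)
  intro Q hQ
  exact key ⟨Q, hQ⟩

end Fermat.Agent.R38
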