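/-
Row 38 (S44), block P = (PHI) (owner helper16), seat P-eig (helper6):
the Hecke eigen-property of a class, in terms of FUNCTIONS.

If `y = [E]` with `p • E = div g` (`IsRootDiv p g E`) and `T_ℓ y = t • y`, then
`T_ℓ g = c · g ^ t · φ ^ p` for a constant `c ≠ 0` and a function `φ ≠ 0`, where
`T_ℓ g = Norm_{F_{Nℓ}/F_N} (g(q^ℓ))` (`F3G.heckeFun`).

Proof: by the norm description of `T_ℓ` (`heckeOperatorAlong_mk_of_zsmul_eq_div`),
`T_ℓ [E] = [E']` with `p • E' = div (T_ℓ g)`; `[E'] = t • [E]` gives `E' - t • E = div φ`, so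
`T_ℓ g / (g ^ t φ ^ p)` has trivial divisor, hence is a constant.
-/
import Mathlib
import Fermat.Agent.F3.Galois.NormDesc
import Fermat.Agent.F3.I2.RootClass
import Fermat.Agent.F3.Dict.ConstHPD
import Fermat.Agent.Lib.HeckeInputs.Qbar
import Fermat.Agent.S24.GlobalDatum

set_option autoImplicit false
set_option linter.unusedSectionVars false
set_option linter.style.haveILetI false

noncomputable section

open ModularCurve AlgebraicCurve

set_option synthInstance.maxHeartbeats 400000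

namespace Fermat.Agent.R38

open Fermat.Agent.F3G Fermat.Agent.F3I2

local notation "Qb" => AlgebraicClosure ℚ

/-- a nonzero function with trivial divisor on `X₀(N)` is a nonzero constant. -/
theorem r38_const_of_ord_eq_zero (N : ℕ) [NeZero N] {x : modularFunctionFieldBar N}
    (hx : x ≠ 0) (hv : ∀ v : Place Qb (modularFunctionFieldBar N), v.ord x = 0) :
    ∃ c : Qb, c ≠ 0 ∧ x = algebraMap Qb (modularFunctionFieldBar N) c := by
  obtain ⟨c, hc⟩ := Fermat.Agent.F3Places.exists_algebraMap_eq_of_forall_ord_eq_zero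
    (Fermat.Agent.S24.isFunctionFieldOver_jBar N) x hv
  refine ⟨c, ?_, hc⟩
  rintro rfl
  rw [map_zero] at hc
  exact hx hc

/-- **(P-eig)** `T_ℓ [E] = t • [E]`, `p • E = div g`  ⟹  `T_ℓ g = c · g ^ t · φ ^ p`. -/
theorem r38_heckeFun_eig (N ℓ : ℕ) [NeZero N] [NeZero ℓ] (p : ℕ)
    (E : Divisor.degZero (K := Qb) (F := modularFunctionFieldBar N))
    (g : modularFunctionFieldBar N) (hg : IsRootDiv p g E) (t : ℤ)
    (hT : heckeOperatorAlong Qb N ℓ (Pic0.mk E) = t • Pic0.mk E) :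
    ∃ (c : Qb) (φ : modularFunctionFieldBar N), c ≠ 0 ∧ φ ≠ 0 ∧
      heckeFun Qb N ℓ g = algebraMap Qb (modularFunctionFieldBar N) c * g ^ t * φ ^ p := by
  have hin := Fermat.Agent.HeckeInputs.hi_heckeInputsAlong_Qbar N ℓ
  obtain ⟨E', hE1, hE2⟩ := heckeOperatorAlong_mk_of_zsmul_eq_div hin E (p : ℤ) hg.1 hg.2
  have hTg0 : heckeFun Qb N ℓ g ≠ 0 := heckeFun_ne_zero hin hg.1
  -- `E' - t • E` is principal
  have h1 : Pic0.mk (E' - t • E) = 0 := by
    have e1 : Pic0.mk (E' - t • E) = Pic0.mk E' - t • Pic0.mk E := by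
      show (QuotientAddGroup.mk' _) (E' - t • E) = _
      rw [map_sub, map_zsmul]
      rfl
    rw [e1, ← hE1, hT, sub_self]
  have h2 : (E' - t • E : Divisor.degZero (K := Qb) (F := modularFunctionFieldBar N)) ∈
      (Divisor.principal (K := Qb) (F := modularFunctionFieldBar N)).addSubgroupOf
        (Divisor.degZero (K := Qb) (F := modularFunctionFieldBar N)) :=
    (QuotientAddGroup.eq_zero_iff _).mp h1
  obtain ⟨φ, hφ, hDφ⟩ := h2
  have hDφ' : ∀ v : Place Qb (modularFunctionFieldBar N),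
      (E' : Divisor Qb (modularFunctionFieldBar N)) v -
        t * (E : Divisor Qb (modularFunctionFieldBar N)) v = v.ord φ := by
    intro v
    have := hDφ v
    simpa using this
  -- the quotient has trivial divisor
  have hgt : g ^ t ≠ 0 := zpow_ne_zero t hg.1
  have hφp : φ ^ p ≠ 0 := pow_ne_zero p hφ
  have hden : g ^ t * φ ^ p ≠ 0 := mul_ne_zero hgt hφp
  set x : modularFunctionFieldBar N := heckeFun Qb N ℓ g * (g ^ t * φ ^ p)⁻¹ with hx
  have hx0 : x ≠ 0 := mul_ne_zero hTg0 (inv_ne_zero hden)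
  have hord : ∀ v : Place Qb (modularFunctionFieldBar N), v.ord x = 0 := by
    intro v
    rw [hx, v.ord_mul hTg0 (inv_ne_zero hden), v.ord_inv, v.ord_mul hgt hφp, v.ord_zpow,
      ← zpow_natCast φ p, v.ord_zpow, ← hE2 v, ← hg.2 v, ← hDφ' v]
    ring
  obtain ⟨c, hc0, hc⟩ := r38_const_of_ord_eq_zero N hx0 hord
  refine ⟨c, φ, hc0, hφ, ?_⟩
  rw [mul_assoc, ← hc, hx, inv_mul_cancel_right₀ hden]

end Fermat.Agent.R38
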