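import Fermat.Agent.Lib.BadRed.Mod.SSCount
import Fermat.Agent.Lib.BadRed.Mod.SSDeg
import Fermat.Agent.E.Desc.Kp.ModDefs

/-!
# Row 38, block P, seat P-eps part 2 (helper65): the exact multiplicities of the supersingular
polynomial

`ū = u₀ P(j̄)` is the reduction of `u = Δ(z)/Δ(qz)` (`ssPoly`); the library only has the bounds
`m_c ≤ 12`, `m_0 ≤ 4`, `m_1728 ≤ 6` for the root multiplicities `m_c` of `P`.  With the genus
RELATION of the nodal package (`kpN_genusRel`) the count of `ssCount_ge` is an equality, hence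
every pointwise inequality is an equality:

  `m_c = 12` (`c ≠ 0, 1728`),  `m_0 = 4`,  `m_1728 = 6`        (`ssMult`).

* `epsMult_arith`    : the equality case of `ssCount_arith`;
* `ssMult_exact`     : the exact multiplicities, from the genus inequality `2 g₀ + s ≤ g + 1`;
* `ord_ss_eq_mult`   : at a zero `v` of `ū`:  `ord_v ū = ssMult c * ord_v (j̄ - c)`, `c = j̄(v)`;
* `kpEps_eq_mult`    : the same for the nodes of the modular nodal setup `kpN`:
                       `ε_i = ssMult c * ord_i (j̄ - c)`.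
-/

set_option autoImplicit false
set_option linter.unusedSectionVars false
set_option linter.style.haveILetI false

noncomputable section

open AlgebraicCurve Polynomial ModularCurve Fermat.Agent.RR Fermat.Agent.BadRed

set_option synthInstance.maxHeartbeats 400000
set_option maxHeartbeats 1000000

namespace Fermat.Agent.R38

/-- the multiplicity of the supersingular polynomial at a root `c`. -/
def ssMult {κ : Type*} [Field κ] [DecidableEq κ] (c : κ) : ℕ :=
  if c = 0 then 4 else if c = 1728 then 6 else 12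

theorem ssMult_dvd_twelve {κ : Type*} [Field κ] [DecidableEq κ] (c : κ) : ssMult c ∣ 12 := by
  unfold ssMult
  split_ifs <;> decide

theorem ssMult_pos {κ : Type*} [Field κ] [DecidableEq κ] (c : κ) : 0 < ssMult c := by
  unfold ssMult
  split_ifs <;> decide

/-- a prime `p ≥ 5` does not divide the multiplicities. -/
theorem not_dvd_ssMult {κ : Type*} [Field κ] [DecidableEq κ] (c : κ) {p : ℕ} (hp : p.Prime)
    (h5 : 5 ≤ p) : ¬ p ∣ ssMult c := by
  intro h
  have h12 : p ∣ 12 := h.trans (ssMult_dvd_twelve c)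
  have h12' : (12 : ℕ) = 2 ^ 2 * 3 := by norm_num
  rw [h12'] at h12
  rcases (Nat.Prime.dvd_mul hp).mp h12 with h2 | h3
  · have := (Nat.prime_dvd_prime_iff_eq hp Nat.prime_two).mp (hp.dvd_of_dvd_pow h2)
    omega
  · have := (Nat.prime_dvd_prime_iff_eq hp Nat.prime_three).mp h3
    omega

/-- the equality case of the arithmetic core of the count of supersingular points. -/
lemma epsMult_arith {κ : Type*} [Field κ] [DecidableEq κ] (h1728 : (1728 : κ) ≠ 0)
    (R : Finset κ) (mult n : κ → ℕ) (ψ ν₂ ν₃ o₂ o₃ d : ℕ) (hψ : 0 < ψ)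
    (h2 : 2 * o₂ = ψ + ν₂) (h3 : 3 * o₃ = ψ + 2 * ν₃)
    (hn : ∀ c ∈ R, c ≠ 0 → c ≠ 1728 → n c = ψ)
    (hn0 : n 0 = o₃) (hn1 : n 1728 = o₂)
    (hm : ∀ c, mult c ≤ 12) (hm0 : mult 0 ≤ 4) (hm1 : mult 1728 ≤ 6)
    (hsum : ∑ c ∈ R, mult c = d)
    (hge : 12 * ∑ c ∈ R, n c ≤
      d * ψ + (if (0 : κ) ∈ R then 8 * ν₃ else 0) + (if (1728 : κ) ∈ R then 6 * ν₂ else 0)) :
    ∀ c ∈ R, mult c = ssMult c := by
  have hne : (0 : κ) ≠ 1728 := fun h => h1728 h.symm
  have hpt : ∀ c ∈ R, mult c * ψ + ((if c = 0 then 8 * ν₃ else 0) +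
      (if c = 1728 then 6 * ν₂ else 0)) ≤ 12 * n c := by
    intro c hc
    by_cases hc0 : c = 0
    · subst hc0
      rw [if_pos rfl, if_neg hne, hn0]
      have : mult 0 * ψ ≤ 4 * ψ := Nat.mul_le_mul_right _ hm0
      omega
    · by_cases hc1 : c = 1728
      · subst hc1
        rw [if_neg hc0, if_pos rfl, hn1]
        have : mult 1728 * ψ ≤ 6 * ψ := Nat.mul_le_mul_right _ hm1
        omega
      · rw [if_neg hc0, if_neg hc1, hn c hc hc0 hc1]
        have : mult c * ψ ≤ 12 * ψ := Nat.mul_le_mul_right _ (hm c)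
        omega
  have hs : ∑ c ∈ R, (mult c * ψ + ((if c = 0 then 8 * ν₃ else 0) +
      (if c = 1728 then 6 * ν₂ else 0))) =
      d * ψ + (if (0 : κ) ∈ R then 8 * ν₃ else 0) + (if (1728 : κ) ∈ R then 6 * ν₂ else 0) := by
    rw [Finset.sum_add_distrib, Finset.sum_add_distrib, ← Finset.sum_mul, hsum,
      Finset.sum_ite_eq', Finset.sum_ite_eq']
    ring
  have hs2 : ∑ c ∈ R, 12 * n c = 12 * ∑ c ∈ R, n c := by rw [Finset.mul_sum]
  have heq : ∑ c ∈ R, (mult c * ψ + ((if c = 0 then 8 * ν₃ else 0) +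
      (if c = 1728 then 6 * ν₂ else 0))) = ∑ c ∈ R, 12 * n c :=
    le_antisymm (Finset.sum_le_sum hpt) (by rw [hs, hs2]; exact hge)
  have hall := (Finset.sum_eq_sum_iff_of_le hpt).mp heq
  intro c hc
  have hcE := hall c hc
  unfold ssMult
  by_cases hc0 : c = 0
  · subst hc0
    rw [if_pos rfl]
    rw [if_pos rfl, if_neg hne, hn0] at hcE
    have h4 : mult 0 * ψ = 4 * ψ := by omega
    exact Nat.eq_of_mul_eq_mul_right hψ h4
  · by_cases hc1 : c = 1728
    · subst hc1
      rw [if_neg hc0, if_pos rfl]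
      rw [if_neg hc0, if_pos rfl, hn1] at hcE
      have h6 : mult 1728 * ψ = 6 * ψ := by omega
      exact Nat.eq_of_mul_eq_mul_right hψ h6
    · rw [if_neg hc0, if_neg hc1]
      rw [if_neg hc0, if_neg hc1, hn c hc hc0 hc1] at hcE
      have h12 : mult c * ψ = 12 * ψ := by omega
      exact Nat.eq_of_mul_eq_mul_right hψ h12

section Count

local notation "Qb" => AlgebraicClosure ℚ

open Fermat.Agent.GoodRed Fermat.Agent.GaussInt Fermat.Agent.S24

/-- **the exact multiplicities of the supersingular polynomial**, `q ≥ 5`, from the genus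
inequality `2 g₀ + s ≤ g(q N₀) + 1` (`s` the number of zeros of `h = ū`). -/
theorem ssMult_exact (N₀ : ℕ) [NeZero N₀] {q : ℕ} (hq : q.Prime) (h5 : 5 ≤ q)
    (hqN : ¬ q ∣ N₀) [NeZero (q * N₀)]
    {A : ValuationSubring Qb} (hA : A.LiesOverPrime q)
    (h : modularFunctionFieldFullC (IsLocalRing.ResidueField A) N₀)
    (hh : (h : LaurentSeries (IsLocalRing.ResidueField A)) =
      ssFun (IsLocalRing.ResidueField A) q)
    (hgen : genusFF (IsLocalRing.ResidueField A)
          ↥(modularFunctionFieldFullC (IsLocalRing.ResidueField A) N₀) +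
        genusFF (IsLocalRing.ResidueField A)
          ↥(modularFunctionFieldFullC (IsLocalRing.ResidueField A) N₀) +
        Nat.card {v : Place (IsLocalRing.ResidueField A)
          ↥(modularFunctionFieldFullC (IsLocalRing.ResidueField A) N₀) // 0 < v.ord h} ≤
      genusFF Qb ↥(modularFunctionFieldBar (q * N₀)) + 1) :
    ∃ (P : (IsLocalRing.ResidueField A)[X]) (u₀ : IsLocalRing.ResidueField A),
      u₀ ≠ 0 ∧ P ≠ 0 ∧
      ssFun (IsLocalRing.ResidueField A) q =
        HahnSeries.C u₀ * Polynomial.aeval (jqModC (IsLocalRing.ResidueField A)) P ∧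
      h = algebraMap (IsLocalRing.ResidueField A) _ u₀ *
        Polynomial.aeval (Fermat.Agent.RRMod.jC (IsLocalRing.ResidueField A) N₀) P ∧
      ∀ c : IsLocalRing.ResidueField A, P.IsRoot c →
        P.rootMultiplicity c = @ssMult _ _ (Classical.decEq _) c := by
  classical
  haveI : Fact q.Prime := ⟨hq⟩
  haveI : CharP (IsLocalRing.ResidueField A) q := Fermat.Agent.FrobTrace.charP_residueField A hA
  haveI : IsAlgClosed (IsLocalRing.ResidueField A) := isAlgClosed_residue A
  have hq2 : q ≠ 2 := by omega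
  have hq3 : q ≠ 3 := by omega
  obtain ⟨P, u₀, hu₀, hdeg, hss, hm, hm0, hm1, hz0, hz1⟩ :=
    ssPoly (IsLocalRing.ResidueField A) q h5
  have h1728 : (1728 : IsLocalRing.ResidueField A) ≠ 0 := Fermat.Agent.SwD.ne_zero_1728 q h5
  have hP0 : P ≠ 0 := by
    rintro rfl
    rw [Polynomial.natDegree_zero] at hdeg
    omega
  have hh' : h = algebraMap (IsLocalRing.ResidueField A) _ u₀ *
      Polynomial.aeval (Fermat.Agent.RRMod.jC (IsLocalRing.ResidueField A) N₀) P := by
    apply Subtype.ext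
    rw [hh, hss, MulMemClass.coe_mul, ← IntermediateField.aeval_coe, Fermat.Agent.RRMod.coe_jC,
      ← algebraMap_mul_laurent]
    rfl
  refine ⟨P, u₀, hu₀, hP0, hss, hh', ?_⟩
  have hRR := Fermat.Agent.RRMod.isRRField_fullC' (IsLocalRing.ResidueField A) N₀
  have hcount := sum_card_fibre_le hRR (x := Fermat.Agent.RRMod.jC (IsLocalRing.ResidueField A) N₀)
    hP0 hu₀
  rw [← hh'] at hcount
  -- the genus formula
  have hA₀ := ssArith N₀ q (NeZero.ne N₀) hq h5 hqN
  have hg₀ := Fermat.Agent.GenusEq.genusFF_modularFunctionFieldBar N₀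
  have hg := Fermat.Agent.GenusEq.genusFF_modularFunctionFieldBar (q * N₀)
  have hgk := genusFF_modular_eq N₀ hq hA hqN hq2 hq3
  rw [← hgk] at hgen
  rw [← hg, ← hg₀] at hA₀
  have hr0 : q % 3 = 2 → (0 : IsLocalRing.ResidueField A) ∈ P.roots.toFinset := fun h3 =>
    Multiset.mem_toFinset.mpr ((Polynomial.mem_roots hP0).mpr (hz0 h3))
  have hr1 : q % 4 = 3 → (1728 : IsLocalRing.ResidueField A) ∈ P.roots.toFinset := fun h4 =>
    Multiset.mem_toFinset.mpr ((Polynomial.mem_roots hP0).mpr (hz1 h4))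
  have hψ : 0 < dedekindPsi N₀ := by
    rw [← index_Gamma0]
    exact Nat.pos_of_ne_zero (Subgroup.FiniteIndex.index_ne_zero)
  set G := genusFF Qb ↥(modularFunctionFieldBar (q * N₀)) with hG
  set G₀ := genusFF Qb ↥(modularFunctionFieldBar N₀) with hG₀
  set s := Nat.card {v : Place (IsLocalRing.ResidueField A)
          ↥(modularFunctionFieldFullC (IsLocalRing.ResidueField A) N₀) // 0 < v.ord h} with hs
  have hq1 : 1 ≤ q := hq.one_le
  have key : ∀ a b : ℕ,
      (12 * (G : ℚ) + 12 = 24 * (G₀ : ℚ) + ((q : ℚ) - 1) * (dedekindPsi N₀ : ℚ)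
        + 3 * (nuTwo N₀ : ℚ) * (a : ℚ) + 4 * (nuThree N₀ : ℚ) * (b : ℚ)) →
      12 * G + 12 = 24 * G₀ + (q - 1) * dedekindPsi N₀ + 3 * nuTwo N₀ * a
        + 4 * nuThree N₀ * b := by
    intro a b hab
    have e : ((q - 1 : ℕ) : ℚ) = (q : ℚ) - 1 := by
      rw [Nat.cast_sub hq1, Nat.cast_one]
    have : ((12 * G + 12 : ℕ) : ℚ) = ((24 * G₀ + (q - 1) * dedekindPsi N₀
        + 3 * nuTwo N₀ * a + 4 * nuThree N₀ * b : ℕ) : ℚ) := by
      push_cast
      rw [e]
      exact hab
    exact_mod_cast this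
  have hAn := key (if q % 4 = 3 then 2 else 0) (if q % 3 = 2 then 2 else 0)
    (by push_cast; exact hA₀)
  -- the reverse inequality
  have hge : 12 * ∑ c ∈ P.roots.toFinset,
      Nat.card {v : Place (IsLocalRing.ResidueField A)
        ↥(modularFunctionFieldFullC (IsLocalRing.ResidueField A) N₀) //
        0 < v.ord (Fermat.Agent.RRMod.jC (IsLocalRing.ResidueField A) N₀ -
          algebraMap (IsLocalRing.ResidueField A) _ c)} ≤
      (q - 1) * dedekindPsi N₀ +
        (if (0 : IsLocalRing.ResidueField A) ∈ P.roots.toFinset then 8 * nuThree N₀ else 0) +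
        (if (1728 : IsLocalRing.ResidueField A) ∈ P.roots.toFinset then 6 * nuTwo N₀ else 0) := by
    have hle := Nat.mul_le_mul_left 12 hcount
    generalize (q - 1) * dedekindPsi N₀ = X at hAn ⊢
    by_cases h4 : q % 4 = 3 <;> by_cases h3 : q % 3 = 2
    · rw [if_pos (hr0 h3), if_pos (hr1 h4)]
      rw [if_pos h4, if_pos h3] at hAn
      omega
    · rw [if_pos (hr1 h4)]
      rw [if_pos h4, if_neg h3] at hAn
      split_ifs <;> omega
    · rw [if_pos (hr0 h3)]
      rw [if_neg h4, if_pos h3] at hAn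
      split_ifs <;> omega
    · rw [if_neg h4, if_neg h3] at hAn
      split_ifs <;> omega
  have harith := epsMult_arith h1728 P.roots.toFinset (fun c => P.rootMultiplicity c)
    (fun c => Nat.card {v : Place (IsLocalRing.ResidueField A)
        ↥(modularFunctionFieldFullC (IsLocalRing.ResidueField A) N₀) //
        0 < v.ord (Fermat.Agent.RRMod.jC (IsLocalRing.ResidueField A) N₀ -
          algebraMap (IsLocalRing.ResidueField A) _ c)})
    (dedekindPsi N₀) (nuTwo N₀) (nuThree N₀)
    (orbCount (CongruenceSubgroup.Gamma0 N₀) ModularGroup.S)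
    (orbCount (CongruenceSubgroup.Gamma0 N₀) (ModularGroup.S * ModularGroup.T)) (q - 1) hψ
    (two_mul_orbCount_S N₀) (three_mul_orbCount_ST N₀)
    (fun c _ hc0 hc1 => by
      rw [card_fibre_jC_of_ne N₀ hq hA hqN hq2 hq3 c hc0 hc1, index_Gamma0])
    (card_fibre_jC_zero N₀ hq hA hqN hq2 hq3)
    (card_fibre_jC_1728 N₀ hq hA hqN hq2 hq3)
    hm hm0 hm1 (by rw [sum_rootMultiplicity_eq_natDegree, hdeg]) hge
  intro c hc
  have hcR : c ∈ P.roots.toFinset :=
    Multiset.mem_toFinset.mpr ((Polynomial.mem_roots hP0).mpr hc)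
  have := harith c hcR
  convert this

/-- at a zero `v` of `h = ū`: `ord_v h = ssMult c * ord_v (j̄ - c)` with `c = j̄(v)`. -/
theorem ord_ss_eq_mult (N₀ : ℕ) [NeZero N₀] {q : ℕ} (hq : q.Prime) (h5 : 5 ≤ q)
    (hqN : ¬ q ∣ N₀) [NeZero (q * N₀)]
    {A : ValuationSubring Qb} (hA : A.LiesOverPrime q)
    (h : modularFunctionFieldFullC (IsLocalRing.ResidueField A) N₀)
    (hh : (h : LaurentSeries (IsLocalRing.ResidueField A)) =
      ssFun (IsLocalRing.ResidueField A) q)
    (hgen : genusFF (IsLocalRing.ResidueField A)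
          ↥(modularFunctionFieldFullC (IsLocalRing.ResidueField A) N₀) +
        genusFF (IsLocalRing.ResidueField A)
          ↥(modularFunctionFieldFullC (IsLocalRing.ResidueField A) N₀) +
        Nat.card {v : Place (IsLocalRing.ResidueField A)
          ↥(modularFunctionFieldFullC (IsLocalRing.ResidueField A) N₀) // 0 < v.ord h} ≤
      genusFF Qb ↥(modularFunctionFieldBar (q * N₀)) + 1)
    (v : Place (IsLocalRing.ResidueField A)
      (modularFunctionFieldFullC (IsLocalRing.ResidueField A) N₀)) (hv : 0 < v.ord h) :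
    ∃ c : IsLocalRing.ResidueField A,
      0 < v.ord (Fermat.Agent.RRMod.jC (IsLocalRing.ResidueField A) N₀ -
        algebraMap (IsLocalRing.ResidueField A) _ c) ∧
      v.ord h = (@ssMult _ _ (Classical.decEq _) c : ℤ) *
        v.ord (Fermat.Agent.RRMod.jC (IsLocalRing.ResidueField A) N₀ -
          algebraMap (IsLocalRing.ResidueField A) _ c) := by
  classical
  haveI : IsAlgClosed (IsLocalRing.ResidueField A) := isAlgClosed_residue A
  obtain ⟨P, u₀, hu₀, hP0, -, hh', hmult⟩ := ssMult_exact N₀ hq h5 hqN hA h hh hgen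
  have hRR := Fermat.Agent.RRMod.isRRField_fullC' (IsLocalRing.ResidueField A) N₀
  have hj := ord_jC_nonneg_of_ss_zero N₀ hq hA h hh v hv
  have htr := transcendental_jC' N₀ (IsLocalRing.ResidueField A)
  obtain ⟨c, hc⟩ := exists_const_sub hRR v hj
  have hc' : 0 < v.ord (Fermat.Agent.RRMod.jC (IsLocalRing.ResidueField A) N₀ -
      algebraMap (IsLocalRing.ResidueField A) _ c) := by
    rcases hc with hc | hc
    · exfalso
      apply htr
      rw [hc]
      exact isAlgebraic_algebraMap c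
    · exact hc
  refine ⟨c, hc', ?_⟩
  have hu' : algebraMap (IsLocalRing.ResidueField A)
      (modularFunctionFieldFullC (IsLocalRing.ResidueField A) N₀) u₀ ≠ 0 :=
    (map_ne_zero (algebraMap (IsLocalRing.ResidueField A)
      (modularFunctionFieldFullC (IsLocalRing.ResidueField A) N₀))).mpr hu₀
  have hne : Polynomial.aeval (Fermat.Agent.RRMod.jC (IsLocalRing.ResidueField A) N₀) P ≠ 0 := by
    intro h0
    rw [hh', h0, mul_zero, v.ord_zero] at hv
    exact lt_irrefl _ hv
  have h1 := Fermat.Agent.GoodRedSmall.ord_aeval_eq v hc' hP0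
  have h2 : v.ord h = (P.rootMultiplicity c : ℤ) *
      v.ord (Fermat.Agent.RRMod.jC (IsLocalRing.ResidueField A) N₀ -
        algebraMap (IsLocalRing.ResidueField A) _ c) := by
    rw [hh', v.ord_mul hu' hne, Fermat.Agent.GoodRedSmall.ord_const, zero_add, h1]
  have hroot : P.IsRoot c := by
    rw [← Polynomial.rootMultiplicity_pos hP0]
    by_contra h0
    have h00 : P.rootMultiplicity c = 0 := by omega
    rw [h2, h00] at hv
    simp at hv
  rw [h2, hmult c hroot]

end Count

section Modular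

local notation "Qb" => AlgebraicClosure ℚ

open Fermat.Agent.EKp Fermat.Agent.AtkinLehner Fermat.Agent.GaussInt

attribute [local instance] Fermat.Agent.BadRed.fwFintype

variable (D : ALData) [NeZero D.Q] [NeZero D.R] [NeZero (D.Q * D.R)]
  (A : ValuationSubring Qb) (hq : D.Q.Prime) (hA : A.LiesOverPrime D.Q) (hqR : ¬ D.Q ∣ D.R)
  [Fact D.Q.Prime] [CharP (IsLocalRing.ResidueField A) D.Q]
  [PerfectRing (IsLocalRing.ResidueField A) D.Q]

/-- the genus inequality of the modular nodal setup, in the form used by `ssMult_exact`. -/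
theorem r38_genus_le (h5 : 5 ≤ D.Q) :
    genusFF (IsLocalRing.ResidueField A)
          ↥(modularFunctionFieldFullC (IsLocalRing.ResidueField A) D.R) +
        genusFF (IsLocalRing.ResidueField A)
          ↥(modularFunctionFieldFullC (IsLocalRing.ResidueField A) D.R) +
        Nat.card {v : Place (IsLocalRing.ResidueField A)
          ↥(modularFunctionFieldFullC (IsLocalRing.ResidueField A) D.R) //
            0 < v.ord ((kpS D A hq hA hqR).red (fwU D))} ≤
      genusFF Qb ↥(modularFunctionFieldBar (D.Q * D.R)) + 1 := by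
  have h := kpN_genusRel D A hq hA hqR (AuxLevelOK.of_five_le h5)
  unfold NodalSetup.GenusRel at h
  rw [Nat.card_eq_fintype_card]
  exact h.ge

include hq hA hqR in
/-- **the exact multiplicities of the supersingular polynomial** (interface of helper27). -/
theorem r38_ssMult_exact (h5 : 5 ≤ D.Q) :
    ∃ (P : Polynomial (IsLocalRing.ResidueField A)) (u₀ : IsLocalRing.ResidueField A),
      u₀ ≠ 0 ∧ P ≠ 0 ∧
      ssFun (IsLocalRing.ResidueField A) D.Q =
        HahnSeries.C u₀ * Polynomial.aeval (jqModC (IsLocalRing.ResidueField A)) P ∧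
      (∀ c, P.IsRoot c → c ≠ 0 → c ≠ 1728 → P.rootMultiplicity c = 12) ∧
      (P.IsRoot 0 → P.rootMultiplicity 0 = 4) ∧
      (P.IsRoot 1728 → P.rootMultiplicity 1728 = 6) := by
  classical
  have h1728 : (1728 : IsLocalRing.ResidueField A) ≠ 0 := Fermat.Agent.SwD.ne_zero_1728 D.Q h5
  obtain ⟨P, u₀, hu₀, hP0, hss, -, hmult⟩ := ssMult_exact D.R hq h5 hqR hA
    ((kpS D A hq hA hqR).red (fwU D))
    (fw_coe_red_uF D A hq hA (kpS D A hq hA hqR) (isGaussSetup_gaussSetupBad D hq hqR A hA))
    (r38_genus_le D A hq hA hqR h5)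
  refine ⟨P, u₀, hu₀, hP0, hss, ?_, ?_, ?_⟩
  · intro c hc hc0 hc1
    rw [hmult c hc]
    unfold ssMult
    rw [if_neg hc0, if_neg hc1]
  · intro hc
    rw [hmult 0 hc]
    unfold ssMult
    rw [if_pos rfl]
  · intro hc
    rw [hmult 1728 hc]
    unfold ssMult
    rw [if_neg h1728, if_pos rfl]

/-- **the multiplicity of a node**: `ε_i = ssMult c * ord_i (j̄ - c)`, `c = j̄(i)`. -/
theorem kpEps_eq_mult (h5 : 5 ≤ D.Q) (i : kpIota D A hq hA hqR) :
    ∃ c : IsLocalRing.ResidueField A,
      0 < i.1.ord (Fermat.Agent.RRMod.jC (IsLocalRing.ResidueField A) D.R -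
        algebraMap (IsLocalRing.ResidueField A) _ c) ∧
      ((kpEps D A hq hA hqR i : ℕ) : ℤ) = (@ssMult _ _ (Classical.decEq _) c : ℤ) *
        i.1.ord (Fermat.Agent.RRMod.jC (IsLocalRing.ResidueField A) D.R -
          algebraMap (IsLocalRing.ResidueField A) _ c) := by
  obtain ⟨c, hc, hord⟩ := ord_ss_eq_mult D.R hq h5 hqR hA
    ((kpS D A hq hA hqR).red (fwU D))
    (fw_coe_red_uF D A hq hA (kpS D A hq hA hqR) (isGaussSetup_gaussSetupBad D hq hqR A hA))
    (r38_genus_le D A hq hA hqR h5) i.1 i.2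
  exact ⟨c, hc, by rw [kpEps_cast]; exact hord⟩

end Modular

end Fermat.Agent.R38
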