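/-
Row 38 (S44 wave), block P = (PHI), seat P-eps, part 1 (helper27): RAMIFICATION of
`F_k(N) / k(j̄)` in characteristic `ℓ ∤ N`, `ℓ ∉ {2, 3}`.

* `r38_exists_eq_of_sum_le`  : the combinatorial core (weights on two finite sets, a map between
                               them, equal totals and cardinalities);
* `r38_sum_ord_zeros_sub`    : the fundamental identity for the zeros of `x - c`, any
                               characteristic (from `RRHur.degree_poleDiv_eq_finrank`);
* `r38_ord_red_transfer`     : Deuring's push-forward + equal fibre cardinalities ⟹ every zero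
                               `Q` of `x̄ - c̄` is the reduction of a zero `P` of `x - c` with
                               `ord_Q (x̄ - c̄) = ord_P (x - c)`;
* `r38_ord_jC_transfer`      : the modular instance (`x = j`, good reduction at `ℓ ∤ N`);
* `r38_ordDvd_jC`            : `ord_Q (j̄ - c̄)` divides `3` (`c̄ = 0`), divides `2` (`c̄ = 1728`),
                               equals `1` (otherwise): the characteristic-`ℓ` analogue of
                               `GoodRedSmall.ordDvd`;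
* `r38_ord_jC_zero_eq_three` : `ν₃(N) = 0` ⟹ `ord_Q j̄ = 3` at every place over `j̄ = 0`;
* `r38_ord_jC_1728_eq_two`   : `ν₂(N) = 0` ⟹ `ord_Q (j̄ - 1728) = 2` at every place over `1728`.
-/
import Mathlib
import Fermat.Agent.Lib.Deuring.Main
import Fermat.Agent.Lib.RR.Hurwitz.Count
import Fermat.Agent.Lib.GoodRed.ModularFibres
import Fermat.Agent.Lib.GoodRed.Small.OrdDvd
import Fermat.Agent.S24.Comb

set_option autoImplicit false
set_option linter.unusedSectionVars false
set_option linter.style.haveILetI false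
set_option synthInstance.maxHeartbeats 400000

noncomputable section

open AlgebraicCurve IntermediateField Fermat.Agent.RR Fermat.Agent.Deuring

namespace Fermat.Agent.R38

section Comb

open Classical in
/-- **combinatorial core of the transfer of ramification indices**: `r : α → β`, finite sets
`Z`, `Zb`, positive weights `e` on `Z`, `eb` on `Zb`, `eb Q ≤ ∑_{P ∈ Z, r P = Q} e P`, equal total
weights and `#Z ≤ #Zb`.  Then every `Q ∈ Zb` is the image of some `P ∈ Z` with `eb Q = e P`. -/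
theorem r38_exists_eq_of_sum_le {α β : Type*} (r : α → β)
    (Z : Finset α) (Zb : Finset β) (e : α → ℤ) (eb : β → ℤ)
    (he : ∀ P ∈ Z, 0 < e P) (heb : ∀ Q ∈ Zb, 0 < eb Q)
    (hle : ∀ Q ∈ Zb, eb Q ≤ ∑ P ∈ Z with r P = Q, e P)
    (hsum : ∑ P ∈ Z, e P ≤ ∑ Q ∈ Zb, eb Q)
    (hcard : Z.card ≤ Zb.card) :
    ∀ Q ∈ Zb, ∃ P ∈ Z, r P = Q ∧ eb Q = e P := by
  classical
  -- the fibres are nonempty
  have hfib : ∀ Q ∈ Zb, ∃ P ∈ Z, r P = Q := by
    intro Q hQ
    by_contra hcon
    push Not at hcon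
    have h0 : ∑ P ∈ Z with r P = Q, e P = 0 := by
      apply Finset.sum_eq_zero
      intro P hP
      rw [Finset.mem_filter] at hP
      exact absurd hP.2 (hcon P hP.1)
    have := hle Q hQ
    have := heb Q hQ
    omega
  -- total of the fibres over `Zb` is at most the total over `Z`
  have hdisj : ∑ Q ∈ Zb, ∑ P ∈ Z with r P = Q, e P = ∑ P ∈ Z with r P ∈ Zb, e P := by
    rw [← Finset.sum_fiberwise_of_maps_to (s := Z.filter fun P => r P ∈ Zb) (t := Zb) (g := r)
      (fun P hP => (Finset.mem_filter.mp hP).2) e]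
    refine Finset.sum_congr rfl fun Q hQ => ?_
    refine Finset.sum_congr ?_ fun _ _ => rfl
    ext P
    simp only [Finset.mem_filter]
    constructor
    · rintro ⟨hP, rfl⟩
      exact ⟨⟨hP, hQ⟩, rfl⟩
    · rintro ⟨⟨hP, _⟩, h⟩
      exact ⟨hP, h⟩
  have hsub : ∑ P ∈ Z with r P ∈ Zb, e P ≤ ∑ P ∈ Z, e P :=
    Finset.sum_le_sum_of_subset_of_nonneg (Finset.filter_subset _ _)
      (fun P hP _ => (he P hP).le)
  have hchain : ∑ Q ∈ Zb, eb Q ≤ ∑ Q ∈ Zb, ∑ P ∈ Z with r P = Q, e P := Finset.sum_le_sum hle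
  -- equality everywhere
  have heq : ∀ Q ∈ Zb, eb Q = ∑ P ∈ Z with r P = Q, e P := by
    have hE : ∑ Q ∈ Zb, eb Q = ∑ Q ∈ Zb, ∑ P ∈ Z with r P = Q, e P := by
      apply le_antisymm hchain
      rw [hdisj]
      exact hsub.trans hsum
    exact (Finset.sum_eq_sum_iff_of_le hle).mp hE
  have hall : ∀ P ∈ Z, r P ∈ Zb := by
    intro P hP
    by_contra hcon
    have hlt : ∑ P ∈ Z with r P ∈ Zb, e P < ∑ P ∈ Z, e P := by
      refine Finset.sum_lt_sum_of_subset (Finset.filter_subset _ _) hP ?_ (he P hP) ?_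
      · rw [Finset.mem_filter]
        exact fun h => hcon h.2
      · intro P' hP' _
        exact (he P' hP').le
    have : ∑ Q ∈ Zb, eb Q < ∑ P ∈ Z, e P := by
      calc ∑ Q ∈ Zb, eb Q ≤ _ := hchain
        _ = _ := hdisj
        _ < _ := hlt
    omega
  -- `r : Z → Zb` is surjective, hence injective
  have hsurj : Set.SurjOn r Z Zb := fun Q hQ => by
    obtain ⟨P, hP, rfl⟩ := hfib Q hQ
    exact ⟨P, hP, rfl⟩
  have hmaps : Set.MapsTo r Z Zb := fun P hP => hall P hP
  have hinj : Set.InjOn r Z := by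
    have himg : Z.image r = Zb := by
      apply Finset.Subset.antisymm
      · intro Q hQ
        obtain ⟨P, hP, rfl⟩ := Finset.mem_image.mp hQ
        exact hall P hP
      · intro Q hQ
        obtain ⟨P, hP, rfl⟩ := hfib Q hQ
        exact Finset.mem_image_of_mem r hP
    have hc : (Z.image r).card = Z.card := by
      apply le_antisymm Finset.card_image_le
      rw [himg]
      exact hcard
    exact Finset.card_image_iff.mp hc
  intro Q hQ
  obtain ⟨P, hP, hPQ⟩ := hfib Q hQ
  refine ⟨P, hP, hPQ, ?_⟩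
  rw [heq Q hQ]
  have hfilter : (Z.filter fun P' => r P' = Q) = {P} := by
    ext P'
    rw [Finset.mem_filter, Finset.mem_singleton]
    constructor
    · rintro ⟨hP', hP'Q⟩
      exact hinj hP' hP (hP'Q.trans hPQ.symm)
    · rintro rfl
      exact ⟨hP, hPQ⟩
  rw [hfilter, Finset.sum_singleton]

end Comb

section Generic

variable {K F : Type*} [Field K] [Field F] [Algebra K F]

theorem r38_adjoin_inv_eq (x : F) : K⟮x⁻¹⟯ = K⟮x⟯ := by
  apply le_antisymm
  · rw [adjoin_simple_le_iff]
    exact inv_mem (mem_adjoin_simple_self K x)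
  · rw [adjoin_simple_le_iff]
    have hmem : (x⁻¹)⁻¹ ∈ K⟮x⁻¹⟯ := inv_mem (mem_adjoin_simple_self K x⁻¹)
    rwa [inv_inv] at hmem

theorem r38_adjoin_sub_eq (x : F) (c : K) : K⟮x - algebraMap K F c⟯ = K⟮x⟯ := by
  apply le_antisymm
  · rw [adjoin_simple_le_iff]
    exact sub_mem (mem_adjoin_simple_self K x) (IntermediateField.algebraMap_mem _ c)
  · rw [adjoin_simple_le_iff]
    have hmem : (x - algebraMap K F c) + algebraMap K F c ∈ K⟮x - algebraMap K F c⟯ :=
      add_mem (mem_adjoin_simple_self K _) (IntermediateField.algebraMap_mem _ c)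
    rwa [sub_add_cancel] at hmem

theorem r38_transcendental_inv {x : F} (hx : Transcendental K x) : Transcendental K x⁻¹ :=
  fun halg => hx (by simpa using halg.inv)

theorem r38_transcendental_sub {x : F} (hx : Transcendental K x) (c : K) :
    Transcendental K (x - algebraMap K F c) := by
  intro halg
  apply hx
  have := halg.add (isAlgebraic_algebraMap (R := K) (A := F) c)
  rwa [sub_add_cancel] at this

/-- the fundamental identity for the zeros of `x` (any characteristic, from Riemann-Roch). -/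
theorem r38_sum_ord_zeros (h : IsRRField K F) {x : F} (hx : Transcendental K x)
    [FiniteDimensional K⟮x⟯ F] (s : Finset (Place K F)) (hs : ∀ v, v ∈ s ↔ 0 < v.ord x) :
    ∑ v ∈ s, v.ord x = (Module.finrank K⟮x⟯ F : ℤ) := by
  have hx' : Transcendental K x⁻¹ := r38_transcendental_inv hx
  have hadj : K⟮x⁻¹⟯ = K⟮x⟯ := r38_adjoin_inv_eq x
  haveI : FiniteDimensional K⟮x⁻¹⟯ F := by rw [hadj]; infer_instance
  have h1 := Fermat.Agent.RRHur.degree_poleDiv_eq_finrank h hx'
  rw [degree_poleDiv h x⁻¹ s (fun v => by rw [hs, Place.ord_inv]; omega)] at h1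
  have h2 : Module.finrank K⟮x⁻¹⟯ F = Module.finrank K⟮x⟯ F := by rw [hadj]
  rw [h2] at h1
  rw [← h1]
  refine Finset.sum_congr rfl fun v _ => ?_
  rw [Place.ord_inv, neg_neg]

/-- the fundamental identity for the zeros of `x - c`. -/
theorem r38_sum_ord_zeros_sub (h : IsRRField K F) {x : F} (hx : Transcendental K x)
    [FiniteDimensional K⟮x⟯ F] (c : K) (s : Finset (Place K F))
    (hs : ∀ v, v ∈ s ↔ 0 < v.ord (x - algebraMap K F c)) :
    ∑ v ∈ s, v.ord (x - algebraMap K F c) = (Module.finrank K⟮x⟯ F : ℤ) := by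
  have hadj : K⟮x - algebraMap K F c⟯ = K⟮x⟯ := r38_adjoin_sub_eq x c
  haveI : FiniteDimensional K⟮x - algebraMap K F c⟯ F := by rw [hadj]; infer_instance
  rw [r38_sum_ord_zeros h (r38_transcendental_sub hx c) s hs, hadj]

end Generic

section Push

variable {K F k Fk : Type*} [Field K] [Field F] [Algebra K F]
  [Field k] [Field Fk] [Algebra k Fk]

open Classical in
/-- the value of a push-forward divisor at `Q` is at most the sum of the positive coefficients
over the fibre of `Q`. -/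
theorem r38_mapDomain_le (r : Place K F → Place k Fk) (D : Divisor K F) (Q : Place k Fk)
    (Z : Finset (Place K F)) (hZ : ∀ P, P ∈ Z ↔ 0 < D P) :
    Finsupp.mapDomain r D Q ≤ ∑ P ∈ Z with r P = Q, D P := by
  classical
  have h1 : Finsupp.mapDomain r D Q = ∑ P ∈ D.support, if r P = Q then D P else 0 := by
    rw [Finsupp.mapDomain, Finsupp.sum_apply, Finsupp.sum]
    refine Finset.sum_congr rfl fun P _ => ?_
    rw [Finsupp.single_apply]
  rw [h1, Finset.sum_filter]
  have hsub : Z ⊆ D.support := by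
    intro P hP
    rw [Finsupp.mem_support_iff]
    have := (hZ P).mp hP
    omega
  rw [← Finset.sum_sdiff hsub]
  have hneg : ∑ P ∈ D.support \ Z, (if r P = Q then D P else 0) ≤ 0 := by
    apply Finset.sum_nonpos
    intro P hP
    rw [Finset.mem_sdiff] at hP
    have hn : ¬ 0 < D P := fun h => hP.2 ((hZ P).mpr h)
    split_ifs
    · omega
    · exact le_rfl
  linarith


open Classical in
/-- **transfer of ramification indices along Deuring's reduction map**: if the fibres of `x` over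
`c` and of `x̄` over `c̄` have the same number of points (and the degrees agree), then every zero
`Q` of `x̄ - c̄` is the reduction of a zero `P` of `x - c` with the same multiplicity. -/
theorem r38_ord_red_transfer (S : ValSetup K F k Fk) (r : Place K F → Place k Fk)
    (hpush : ∀ f : F, f ∈ S.Ov → f⁻¹ ∈ S.Ov → f ≠ 0 → ∀ Q : Place k Fk,
        Finsupp.mapDomain r (divOf S.hF f) Q = Q.ord (S.red f))
    {x : F} (hx : Transcendental K x) [FiniteDimensional K⟮x⟯ F]
    {xb : Fk} (hxb : Transcendental k xb) [FiniteDimensional k⟮xb⟯ Fk]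
    (hdeg : Module.finrank K⟮x⟯ F = Module.finrank k⟮xb⟯ Fk)
    (c : K) (cb : k)
    (hf : x - algebraMap K F c ∈ S.Ov) (hf' : (x - algebraMap K F c)⁻¹ ∈ S.Ov)
    (hred : S.red (x - algebraMap K F c) = xb - algebraMap k Fk cb)
    (hcard : Nat.card {P : Place K F // 0 < P.ord (x - algebraMap K F c)} ≤
      Nat.card {Q : Place k Fk // 0 < Q.ord (xb - algebraMap k Fk cb)})
    (Q : Place k Fk) (hQ : 0 < Q.ord (xb - algebraMap k Fk cb)) :
    ∃ P : Place K F, 0 < P.ord (x - algebraMap K F c) ∧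
      Q.ord (xb - algebraMap k Fk cb) = P.ord (x - algebraMap K F c) := by
  set f : F := x - algebraMap K F c with hfdef
  set fb : Fk := xb - algebraMap k Fk cb with hfbdef
  have hf0 : f ≠ 0 := fun h0 => by
    have htr := r38_transcendental_sub hx c
    rw [← hfdef, h0] at htr
    exact htr (isAlgebraic_zero)
  have hZfin := Fermat.Agent.RR.finite_zeros S.hF f
  have hZbfin := Fermat.Agent.RR.finite_zeros S.hFk fb
  set Z : Finset (Place K F) := hZfin.toFinset with hZ
  set Zb : Finset (Place k Fk) := hZbfin.toFinset with hZb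
  have hmemZ : ∀ P, P ∈ Z ↔ 0 < P.ord f := fun P => by
    rw [hZ, Set.Finite.mem_toFinset]
    rfl
  have hmemZb : ∀ Q, Q ∈ Zb ↔ 0 < Q.ord fb := fun Q => by
    rw [hZb, Set.Finite.mem_toFinset]
    rfl
  have hcardZ : Z.card = Nat.card {P : Place K F // 0 < P.ord f} := by
    rw [hZ, ← Set.ncard_eq_toFinset_card _ hZfin, ← Nat.card_coe_set_eq]
    rfl
  have hcardZb : Zb.card = Nat.card {Q : Place k Fk // 0 < Q.ord fb} := by
    rw [hZb, ← Set.ncard_eq_toFinset_card _ hZbfin, ← Nat.card_coe_set_eq]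
    rfl
  have key := r38_exists_eq_of_sum_le r Z Zb (fun P => P.ord f) (fun Q => Q.ord fb)
    (fun P hP => (hmemZ P).mp hP) (fun Q hQ => (hmemZb Q).mp hQ)
    (fun Q _ => by
      have h1 := hpush f hf hf' hf0 Q
      rw [hred] at h1
      show Q.ord fb ≤ _
      rw [← h1]
      have h2 := r38_mapDomain_le r (divOf S.hF f) Q Z
        (fun P => by rw [hmemZ, divOf_apply])
      refine h2.trans (le_of_eq ?_)
      refine Finset.sum_congr rfl fun P _ => ?_
      rw [divOf_apply])
    (by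
      rw [r38_sum_ord_zeros_sub S.hF hx c Z hmemZ, r38_sum_ord_zeros_sub S.hFk hxb cb Zb hmemZb,
        hdeg])
    (by rw [hcardZ, hcardZb]; exact hcard)
    Q ((hmemZb Q).mpr hQ)
  obtain ⟨P, hP, -, hPQ⟩ := key
  exact ⟨P, (hmemZ P).mp hP, hPQ⟩

end Push


section Modular

open ModularCurve Fermat.Agent.GaussInt Fermat.Agent.GoodRed

local notation "Qb" => AlgebraicClosure ℚ

variable (N : ℕ) [NeZero N] {ℓ : ℕ} (hℓ : ℓ.Prime)
  {A : ValuationSubring Qb} (hA : A.LiesOverPrime ℓ)

include hℓ hA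

set_option maxHeartbeats 1000000

/-- **transfer for `j`**: a place `Q` of `F_k(N)` over `c̄` is the reduction of a place `P` of
`F_N` over `c` with the same ramification index, if `c` is a branch value or `c̄` is not the
residue of a branch value. -/
theorem r38_ord_jC_transfer (hℓN : ¬ ℓ ∣ N) (h2 : ℓ ≠ 2) (h3 : ℓ ≠ 3)
    (c : Qb) (hc : c ∈ A)
    (h : c ∈ branchSet ∨ ∀ c' ∈ branchSet, ∀ hc' : c' ∈ A,
      IsLocalRing.residue A ⟨c', hc'⟩ ≠ IsLocalRing.residue A ⟨c, hc⟩)
    (Q : Place (IsLocalRing.ResidueField A)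
      ↥(modularFunctionFieldFullC (IsLocalRing.ResidueField A) N))
    (hQ : 0 < Q.ord (Fermat.Agent.RRMod.jC (IsLocalRing.ResidueField A) N -
      algebraMap (IsLocalRing.ResidueField A) _ (IsLocalRing.residue A ⟨c, hc⟩))) :
    ∃ P : Place Qb ↥(modularFunctionFieldBar N),
      0 < P.ord (Fermat.Agent.S24.jBar N - algebraMap Qb _ c) ∧
      Q.ord (Fermat.Agent.RRMod.jC (IsLocalRing.ResidueField A) N -
          algebraMap (IsLocalRing.ResidueField A) _ (IsLocalRing.residue A ⟨c, hc⟩)) =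
        P.ord (Fermat.Agent.S24.jBar N - algebraMap Qb _ c) := by
  haveI := isAlgClosed_residue A
  haveI := infinite_residue A
  set S := modularValSetup A ℓ N hℓ hA hℓN with hS
  obtain ⟨r, hpush, -, -⟩ := exists_reduction S (hasLattice_modularValSetup A ℓ N hℓ hA hℓN)
    (genusFF_modular_eq N hℓ hA hℓN h2 h3)
  have hff := Fermat.Agent.S24.isFunctionFieldOver_jBar N
  haveI := hff.finite
  haveI := Fermat.Agent.RRMod.finiteDimensional_fullC' (IsLocalRing.ResidueField A) N
  have htrk := Fermat.Agent.RRMod.transcendental_jC (IsLocalRing.ResidueField A) N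
  have hj : Fermat.Agent.S24.jBar N ∈ S.Ov := jBar_mem_gaussValSub N hℓ hA
  have hcS : c ∈ S.A := hc
  have hredj : S.red (Fermat.Agent.S24.jBar N) =
      Fermat.Agent.RRMod.jC (IsLocalRing.ResidueField A) N := by
    apply Subtype.ext
    rw [coe_modularValSetup_red A ℓ N hℓ hA hℓN (f := Fermat.Agent.S24.jBar N) hj,
      gaussResFun_jBar (A := A) N]
    rfl
  have hred : S.red (Fermat.Agent.S24.jBar N - algebraMap Qb _ c) =
      Fermat.Agent.RRMod.jC (IsLocalRing.ResidueField A) N -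
        algebraMap (IsLocalRing.ResidueField A) _ (IsLocalRing.residue A ⟨c, hc⟩) := by
    rw [S.red_sub hj (S.algebraMap_mem hcS), hredj, S.red_algebraMap hcS]
    rfl
  have hne : S.red (Fermat.Agent.S24.jBar N - algebraMap Qb _ c) ≠ 0 := by
    rw [hred]
    intro h0
    have := r38_transcendental_sub htrk (IsLocalRing.residue A ⟨c, hc⟩)
    rw [h0] at this
    exact this isAlgebraic_zero
  have hdeg : Module.finrank Qb⟮Fermat.Agent.S24.jBar N⟯ ↥(modularFunctionFieldBar N) =
      Module.finrank (IsLocalRing.ResidueField A)⟮Fermat.Agent.RRMod.jC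
        (IsLocalRing.ResidueField A) N⟯
        ↥(modularFunctionFieldFullC (IsLocalRing.ResidueField A) N) :=
    (Fermat.Agent.GaussVal.finrank_fullL_of_isAlgClosed A ℓ N hℓ hA hℓN
        (Fermat.Agent.S24.jBar N) (Fermat.Agent.S24.coe_jBar_eq_jqModC N)).trans
      (Fermat.Agent.GaussVal.finrank_fullC_of_isAlgClosed A ℓ N hℓ hA hℓN
        (Fermat.Agent.RRMod.jC (IsLocalRing.ResidueField A) N) rfl).symm
  exact r38_ord_red_transfer S r hpush hff.transcendental htrk hdeg c
    (IsLocalRing.residue A ⟨c, hc⟩) (sub_mem hj (S.algebraMap_mem hcS))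
    (S.inv_mem_of_red_ne_zero hne) hred
    (le_of_eq (card_fibre_jC_eq N hℓ hA hℓN h2 h3 c hc h).symm) Q hQ

/-- **ramification of `F_k(N) / k(j̄)`**, `ℓ ∤ N`, `ℓ ∉ {2, 3}`: a place `Q` over `j̄ = c̄` has
`ord_Q (j̄ - c̄)` dividing `3` (`c̄ = 0`), dividing `2` (`c̄ = 1728`), equal to `1` (otherwise). -/
theorem r38_ordDvd_jC (hℓN : ¬ ℓ ∣ N) (h2 : ℓ ≠ 2) (h3 : ℓ ≠ 3)
    (cb : IsLocalRing.ResidueField A)
    (Q : Place (IsLocalRing.ResidueField A)
      ↥(modularFunctionFieldFullC (IsLocalRing.ResidueField A) N))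
    (hQ : 0 < Q.ord (Fermat.Agent.RRMod.jC (IsLocalRing.ResidueField A) N -
      algebraMap (IsLocalRing.ResidueField A) _ cb)) :
    (cb = 0 → Q.ord (Fermat.Agent.RRMod.jC (IsLocalRing.ResidueField A) N -
      algebraMap (IsLocalRing.ResidueField A) _ cb) ∣ 3) ∧
    (cb = 1728 → Q.ord (Fermat.Agent.RRMod.jC (IsLocalRing.ResidueField A) N -
      algebraMap (IsLocalRing.ResidueField A) _ cb) ∣ 2) ∧
    (cb ≠ 0 → cb ≠ 1728 → Q.ord (Fermat.Agent.RRMod.jC (IsLocalRing.ResidueField A) N -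
      algebraMap (IsLocalRing.ResidueField A) _ cb) = 1) := by
  have hchar0 := Fermat.Agent.GoodRedSmall.ordDvd N
  refine ⟨fun h0 => ?_, fun h1 => ?_, fun h0 h1 => ?_⟩
  · subst h0
    have hQ' : 0 < Q.ord (Fermat.Agent.RRMod.jC (IsLocalRing.ResidueField A) N -
        algebraMap (IsLocalRing.ResidueField A) _
          (IsLocalRing.residue A ⟨(0 : Qb), A.zero_mem⟩)) := by
      rw [residue_mk_zero]
      exact hQ
    obtain ⟨P, hP, hPQ⟩ := r38_ord_jC_transfer N hℓ hA hℓN h2 h3 0 A.zero_mem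
      (Or.inl (mem_branchSet.mpr (Or.inl rfl))) Q hQ'
    rw [residue_mk_zero] at hPQ
    rw [hPQ]
    exact (hchar0 0 P hP).1 rfl
  · subst h1
    have hQ' : 0 < Q.ord (Fermat.Agent.RRMod.jC (IsLocalRing.ResidueField A) N -
        algebraMap (IsLocalRing.ResidueField A) _
          (IsLocalRing.residue A ⟨(1728 : Qb), mem_1728 A⟩)) := by
      rw [residue_mk_1728]
      exact hQ
    obtain ⟨P, hP, hPQ⟩ := r38_ord_jC_transfer N hℓ hA hℓN h2 h3 1728 (mem_1728 A)
      (Or.inl (mem_branchSet.mpr (Or.inr rfl))) Q hQ'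
    rw [residue_mk_1728] at hPQ
    rw [hPQ]
    exact (hchar0 1728 P hP).2.1 rfl
  · obtain ⟨⟨c, hc⟩, rfl⟩ := IsLocalRing.residue_surjective cb
    have hbr : ∀ c' ∈ branchSet, ∀ hc' : c' ∈ A,
        IsLocalRing.residue A ⟨c', hc'⟩ ≠ IsLocalRing.residue A ⟨c, hc⟩ := by
      intro c' hc' hc'A heq
      rcases mem_branchSet.mp hc' with rfl | rfl
      · rw [residue_mk_zero] at heq
        exact h0 heq.symm
      · rw [residue_mk_1728] at heq
        exact h1 heq.symm
    obtain ⟨P, hP, hPQ⟩ := r38_ord_jC_transfer N hℓ hA hℓN h2 h3 c hc (Or.inr hbr) Q hQ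
    rw [hPQ]
    have hc0 : c ≠ 0 := by
      rintro rfl
      exact hbr 0 (mem_branchSet.mpr (Or.inl rfl)) hc rfl
    have hc1 : c ≠ 1728 := by
      rintro rfl
      exact hbr 1728 (mem_branchSet.mpr (Or.inr rfl)) hc rfl
    exact (hchar0 c P hP).2.2 hc0 hc1

omit [NeZero N] hℓ hA in
/-- if all the weights are `≤ m` and their sum is `m · #s` then all the weights are `m`. -/
theorem r38_all_eq_of_sum {α : Type*} (s : Finset α) (e : α → ℤ) (m : ℤ)
    (hle : ∀ a ∈ s, e a ≤ m) (hsum : ∑ a ∈ s, e a = m * s.card) : ∀ a ∈ s, e a = m := by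
  have h0 : ∑ a ∈ s, (m - e a) = 0 := by
    rw [Finset.sum_sub_distrib, hsum, Finset.sum_const, nsmul_eq_mul]
    ring
  have h1 := (Finset.sum_eq_zero_iff_of_nonneg (fun a ha => sub_nonneg.mpr (hle a ha))).mp h0
  intro a ha
  have := h1 a ha
  omega

/-- the zeros of `j̄ - c̄`, as a finset, with the fundamental identity and the cardinality. -/
theorem r38_fibre_jC (hℓN : ¬ ℓ ∣ N) (cb : IsLocalRing.ResidueField A) :
    ∃ s : Finset (Place (IsLocalRing.ResidueField A)
        ↥(modularFunctionFieldFullC (IsLocalRing.ResidueField A) N)),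
      (∀ Q, Q ∈ s ↔ 0 < Q.ord (Fermat.Agent.RRMod.jC (IsLocalRing.ResidueField A) N -
        algebraMap (IsLocalRing.ResidueField A) _ cb)) ∧
      ∑ Q ∈ s, Q.ord (Fermat.Agent.RRMod.jC (IsLocalRing.ResidueField A) N -
        algebraMap (IsLocalRing.ResidueField A) _ cb) =
          ((CongruenceSubgroup.Gamma0 N).index : ℤ) ∧
      s.card = Nat.card {Q : Place (IsLocalRing.ResidueField A)
        ↥(modularFunctionFieldFullC (IsLocalRing.ResidueField A) N) //
        0 < Q.ord (Fermat.Agent.RRMod.jC (IsLocalRing.ResidueField A) N -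
          algebraMap (IsLocalRing.ResidueField A) _ cb)} := by
  haveI := isAlgClosed_residue A
  haveI := Fermat.Agent.RRMod.finiteDimensional_fullC' (IsLocalRing.ResidueField A) N
  have hRR := Fermat.Agent.RRMod.isRRField_fullC' (IsLocalRing.ResidueField A) N
  have htrk := Fermat.Agent.RRMod.transcendental_jC (IsLocalRing.ResidueField A) N
  have hfin := Fermat.Agent.RR.finite_zeros hRR
    (Fermat.Agent.RRMod.jC (IsLocalRing.ResidueField A) N -
      algebraMap (IsLocalRing.ResidueField A) _ cb)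
  have hmem : ∀ Q, Q ∈ hfin.toFinset ↔
      0 < Q.ord (Fermat.Agent.RRMod.jC (IsLocalRing.ResidueField A) N -
        algebraMap (IsLocalRing.ResidueField A) _ cb) := fun Q => by
    rw [Set.Finite.mem_toFinset]
    rfl
  refine ⟨hfin.toFinset, hmem, ?_, ?_⟩
  · rw [r38_sum_ord_zeros_sub hRR htrk cb _ hmem,
      Fermat.Agent.GaussVal.finrank_fullC_of_isAlgClosed A ℓ N hℓ hA hℓN
        (Fermat.Agent.RRMod.jC (IsLocalRing.ResidueField A) N) rfl,
      ← Fermat.Agent.GaussVal.finrank_fullL_of_isAlgClosed A ℓ N hℓ hA hℓN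
        (Fermat.Agent.S24.jBar N) (Fermat.Agent.S24.coe_jBar_eq_jqModC N),
      Fermat.Agent.GoodRedBranch.finrank_jBar N]
  · rw [← Set.ncard_eq_toFinset_card _ hfin, ← Nat.card_coe_set_eq]
    rfl

/-- **no elliptic point of order `3`**: if `ν₃(N) = 0` then `ord_Q j̄ = 3` at every place over
`j̄ = 0`. -/
theorem r38_ord_jC_zero_eq_three (hℓN : ¬ ℓ ∣ N) (h2 : ℓ ≠ 2) (h3 : ℓ ≠ 3)
    (hν : nuThree N = 0)
    (Q : Place (IsLocalRing.ResidueField A)
      ↥(modularFunctionFieldFullC (IsLocalRing.ResidueField A) N))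
    (hQ : 0 < Q.ord (Fermat.Agent.RRMod.jC (IsLocalRing.ResidueField A) N -
      algebraMap (IsLocalRing.ResidueField A) _ 0)) :
    Q.ord (Fermat.Agent.RRMod.jC (IsLocalRing.ResidueField A) N -
      algebraMap (IsLocalRing.ResidueField A) _ 0) = 3 := by
  obtain ⟨s, hs, hsum, hcard⟩ := r38_fibre_jC N hℓ hA hℓN (0 : IsLocalRing.ResidueField A)
  rw [card_fibre_jC_zero N hℓ hA hℓN h2 h3] at hcard
  have h3o := Fermat.Agent.S24.three_mul_orbCount_ST N
  rw [hν, mul_zero, add_zero, ← Fermat.Agent.S24.index_Gamma0, ← hcard] at h3o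
  refine r38_all_eq_of_sum s
    (fun Q' => Q'.ord (Fermat.Agent.RRMod.jC (IsLocalRing.ResidueField A) N -
      algebraMap (IsLocalRing.ResidueField A) _ 0)) 3 (fun Q' hQ' => ?_) ?_ Q ((hs Q).mpr hQ)
  · have hpos := (hs Q').mp hQ'
    have hd := (r38_ordDvd_jC N hℓ hA hℓN h2 h3 0 Q' hpos).1 rfl
    exact Int.le_of_dvd (by norm_num) hd
  · rw [hsum, ← h3o]
    push_cast
    ring

/-- **no elliptic point of order `2`**: if `ν₂(N) = 0` then `ord_Q (j̄ - 1728) = 2` at every
place over `j̄ = 1728`. -/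
theorem r38_ord_jC_1728_eq_two (hℓN : ¬ ℓ ∣ N) (h2 : ℓ ≠ 2) (h3 : ℓ ≠ 3)
    (hν : nuTwo N = 0)
    (Q : Place (IsLocalRing.ResidueField A)
      ↥(modularFunctionFieldFullC (IsLocalRing.ResidueField A) N))
    (hQ : 0 < Q.ord (Fermat.Agent.RRMod.jC (IsLocalRing.ResidueField A) N -
      algebraMap (IsLocalRing.ResidueField A) _ 1728)) :
    Q.ord (Fermat.Agent.RRMod.jC (IsLocalRing.ResidueField A) N -
      algebraMap (IsLocalRing.ResidueField A) _ 1728) = 2 := by
  obtain ⟨s, hs, hsum, hcard⟩ := r38_fibre_jC N hℓ hA hℓN (1728 : IsLocalRing.ResidueField A)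
  rw [card_fibre_jC_1728 N hℓ hA hℓN h2 h3] at hcard
  have h2o := Fermat.Agent.S24.two_mul_orbCount_S N
  rw [hν, add_zero, ← Fermat.Agent.S24.index_Gamma0, ← hcard] at h2o
  refine r38_all_eq_of_sum s
    (fun Q' => Q'.ord (Fermat.Agent.RRMod.jC (IsLocalRing.ResidueField A) N -
      algebraMap (IsLocalRing.ResidueField A) _ 1728)) 2 (fun Q' hQ' => ?_) ?_ Q ((hs Q).mpr hQ)
  · have hpos := (hs Q').mp hQ'
    have hd := (r38_ordDvd_jC N hℓ hA hℓN h2 h3 1728 Q' hpos).2.1 rfl
    exact Int.le_of_dvd (by norm_num) hd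
  · rw [hsum, ← h2o]
    push_cast
    ring

end Modular

end Fermat.Agent.R38
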