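/-
Row 38 (S44 wave), block P = (PHI), seat P-eps, FINAL (helper27): the multiplicities of the
nodes of `X₀(q R)` mod `q` (`q = D.Q ≥ 5`, `q ∤ R = D.R`) divide `12`; in particular `q ∤ ε_i`.

`ε_i = ord_i (ū) = m_c · e_i`, `c = j̄(i)`:
* `m_c ∈ {12, 4, 6}` is the multiplicity of the supersingular polynomial at `c`
  (helper65, `R38/P/EpsMult.lean`: equality case of the count of supersingular points);
* `e_i = ord_i (j̄ - c)` is the ramification index of `F_k(R) / k(j̄)` at `i`: `e_i ∣ 3` if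
  `c = 0`, `e_i ∣ 2` if `c = 1728`, `e_i = 1` otherwise (`R38/P/EpsRam.lean`: transfer from
  characteristic `0` along Deuring's reduction map).

* `r38_kpEps_dvd_twelve h5 i : kpEps D A hq hA hqR i ∣ 12`;
* `r38_not_dvd_kpEps   h5 i : ¬ D.Q ∣ kpEps D A hq hA hqR i`;
* `r38_kpEps_eq_twelve h5 hν₂ hν₃ i : kpEps D A hq hA hqR i = 12` if `ν₂(R) = ν₃(R) = 0`;
* `r38_not_dvd_ord_red_u h5 Q hQ : ¬ (D.Q : ℤ) ∣ Q.ord ū` (the form `SpPEps` of the wiring).
-/
import Mathlib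
import Fermat.Agent.R38.P.EpsMult
import Fermat.Agent.R38.P.EpsRam

set_option autoImplicit false
set_option linter.style.haveILetI false
set_option linter.unusedSectionVars false
set_option synthInstance.maxHeartbeats 400000

noncomputable section

namespace Fermat.Agent.R38

open IntermediateField ModularCurve AlgebraicCurve Fermat.Agent.AtkinLehner Fermat.Agent.Deuring
  Fermat.Agent.RR Fermat.Agent.BadRed Fermat.Agent.EKp

local notation "Qb" => AlgebraicClosure ℚ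

attribute [local instance] Fermat.Agent.BadRed.fwFintype

variable (D : ALData) [NeZero D.Q] [NeZero D.R] [NeZero (D.Q * D.R)]
  (A : ValuationSubring Qb) (hq : D.Q.Prime) (hA : A.LiesOverPrime D.Q) (hqR : ¬ D.Q ∣ D.R)
  [Fact D.Q.Prime] [CharP (IsLocalRing.ResidueField A) D.Q]
  [PerfectRing (IsLocalRing.ResidueField A) D.Q]

/-- **P-eps**: the multiplicity of a node divides `12`. -/
theorem r38_kpEps_dvd_twelve (h5 : 5 ≤ D.Q) (i : kpIota D A hq hA hqR) :
    kpEps D A hq hA hqR i ∣ 12 := by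
  classical
  have hq2 : D.Q ≠ 2 := by omega
  have hq3 : D.Q ≠ 3 := by omega
  obtain ⟨c, hc, heq⟩ := kpEps_eq_mult D A hq hA hqR h5 i
  obtain ⟨h0, h1, hgen⟩ := r38_ordDvd_jC D.R hq hA hqR hq2 hq3 c i.1 hc
  have hZ : ((kpEps D A hq hA hqR i : ℕ) : ℤ) ∣ 12 := by
    rw [heq]
    unfold ssMult
    by_cases hc0 : c = 0
    · rw [if_pos hc0]
      have := mul_dvd_mul_left (4 : ℤ) (h0 hc0)
      norm_num at this ⊢
      exact this
    · by_cases hc1 : c = 1728
      · rw [if_neg hc0, if_pos hc1]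
        have := mul_dvd_mul_left (6 : ℤ) (h1 hc1)
        norm_num at this ⊢
        exact this
      · rw [if_neg hc0, if_neg hc1, hgen hc0 hc1]
        norm_num
  exact_mod_cast hZ

/-- **P-eps**: `q ∤ ε_i` at the nodes (`q ≥ 5`). -/
theorem r38_not_dvd_kpEps (h5 : 5 ≤ D.Q) (i : kpIota D A hq hA hqR) :
    ¬ D.Q ∣ kpEps D A hq hA hqR i := by
  intro h
  have h12 : D.Q ∣ 12 := h.trans (r38_kpEps_dvd_twelve D A hq hA hqR h5 i)
  have h12' : (12 : ℕ) = 2 ^ 2 * 3 := by norm_num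
  rw [h12'] at h12
  rcases (Nat.Prime.dvd_mul hq).mp h12 with h2 | h3
  · have := (Nat.prime_dvd_prime_iff_eq hq Nat.prime_two).mp (hq.dvd_of_dvd_pow h2)
    omega
  · have := (Nat.prime_dvd_prime_iff_eq hq Nat.prime_three).mp h3
    omega

/-- **P-eps, bonus**: if `X₀(R)` has no elliptic points (`ν₂(R) = ν₃(R) = 0`) then all the
multiplicities are `12`. -/
theorem r38_kpEps_eq_twelve (h5 : 5 ≤ D.Q) (hν₂ : nuTwo D.R = 0) (hν₃ : nuThree D.R = 0)
    (i : kpIota D A hq hA hqR) : kpEps D A hq hA hqR i = 12 := by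
  classical
  have hq2 : D.Q ≠ 2 := by omega
  have hq3 : D.Q ≠ 3 := by omega
  obtain ⟨c, hc, heq⟩ := kpEps_eq_mult D A hq hA hqR h5 i
  obtain ⟨-, -, hgen⟩ := r38_ordDvd_jC D.R hq hA hqR hq2 hq3 c i.1 hc
  have hZ : ((kpEps D A hq hA hqR i : ℕ) : ℤ) = 12 := by
    rw [heq]
    unfold ssMult
    by_cases hc0 : c = 0
    · subst hc0
      rw [if_pos rfl, r38_ord_jC_zero_eq_three D.R hq hA hqR hq2 hq3 hν₃ i.1 hc]
      norm_num
    · by_cases hc1 : c = 1728
      · subst hc1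
        rw [if_neg hc0, if_pos rfl, r38_ord_jC_1728_eq_two D.R hq hA hqR hq2 hq3 hν₂ i.1 hc]
        norm_num
      · rw [if_neg hc0, if_neg hc1, hgen hc0 hc1]
        norm_num
  exact_mod_cast hZ

/-- **P-eps, in the form `SpPEps` of the wiring** (helper16): at a zero `Q` of `ū`, the prime
`q` does not divide `ord_Q ū`. -/
theorem r38_not_dvd_ord_red_u (h5 : 5 ≤ D.Q)
    (Q : Place (IsLocalRing.ResidueField A)
      (modularFunctionFieldFullC (IsLocalRing.ResidueField A) D.R))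
    (hQ : 0 < Q.ord ((kpS D A hq hA hqR).red (fwU D))) :
    ¬ ((D.Q : ℤ) ∣ Q.ord ((kpS D A hq hA hqR).red (fwU D))) := by
  intro h
  apply r38_not_dvd_kpEps D A hq hA hqR h5 ⟨Q, hQ⟩
  have hc := kpEps_cast D A hq hA hqR ⟨Q, hQ⟩
  rw [← hc] at h
  exact_mod_cast h

/-- at a zero `Q` of `ū`: `ord_Q ū ∣ 12`. -/
theorem r38_ord_red_u_dvd_twelve (h5 : 5 ≤ D.Q)
    (Q : Place (IsLocalRing.ResidueField A)
      (modularFunctionFieldFullC (IsLocalRing.ResidueField A) D.R))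
    (hQ : 0 < Q.ord ((kpS D A hq hA hqR).red (fwU D))) :
    Q.ord ((kpS D A hq hA hqR).red (fwU D)) ∣ 12 := by
  have h := r38_kpEps_dvd_twelve D A hq hA hqR h5 ⟨Q, hQ⟩
  have hc := kpEps_cast D A hq hA hqR ⟨Q, hQ⟩
  rw [← hc]
  exact_mod_cast h

end Fermat.Agent.R38
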