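/-
Row 38 wave (architect helper81), block P = (PHI) (helper16), seat P-u (helper96):
the Hecke operators on the modular unit `u = Δ(z)/Δ(qz)` of level `N`, `q ∣ N`.

* `pu_heckeFun_uF` : `T_r u = Norm_α (β u) = c u^(r+1)` for every prime `r ∤ N`
  (port of `E/S15/CuspHecke.lean` (helper27) from the level `p` to every level);
* `pu_normAlong_comp_equiv` : the norm is invariant under an automorphism of the upper field;
* `pu_normAlong_betaQ_alphaQ` : the transposed correspondence is the same on functions,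
  `Norm_β (α x) = Norm_α (β x)` (Atkin–Lehner `w_Q` exchanges `α` and `β`);
* `pu_normAlong_betaQ_eq_heckeFun` : `Norm_β (α x) = T_Q x`;
* `pu_normAlong_betaQ_uF` : `Norm_β (α u) = c u^(Q+1)`.
-/
import Mathlib
import Fermat.Agent.E.S15.EtaNorm
import Fermat.Agent.Lib.Kronecker.Prod
import Fermat.Agent.Lib.BadRed.Mod.ALDegeneracy
import Fermat.Agent.Lib.HeckeComm.FunId

set_option autoImplicit false
set_option linter.unusedSectionVars false
set_option linter.style.haveILetI false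

noncomputable section

open ModularCurve AlgebraicCurve

set_option synthInstance.maxHeartbeats 400000

namespace Fermat.Agent.R38

open Fermat.Agent.BadRed Fermat.Agent.Kronecker Fermat.Agent.F3G Fermat.Agent.ES15
open Fermat.Agent.AtkinLehner Fermat.Agent.HeckeComm

local notation "Qb" => AlgebraicClosure ℚ

/-- **the norm of `u(q^r)`** at every level: `T_r u = c₀ u^{r+1}` for `u = Δ(z)/Δ(qz)`, `q ∣ N`,
`r ∤ N` prime. -/
theorem pu_heckeFun_uF (N q : ℕ) [NeZero N] [NeZero q] (hq : q ∣ N) (r : ℕ) [NeZero r]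
    (hr : r.Prime) (hrN : ¬ r ∣ N) :
    ∃ c : Qb, c ≠ 0 ∧ heckeFun Qb N r (uF N q hq) =
      algebraMap Qb (modularFunctionFieldBar N) c * uF N q hq ^ (r + 1) := by
  obtain ⟨ζ, hζ, hprod⟩ := normProductFormula N r hr hrN
  have hrq : ¬ r ∣ q := fun h => hrN (h.trans hq)
  have hcop : Nat.Coprime q r := ((Nat.Prime.coprime_iff_not_dvd hr).mpr hrq).symm
  obtain ⟨c, hc, hΦ⟩ := enPhi_uSer (K := Qb) hr q hcop ζ hζ
  refine ⟨c, hc, ?_⟩
  apply Subtype.ext
  apply qExpand_injective (R := Qb) (N := r)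
  rw [hprod (uF N q hq), coe_uF, hΦ]
  show _ = qExpand Qb r ((algebraMap Qb (LaurentSeries Qb) c) * (uSer Qb q) ^ (r + 1))
  rw [map_mul, map_pow, algebraMap_laurentSeries_eq_single, qExpand_single, mul_zero,
    HahnSeries.C_apply]

section Generic

variable {K F F' : Type*} [Field K] [Field F] [Field F'] [Algebra K F] [Algebra K F']

/-- the norm along `σ ∘ ψ` of `σ y` is the norm along `ψ` of `y`. -/
theorem pu_normAlong_comp_equiv (ψ : F →ₐ[K] F') (σ : F' ≃ₐ[K] F') (y : F') :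
    normAlong (σ.toAlgHom.comp ψ) (σ y) = normAlong ψ y := by
  letI a1 : Algebra F F' := algebraAlong ψ
  let a2 : Algebra F F' := algebraAlong (σ.toAlgHom.comp ψ)
  let e : @AlgEquiv F F' F' _ _ _ a1 a2 :=
    @AlgEquiv.mk F F' F' _ _ _ a1 a2 σ.toEquiv (fun x y => map_mul σ x y)
      (fun x y => map_add σ x y) (fun f => rfl)
  show @Algebra.norm F F' _ _ a2 (σ y) = @Algebra.norm F F' _ _ a1 y
  exact @Algebra.norm_eq_of_algEquiv F F' F' _ _ a1 _ a2 e y

end Generic

/-- **the transposed correspondence is the same on functions**: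
`Norm_β (α x) = Norm_α (β x)`. -/
theorem pu_normAlong_betaQ_alphaQ (D : ALData) [NeZero D.Q] [NeZero D.R]
    (x : modularFunctionFieldBar D.R) :
    normAlong (betaQ D) (alphaQ D x) = normAlong (alphaQ D) (betaQ D x) := by
  have h1 : betaQ D = (atkinLehner D).toAlgHom.comp (alphaQ D) :=
    AlgHom.ext fun y => (atkinLehner_alphaQ D y).symm
  have h2 : alphaQ D x = atkinLehner D (betaQ D x) := (atkinLehner_betaQ D x).symm
  have h3 := pu_normAlong_comp_equiv (alphaQ D) (atkinLehner D) (betaQ D x)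
  rw [← h1, ← h2] at h3
  exact h3

/-- `Norm_α (β x)` is the Prelude's `T_Q x`. -/
theorem pu_normAlong_alphaQ_eq_heckeFun (D : ALData) [NeZero D.Q] [NeZero D.R]
    (x : modularFunctionFieldBar D.R) :
    normAlong (alphaQ D) (betaQ D x) = heckeFun Qb D.R D.Q x := by
  haveI : NeZero (D.Q * D.R) := ⟨(Nat.mul_pos D.hQ D.hR).ne'⟩
  haveI : NeZero (D.R * D.Q) := ⟨(Nat.mul_pos D.hR D.hQ).ne'⟩
  rw [heckeFun_apply]
  show normAlong (incl D.R (D.Q * D.R) (dvd_mul_left D.R D.Q)) (betaQ D x) =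
    normAlong (heckeAlphaBar Qb D.R D.Q) (heckeBetaBar Qb D.R D.Q x)
  rw [heckeAlphaBar_eq_incl]
  exact normAlong_incl_congr D.R (mul_comm D.Q D.R) _ _ _ _ (coe_betaQ_eq_heckeBetaBar D x)

/-- **`Norm_β (α x) = T_Q x`**. -/
theorem pu_normAlong_betaQ_eq_heckeFun (D : ALData) [NeZero D.Q] [NeZero D.R]
    (x : modularFunctionFieldBar D.R) :
    normAlong (betaQ D) (alphaQ D x) = heckeFun Qb D.R D.Q x := by
  rw [pu_normAlong_betaQ_alphaQ, pu_normAlong_alphaQ_eq_heckeFun]

/-- **P-u, transposed form**: `Norm_β (α u) = c u^(Q+1)` for `u = Δ(z)/Δ(qz)`, `q ∣ R`,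
`Q ∤ R` prime. -/
theorem pu_normAlong_betaQ_uF (D : ALData) [NeZero D.Q] [NeZero D.R] (hQ : D.Q.Prime)
    (hQR : ¬ D.Q ∣ D.R) (q : ℕ) [NeZero q] (hq : q ∣ D.R) :
    ∃ c : Qb, c ≠ 0 ∧ normAlong (betaQ D) (alphaQ D (uF D.R q hq)) =
      algebraMap Qb (modularFunctionFieldBar D.R) c * uF D.R q hq ^ (D.Q + 1) := by
  rw [pu_normAlong_betaQ_eq_heckeFun]
  exact pu_heckeFun_uF D.R q hq D.Q hQ hQR

end Fermat.Agent.R38
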