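/-
Row 38 wave (architect helper81), block P = (PHI) (helper16), seat KEY = "P-ker" (helper96):
**the second degeneracy map does not move a non-cuspidal place to a cusp, in characteristic `p`.**

`A` a place of `ℚ̄` over `p`, `k` its residue field, `D : ALData` (`Q = D.Q` a prime, `R = D.R`,
`gcd (Q, R) = 1`), `p ∤ Q R`.  `ᾱ = mc_inclC`, `β̄ = heckeRed_betaTopC` (`q ↦ q^Q`) the two
degeneracy maps `F_{k,R} → F_{k,QR}`.

* `key_ord_jBar_of_betaQ`  : characteristic `0`: the poles of `j(Qz)` are poles of `j` on `X₀(QR)`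
  (`w_Q` exchanges `j` and `j(Qz)` and preserves the support of the divisor of `Δ(z)/Δ(Qz)`);
* `key_ord_betaC_jC`       : characteristic `p`: `0 ≤ ord_{Q'} (j̄)  ⟹  0 ≤ ord_{Q'} (β̄ j̄)`
  (Deuring reduction at the good level `Q R`: push-forward of `div (j(Qz))`, no cancellation for `j`);
* `key_ord_betaC_ss`       : **KEY**: for `ū ∈ F_{k,R}` with `q`-expansion `ssFun k p`
  (the reduction of `u = Δ(z)/Δ(pz)`): `0 < ord_{Q'} (ᾱ ū)  ⟹  0 ≤ ord_{Q'} (β̄ ū)`;
* `key_ord_betaC_ss_of_ne` : the same for `p ∉ {2, 3}` without the genus hypothesis;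
* `key_ord_betaC_of_regular` : the same for every `x ∈ F_{k,R}` that is a polynomial in `j̄`.
-/
import Mathlib
import Fermat.Agent.E.S15.HeckeRedMod
import Fermat.Agent.Lib.RedTr.ModularCompat
import Fermat.Agent.Lib.BadRed.Mod.OldSep
import Fermat.Agent.Lib.BadRed.Mod.SSDeg
import Fermat.Agent.Lib.BadRed.Mod.UCuspDegFinal
import Fermat.Agent.Lib.BadRed.Mod.ALDegeneracy
import Fermat.Agent.Lib.BadRed.Mod.ValZero
import Fermat.Agent.Lib.BadRed.Mod.UParamW
import Fermat.Agent.Lib.FF.RedValue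
import Fermat.Agent.Lib.GoodRed.ModularGenus

set_option autoImplicit false
set_option linter.unusedSectionVars false
set_option linter.style.haveILetI false

noncomputable section

open ModularCurve AlgebraicCurve

set_option synthInstance.maxHeartbeats 400000

namespace Fermat.Agent.R38

open Fermat.Agent.BadRed Fermat.Agent.AtkinLehner Fermat.Agent.ES15 Fermat.Agent.RedTr
  Fermat.Agent.FF Fermat.Agent.RR Fermat.Agent.Deuring Fermat.Agent.GaussInt

local notation "Qb" => AlgebraicClosure ℚ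

/-! ### characteristic `0` -/

section CharZero

variable (D : ALData) [NeZero D.Q] [NeZero D.R] [NeZero (D.Q * D.R)]

/-- `w_Q` preserves the set of places where `u = Δ(z)/Δ(Qz)` is a unit. -/
theorem key_ord_uF_atkinLehner (v : Place Qb (modularFunctionFieldBar (D.Q * D.R))) :
    v.ord (atkinLehner D (uF (D.Q * D.R) D.Q (Dvd.intro _ rfl))) =
      -v.ord (uF (D.Q * D.R) D.Q (Dvd.intro _ rfl)) := by
  have hc : algebraMap Qb (modularFunctionFieldBar (D.Q * D.R)) ((D.Q : Qb) ^ 12) ≠ 0 := by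
    refine (_root_.map_ne_zero _).mpr (pow_ne_zero _ ?_)
    exact_mod_cast (NeZero.ne D.Q)
  have e : (D.Q : modularFunctionFieldBar (D.Q * D.R)) ^ 12 =
      algebraMap Qb (modularFunctionFieldBar (D.Q * D.R)) ((D.Q : Qb) ^ 12) := by
    rw [map_pow, map_natCast]
  rw [atkinLehner_uF, e, div_eq_mul_inv, v.ord_mul hc (inv_ne_zero (uF_ne_zero _ _ _)),
    Fermat.Agent.S24Res.ord_algebraMap, zero_add, v.ord_inv]

/-- `α j = j` at the level `Q R`. -/
theorem key_alphaQ_jBar :
    alphaQ D (Fermat.Agent.S24.jBar D.R) = Fermat.Agent.S24.jBar (D.Q * D.R) := by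
  apply Subtype.ext
  rw [coe_alphaQ]
  rfl

/-- **characteristic `0`**: the poles of `j(Qz)` are poles of `j` on `X₀(QR)`. -/
theorem key_ord_jBar_of_betaQ (hQ : D.Q.Prime)
    (v : Place Qb (modularFunctionFieldBar (D.Q * D.R)))
    (hv : v.ord (betaQ D (Fermat.Agent.S24.jBar D.R)) < 0) :
    v.ord (Fermat.Agent.S24.jBar (D.Q * D.R)) < 0 := by
  have hdvd : D.Q ∣ D.Q * D.R := Dvd.intro _ rfl
  rw [← atkinLehner_alphaQ, key_alphaQ_jBar, ← ord_wAut_smul] at hv
  have h1 := (ord_jBar_neg_iff_uF hQ hdvd (wAut D • v)).mp hv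
  rw [ord_wAut_smul, key_ord_uF_atkinLehner] at h1
  refine (ord_jBar_neg_iff_uF hQ hdvd v).mpr ?_
  intro h0
  apply h1
  rw [h0, neg_zero]

end CharZero

/-! ### push-forward: a negative value comes from a negative term -/

section Push

variable {α β : Type*}

theorem key_exists_neg_of_mapDomain_neg (r : α → β) (f : α →₀ ℤ) (b : β)
    (h : Finsupp.mapDomain r f b < 0) : ∃ a, r a = b ∧ f a < 0 := by
  classical
  by_contra hcon
  have hcon' : ∀ a, r a = b → 0 ≤ f a := fun a hab => by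
    by_contra hlt
    exact hcon ⟨a, hab, not_le.mp hlt⟩
  have : 0 ≤ Finsupp.mapDomain r f b := by
    rw [Finsupp.mapDomain, Finsupp.sum, Finsupp.finsetSum_apply]
    refine Finset.sum_nonneg fun a _ => ?_
    rw [Finsupp.single_apply]
    split_ifs with hab
    · exact hcon' a hab
    · exact le_rfl
  omega

end Push

/-! ### characteristic `p` -/

section CharP

variable (A : ValuationSubring Qb) (p : ℕ) (hp : p.Prime) (hA : A.LiesOverPrime p)
  (D : ALData) [NeZero D.Q] [NeZero D.R] [NeZero (D.Q * D.R)]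

/-- the level relation of the second degeneracy map. -/
theorem key_level_dvd : D.R * D.Q ∣ D.Q * D.R := dvd_of_eq (mul_comm _ _)

/-- the level relation of the first degeneracy map. -/
theorem key_level_dvd' : D.R ∣ D.Q * D.R := Dvd.intro_left _ rfl

include hp hA in
/-- **characteristic `p`**: a place of `X₀(QR)_k` which is not a pole of `j̄` is not a pole of
`β̄ j̄ = j̄(q^Q)`. -/
theorem key_ord_betaC_jC (hQ : D.Q.Prime) (hpN : ¬ p ∣ D.Q * D.R)
    (hg : genusFF Qb (modularFunctionFieldBar (D.Q * D.R)) =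
      genusFF (IsLocalRing.ResidueField A)
        (modularFunctionFieldFullC (IsLocalRing.ResidueField A) (D.Q * D.R)))
    (Q' : Place (IsLocalRing.ResidueField A)
      (modularFunctionFieldFullC (IsLocalRing.ResidueField A) (D.Q * D.R)))
    (h : 0 ≤ Q'.ord (Fermat.Agent.RRMod.jC (IsLocalRing.ResidueField A) (D.Q * D.R))) :
    0 ≤ Q'.ord (heckeRed_betaTopC D.R D.Q (D.Q * D.R) (key_level_dvd D)
      (IsLocalRing.ResidueField A) (Fermat.Agent.RRMod.jC (IsLocalRing.ResidueField A) D.R)) := by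
  have hpR : ¬ p ∣ D.R := fun hd => hpN (hd.trans (key_level_dvd' D))
  haveI := isAlgClosed_residue A
  by_contra hcon
  rw [not_le] at hcon
  set S := modularValSetup A p (D.Q * D.R) hp hA hpN with hS
  set r := redPlace A p (D.Q * D.R) hp hA hpN hg with hr
  have hred : IsReduction S r := isReduction_redPlace A p (D.Q * D.R) hp hA hpN hg
  -- the function `j(Qz)` and its reduction
  set xl := heckeRed_betaTop D.R D.Q (D.Q * D.R) (key_level_dvd D) (Fermat.Agent.S24.jBar D.R)
    with hxl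
  have hxlmem : xl ∈ S.Ov :=
    heckeRed_betaTop_mem A p D.R D.Q (D.Q * D.R) hp hA hpR hpN (key_level_dvd D) _
      (oldSep_jBar_mem A p D.R hp hA hpR)
  have hxlred : S.red xl = heckeRed_betaTopC D.R D.Q (D.Q * D.R) (key_level_dvd D)
      (IsLocalRing.ResidueField A) (Fermat.Agent.RRMod.jC (IsLocalRing.ResidueField A) D.R) := by
    rw [hxl, hS, heckeRed_betaTop_red A p D.R D.Q (D.Q * D.R) hp hA hpR hpN (key_level_dvd D) _
      (oldSep_jBar_mem A p D.R hp hA hpR), oldSep_red_jBar]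
  have hred0 : S.red xl ≠ 0 := by
    intro h0
    rw [← hxlred, h0, Place.ord_zero] at hcon
    exact lt_irrefl _ hcon
  have hxlinv : xl⁻¹ ∈ S.Ov := S.inv_mem_of_red_ne_zero hred0
  have hxl0 : xl ≠ 0 := S.ne_zero_of_red_ne_zero hred0
  -- push-forward of `div (j(Qz))`
  have hpush := hred.push xl hxlmem hxlinv hxl0 Q'
  rw [hxlred] at hpush
  rw [← hpush] at hcon
  obtain ⟨P, hPQ, hP⟩ := key_exists_neg_of_mapDomain_neg r _ Q' hcon
  rw [divOf_apply] at hP
  -- `j(Qz)` is `β j`
  have hxlβ : xl = betaQ D (Fermat.Agent.S24.jBar D.R) := by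
    apply Subtype.ext
    rw [hxl, coe_heckeRed_betaTop, coe_betaQ]
  rw [hxlβ] at hP
  have hPj := key_ord_jBar_of_betaQ D hQ P hP
  -- no cancellation for `j`
  have hjred := oldSep_red_jBar A p (D.Q * D.R) hp hA hpN
  have htr : Transcendental (IsLocalRing.ResidueField A)
      (S.red (Fermat.Agent.S24.jBar (D.Q * D.R))) := by
    rw [hS, hjred]
    exact Fermat.Agent.RRMod.transcendental_jC (IsLocalRing.ResidueField A) (D.Q * D.R)
  have hdeg : Divisor.degree (poleDiv S.hFk (S.red (Fermat.Agent.S24.jBar (D.Q * D.R)))) =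
      Divisor.degree (poleDiv S.hF (Fermat.Agent.S24.jBar (D.Q * D.R))) := by
    rw [hS, hjred]
    exact (oldSep_degree_poleDiv_jC A p (D.Q * D.R) hp hA hpN).trans
      (oldSep_degree_poleDiv_jBar (D.Q * D.R)).symm
  have hneg := hred.ord_red_neg (oldSep_jBar_mem A p (D.Q * D.R) hp hA hpN) htr hdeg hPj
  rw [hPQ, hS, hjred] at hneg
  omega

include hp hA in
/-- the same for every polynomial in `j̄`. -/
theorem key_ord_betaC_of_regular (hQ : D.Q.Prime) (hpN : ¬ p ∣ D.Q * D.R)
    (hg : genusFF Qb (modularFunctionFieldBar (D.Q * D.R)) =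
      genusFF (IsLocalRing.ResidueField A)
        (modularFunctionFieldFullC (IsLocalRing.ResidueField A) (D.Q * D.R)))
    (P : Polynomial (IsLocalRing.ResidueField A))
    (Q' : Place (IsLocalRing.ResidueField A)
      (modularFunctionFieldFullC (IsLocalRing.ResidueField A) (D.Q * D.R)))
    (h : 0 ≤ Q'.ord (Fermat.Agent.RRMod.jC (IsLocalRing.ResidueField A) (D.Q * D.R))) :
    0 ≤ Q'.ord (heckeRed_betaTopC D.R D.Q (D.Q * D.R) (key_level_dvd D)
      (IsLocalRing.ResidueField A)
      (Polynomial.aeval (Fermat.Agent.RRMod.jC (IsLocalRing.ResidueField A) D.R) P)) := by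
  rw [← Polynomial.aeval_algHom_apply]
  exact ord_aeval_nonneg_of_ord Q' (key_ord_betaC_jC A p hp hA D hQ hpN hg Q' h) P

include hp hA in
/-- **KEY** (P-ker): a zero of `ᾱ ū` (a supersingular point of `X₀(QR)_k`) is not a pole of
`β̄ ū`, for `ū ∈ F_{k,R}` with `q`-expansion `ssFun k p`. -/
theorem key_ord_betaC_ss (hQ : D.Q.Prime) (hpN : ¬ p ∣ D.Q * D.R)
    (hg : genusFF Qb (modularFunctionFieldBar (D.Q * D.R)) =
      genusFF (IsLocalRing.ResidueField A)
        (modularFunctionFieldFullC (IsLocalRing.ResidueField A) (D.Q * D.R)))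
    (u : modularFunctionFieldFullC (IsLocalRing.ResidueField A) D.R)
    (hu : (u : LaurentSeries (IsLocalRing.ResidueField A)) =
      ssFun (IsLocalRing.ResidueField A) p)
    (Q' : Place (IsLocalRing.ResidueField A)
      (modularFunctionFieldFullC (IsLocalRing.ResidueField A) (D.Q * D.R)))
    (h : 0 < Q'.ord (mc_inclC (IsLocalRing.ResidueField A) (key_level_dvd' D) u)) :
    0 ≤ Q'.ord (heckeRed_betaTopC D.R D.Q (D.Q * D.R) (key_level_dvd D)
      (IsLocalRing.ResidueField A) u) := by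
  have hj : 0 ≤ Q'.ord (Fermat.Agent.RRMod.jC (IsLocalRing.ResidueField A) (D.Q * D.R)) :=
    ord_jC_nonneg_of_ss_zero (D.Q * D.R) hp hA
      (mc_inclC (IsLocalRing.ResidueField A) (key_level_dvd' D) u)
      (by rw [coe_mc_inclC]; exact hu) Q' h
  obtain ⟨P, -, rfl⟩ := ss_eq_aeval D.R hp hA u hu
  exact key_ord_betaC_of_regular A p hp hA D hQ hpN hg P Q' hj

include hp hA in
/-- **KEY** for `p ∉ {2, 3}` (genus equality from cluster B). -/
theorem key_ord_betaC_ss_of_ne (h2 : p ≠ 2) (h3 : p ≠ 3) (hQ : D.Q.Prime)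
    (hpN : ¬ p ∣ D.Q * D.R)
    (u : modularFunctionFieldFullC (IsLocalRing.ResidueField A) D.R)
    (hu : (u : LaurentSeries (IsLocalRing.ResidueField A)) =
      ssFun (IsLocalRing.ResidueField A) p)
    (Q' : Place (IsLocalRing.ResidueField A)
      (modularFunctionFieldFullC (IsLocalRing.ResidueField A) (D.Q * D.R)))
    (h : 0 < Q'.ord (mc_inclC (IsLocalRing.ResidueField A) (key_level_dvd' D) u)) :
    0 ≤ Q'.ord (heckeRed_betaTopC D.R D.Q (D.Q * D.R) (key_level_dvd D)
      (IsLocalRing.ResidueField A) u) :=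
  key_ord_betaC_ss A p hp hA D hQ hpN
    (Fermat.Agent.GoodRed.genusFF_modular_eq (D.Q * D.R) hp hA hpN h2 h3) u hu Q' h

end CharP

end Fermat.Agent.R38
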