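/-
Row 38 (S44), block P = (PHI) (owner helper16), seat P-nr (helper67):
reduction of `T_ℓ` on functions at a Gauss valuation.

`S` a Gauss setup of level `N` with residue function field `F_k(N₀)`, `S'` a Gauss setup of level
`N ℓ` with residue function field `F_k(N₀ ℓ)` (same place `A | p` of `ℚ̄`, `p ∤ N₀ ℓ`, `ℓ ∤ N N₀`):

* `nr_compat`        : `RedTr.Compat S S' α ᾱ` (`α`, `ᾱ` the inclusions; `e = 1`, `f = ℓ + 1`);
* `nr_beta_mem/_red` : `β = (q ↦ q^ℓ)` maps `O_S` to `O_{S'}` and commutes with the reductions;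
* `nr_heckeFun_red`  : `T_ℓ u ∈ O_S` and `red (T_ℓ u) = T̄_ℓ (red u)` for `u ∈ O_S`,
                       `T̄_ℓ := Norm_ᾱ ∘ β̄` (`heckeFunC`);
* `nr_heckeFun_red_scaled` : the same for `h / c`, `c` a constant: `T_ℓ h / c^(ℓ+1)`.
-/
import Mathlib
import Fermat.Agent.Lib.RedTr.NormRed
import Fermat.Agent.Lib.RedTr.ModularCompat
import Fermat.Agent.E.S15.HeckeRedMod
import Fermat.Agent.Lib.BadRed.Mod.GaussSetup
import Fermat.Agent.F3.Galois.NormDesc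
import Fermat.Agent.S20.Cosets.Count

set_option autoImplicit false
set_option linter.style.haveILetI false
set_option linter.unusedSectionVars false
set_option synthInstance.maxHeartbeats 400000

noncomputable section

namespace Fermat.Agent.R38

open AlgebraicCurve ModularCurve IntermediateField Fermat.Agent.RR Fermat.Agent.Deuring
  Fermat.Agent.FF Fermat.Agent.GaussInt Fermat.Agent.F3T Fermat.Agent.F3G Fermat.Agent.RedTr
  Fermat.Agent.BadRed Fermat.Agent.ES15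

local notation "Qb" => AlgebraicClosure ℚ

/-- `ψ(N ℓ) = ψ(N) (ℓ + 1)` for a prime `ℓ ∤ N`. -/
theorem nr_dedekindPsi_mul_prime {N ℓ : ℕ} (hℓ : ℓ.Prime) (hℓN : ¬ ℓ ∣ N) :
    dedekindPsi (N * ℓ) = dedekindPsi N * (ℓ + 1) := by
  have hcop : N.Coprime ℓ := (Nat.Coprime.symm ((Nat.Prime.coprime_iff_not_dvd hℓ).mpr hℓN))
  rw [Fermat.Agent.S20.dedekindPsi_mul hcop]
  have h := Fermat.Agent.S20.dedekindPsi_prime_pow (p := ℓ) (k := 0) hℓ
  rw [zero_add, pow_one, pow_zero] at h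
  rw [h]

variable (A : ValuationSubring Qb) {N N₀ ℓ : ℕ} [NeZero N] [NeZero N₀] [NeZero ℓ]
  [NeZero (N * ℓ)] [NeZero (N₀ * ℓ)]
  {S : ValSetup Qb (FBar N) (IsLocalRing.ResidueField A)
    (modularFunctionFieldFullC (IsLocalRing.ResidueField A) N₀)}
  {S' : ValSetup Qb (FBar (N * ℓ)) (IsLocalRing.ResidueField A)
    (modularFunctionFieldFullC (IsLocalRing.ResidueField A) (N₀ * ℓ))}
  (hS : IsGaussSetup N N₀ A S) (hS' : IsGaussSetup (N * ℓ) (N₀ * ℓ) A S')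

/-- the inclusion `ᾱ : F_k(N₀) → F_k(N₀ ℓ)`. -/
abbrev heckeAlphaC (k : Type*) [Field k] (N₀ ℓ : ℕ) [NeZero N₀] [NeZero (N₀ * ℓ)] :
    modularFunctionFieldFullC k N₀ →ₐ[k] modularFunctionFieldFullC k (N₀ * ℓ) :=
  mc_inclC k (dvd_mul_right N₀ ℓ)

/-- the map `β̄ = (q ↦ q^ℓ) : F_k(N₀) → F_k(N₀ ℓ)`. -/
abbrev heckeBetaC (k : Type*) [Field k] (N₀ ℓ : ℕ) [NeZero N₀] [NeZero ℓ] [NeZero (N₀ * ℓ)] :
    modularFunctionFieldFullC k N₀ →ₐ[k] modularFunctionFieldFullC k (N₀ * ℓ) :=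
  heckeRed_betaTopC N₀ ℓ (N₀ * ℓ) dvd_rfl k

/-- `T̄_ℓ := Norm_ᾱ ∘ β̄` on the residue function field `F_k(N₀)`. -/
def heckeFunC (k : Type*) [Field k] (N₀ ℓ : ℕ) [NeZero N₀] [NeZero ℓ] [NeZero (N₀ * ℓ)] :
    modularFunctionFieldFullC k N₀ →* modularFunctionFieldFullC k N₀ :=
  (normAlong (heckeAlphaC k N₀ ℓ)).comp (heckeBetaC k N₀ ℓ : _ →* _)

theorem heckeFunC_apply (k : Type*) [Field k] (N₀ ℓ : ℕ) [NeZero N₀] [NeZero ℓ]
    [NeZero (N₀ * ℓ)] (x : modularFunctionFieldFullC k N₀) :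
    heckeFunC k N₀ ℓ x = normAlong (heckeAlphaC k N₀ ℓ) (heckeBetaC k N₀ ℓ x) := rfl

include hS hS' in
/-- `α` maps `O_S` into `O_{S'}`. -/
theorem nr_alpha_mem {y : FBar N} (hy : y ∈ S.Ov) : heckeAlphaBar Qb N ℓ y ∈ S'.Ov := by
  have hy' : (y : LaurentSeries Qb) ∈ gaussSub A (modularFunctionFieldBar N) :=
    (hS.mem_iff y).mp hy
  refine (hS'.mem_iff _).mpr ?_
  rw [coe_heckeAlphaBar]
  exact gaussSub_mono (bar_le (dvd_mul_right N ℓ)) hy'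

include hS hS' in
/-- `α` commutes with the reductions. -/
theorem nr_alpha_red {y : FBar N} (hy : y ∈ S.Ov) :
    S'.red (heckeAlphaBar Qb N ℓ y) = heckeAlphaC (IsLocalRing.ResidueField A) N₀ ℓ (S.red y) := by
  apply Subtype.ext
  have hy' : (y : LaurentSeries Qb) ∈ gaussSub A (modularFunctionFieldBar N) :=
    (hS.mem_iff y).mp hy
  have e1 := hS'.coe_red _ (nr_alpha_mem A hS hS' hy)
  have e2 := hS.coe_red y hy
  have e3 : gaussResFun A (modularFunctionFieldBar (N * ℓ)) (y : LaurentSeries Qb) =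
      gaussResFun A (modularFunctionFieldBar N) (y : LaurentSeries Qb) :=
    gaussResFun_mono (bar_le (dvd_mul_right N ℓ)) hy'
  rw [coe_heckeAlphaBar] at e1
  rw [e1, coe_mc_inclC, e2, e3]

include hS hS' in
/-- **Compat** of the Gauss setups of levels `N` and `N ℓ` along `α` (`e = 1`, `f = ℓ + 1`). -/
theorem nr_compat {p : ℕ} (hp : p.Prime) (hA : A.LiesOverPrime p) (hpN₀ : ¬ p ∣ N₀)
    (hpℓ : p ≠ ℓ) (hℓ : ℓ.Prime) (hℓN : ¬ ℓ ∣ N) (hℓN₀ : ¬ ℓ ∣ N₀) :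
    Compat S S' (heckeAlphaBar Qb N ℓ) (heckeAlphaC (IsLocalRing.ResidueField A) N₀ ℓ) := by
  haveI := isAlgClosed_residue A
  have hpN₀ℓ : ¬ p ∣ N₀ * ℓ := by
    intro h
    rcases (Nat.Prime.dvd_mul hp).mp h with h1 | h1
    · exact hpN₀ h1
    · exact hpℓ ((Nat.prime_dvd_prime_iff_eq hp hℓ).mp h1)
  refine mc_compat_of _ _ _ _ (hS.A_eq.trans hS'.A_eq.symm)
    (fun _ hy => nr_alpha_mem A hS hS' hy) (fun _ hy => nr_alpha_red A hS hS' hy)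
    (mc_finite_bar N (N * ℓ) (dvd_mul_right N ℓ))
    (mc_finite_fullC N₀ (N₀ * ℓ) (dvd_mul_right N₀ ℓ) _ S'.hFk) ?_
  have hK := fundIdK_tower (inclBar (dvd_mul_right N ℓ)) (Fermat.Agent.S24.jBar N)
  rw [inclBar_jBar, Fermat.Agent.GenusEq.finrank_jBar_eq_psi,
    Fermat.Agent.GenusEq.finrank_jBar_eq_psi, nr_dedekindPsi_mul_prime hℓ hℓN] at hK
  have hk := fundIdK_tower (mc_inclC (IsLocalRing.ResidueField A) (dvd_mul_right N₀ ℓ))
    (Fermat.Agent.RRMod.jC (IsLocalRing.ResidueField A) N₀)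
  rw [mc_inclC_jC, Fermat.Agent.GenusEq.degreeModL (N₀ * ℓ) p hp hpN₀ℓ A hA,
    Fermat.Agent.GenusEq.degreeModL N₀ p hp hpN₀ A hA, nr_dedekindPsi_mul_prime hℓ hℓN₀] at hk
  have hpos : 0 < dedekindPsi N := dedekindPsi_pos' (Nat.pos_of_ne_zero (NeZero.ne N))
  have hpos₀ : 0 < dedekindPsi N₀ := dedekindPsi_pos' (Nat.pos_of_ne_zero (NeZero.ne N₀))
  have h1 : finrankAlong Qb (inclBar (dvd_mul_right N ℓ)) = ℓ + 1 :=
    (Nat.eq_of_mul_eq_mul_left hpos hK).symm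
  have h2 : finrankAlong (IsLocalRing.ResidueField A)
      (mc_inclC (IsLocalRing.ResidueField A) (dvd_mul_right N₀ ℓ)) = ℓ + 1 :=
    (Nat.eq_of_mul_eq_mul_left hpos₀ hk).symm
  exact h1.trans h2.symm

include hS hS' in
/-- `β` maps `O_S` into `O_{S'}`. -/
theorem nr_beta_mem {y : FBar N} (hy : y ∈ S.Ov) : heckeBetaBar Qb N ℓ y ∈ S'.Ov := by
  have hy' : (y : LaurentSeries Qb) ∈ gaussSub A (modularFunctionFieldBar N) :=
    (hS.mem_iff y).mp hy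
  refine (hS'.mem_iff _).mpr ?_
  rw [coe_heckeBetaBar]
  exact heckeRed_qExpand_mem_gaussSub A ℓ
    (fun x hx => (heckeBetaBar Qb N ℓ ⟨x, hx⟩).2) hy'

include hS hS' in
/-- `β` commutes with the reductions. -/
theorem nr_beta_red {y : FBar N} (hy : y ∈ S.Ov) :
    S'.red (heckeBetaBar Qb N ℓ y) = heckeBetaC (IsLocalRing.ResidueField A) N₀ ℓ (S.red y) := by
  apply Subtype.ext
  have hy' : (y : LaurentSeries Qb) ∈ gaussSub A (modularFunctionFieldBar N) :=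
    (hS.mem_iff y).mp hy
  have e1 := hS'.coe_red _ (nr_beta_mem A hS hS' hy)
  have e2 := hS.coe_red y hy
  rw [coe_heckeBetaBar] at e1
  rw [e1, coe_heckeRed_betaTopC, e2]
  exact heckeRed_gaussResFun_qExpand A ℓ (fun x hx => (heckeBetaBar Qb N ℓ ⟨x, hx⟩).2) hy'

include hS hS' in
/-- **P-nr**: `T_ℓ` preserves the Gauss ring and commutes with the reduction:
`red (T_ℓ u) = T̄_ℓ (red u)`. -/
theorem nr_heckeFun_red {p : ℕ} (hp : p.Prime) (hA : A.LiesOverPrime p) (hpN₀ : ¬ p ∣ N₀)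
    (hpℓ : p ≠ ℓ) (hℓ : ℓ.Prime) (hℓN : ¬ ℓ ∣ N) (hℓN₀ : ¬ ℓ ∣ N₀) {u : FBar N}
    (hu : u ∈ S.Ov) :
    heckeFun Qb N ℓ u ∈ S.Ov ∧
      S.red (heckeFun Qb N ℓ u) = heckeFunC (IsLocalRing.ResidueField A) N₀ ℓ (S.red u) := by
  have C := nr_compat A hS hS' hp hA hpN₀ hpℓ hℓ hℓN hℓN₀
  have h1 := normRed C (heckeBetaBar Qb N ℓ u) (nr_beta_mem A hS hS' hu)
  rw [nr_beta_red A hS hS' hu] at h1
  exact h1

end Fermat.Agent.R38
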