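/-
Row 38, block P, seat P-pl (helper15), part 2: the ABSTRACT CORE of (P-sl) on the residue fields.

`k` any field, `α, β : Fk → Fk'` two finite morphisms of function fields (`α` with the norm formula),
`T := Norm_α ∘ β`.  If every place `Q'` of `Fk'` over a "node" (via `α`) goes to a "non-cusp" (via
`β`)  [KEY],  and  `p ∣ ord_Q x`  at all non-cusps `Q`,  then  `p ∣ ord_Q (T x)`  at all nodes `Q`.

No modular curve inside; the modular instance is `r38pl_slope_modular` (file `PlacesMod.lean`).
-/
import Mathlib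
import Fermat.Agent.F3.I2.Deg.Push

set_option autoImplicit false
set_option linter.unusedSectionVars false
set_option linter.style.haveILetI false

noncomputable section

open AlgebraicCurve Fermat.Agent.F3G Fermat.Agent.F3Deg

namespace Fermat.Agent.R38

variable {k Fk Fk' : Type*} [Field k] [Field Fk] [Field Fk'] [Algebra k Fk] [Algebra k Fk']

/-- the order of a norm, as a sum over the fibre (in the `Along` language). -/
theorem r38pl_ord_norm_eq_sum [HasPrincipalDivisors k Fk']
    (α : Fk →ₐ[k] Fk') (hα : α.toRingHom.IsIntegral)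
    (hfin : FiniteAlong k α) (hN : NormFormulaAlong k α hfin)
    {y : Fk'} (hy : y ≠ 0) (Q : Place k Fk) :
    ∃ s : Finset (Place k Fk'), (∀ w ∈ s, w.restrictAlong α hα = Q) ∧
      Q.ord (normAlong α y) = ∑ w ∈ s, w.ord y * (w.inertiaDegAlong α hα : ℤ) := by
  classical
  obtain ⟨D, hD, -⟩ := HasPrincipalDivisors.exists_divisor (K := k) y hy
  have h1 := pushforwardAlong_apply_eq_ord_norm α hα hfin hN hy hD Q
  letI := algebraAlong α
  haveI := isScalarTower_along α
  haveI := isIntegral_along α hα
  have h2 : Divisor.pushforwardAlong α hα D Q =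
      ∑ w ∈ D.support, if w.restrict Fk = Q then D w * (w.inertiaDeg Fk : ℤ) else 0 :=
    Divisor.pushforward_apply D Q
  refine ⟨D.support.filter (fun w => w.restrict Fk = Q), fun w hw => ?_, ?_⟩
  · exact (Finset.mem_filter.mp hw).2
  · rw [← h1, h2, Finset.sum_filter]
    refine Finset.sum_congr rfl fun w _ => ?_
    split_ifs
    · rw [hD]; rfl
    · rfl

/-- **(P-sl), abstract core.**  `node`/`cusp` are arbitrary predicates on the places of `Fk`. -/
theorem r38pl_slope_core [HasPrincipalDivisors k Fk']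
    (α β : Fk →ₐ[k] Fk') (hα : α.toRingHom.IsIntegral) (hβ : β.toRingHom.IsIntegral)
    (hfin : FiniteAlong k α) (hN : NormFormulaAlong k α hfin)
    (p : ℤ) (node cusp : Place k Fk → Prop)
    (hkey : ∀ Q' : Place k Fk', node (Q'.restrictAlong α hα) → ¬ cusp (Q'.restrictAlong β hβ))
    {x : Fk} (hx : x ≠ 0) (hdiv : ∀ Q : Place k Fk, ¬ cusp Q → p ∣ Q.ord x)
    (Q : Place k Fk) (hQ : node Q) :
    p ∣ Q.ord (normAlong α (β x)) := by
  have hy : β x ≠ 0 := by simpa using hx
  obtain ⟨s, hs, hsum⟩ := r38pl_ord_norm_eq_sum α hα hfin hN hy Q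
  rw [hsum]
  refine Finset.dvd_sum fun w hw => ?_
  have h1 : node (w.restrictAlong α hα) := by rw [hs w hw]; exact hQ
  have h2 := hdiv _ (hkey w h1)
  rw [Place.ord_restrictAlong β hβ w x]
  exact Dvd.dvd.mul_right (Dvd.dvd.mul_left h2 _) _

end Fermat.Agent.R38
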