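/-
Row 38, block P, seat P-pl (helper15), part 3: the MODULAR INSTANCE on the residue fields.

`k` algebraically closed (any characteristic), `Fk = F_{k,N}`, `Fk' = F_{k,Nℓ}`
(`modularFunctionFieldFullC`), `ᾱ = mc_inclC` (the inclusion), `β̄ = heckeRed_betaTopC` (`q ↦ q^ℓ`),
`T̄_ℓ := Norm_ᾱ ∘ β̄`.

* `r38pl_isSeparable_along`   : separability along `φ` from separability over `k(φ x)`;
* `r38pl_normFormula_inclC`   : the norm formula for `ᾱ`, any characteristic;
* `r38pl_heckeFunC`           : `T̄_ℓ` on `Fk`;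
* `r38pl_slope_modular`       : (P-sl) on the residue field, from KEY.
-/
import Mathlib
import Fermat.Agent.R38.P.NormSep
import Fermat.Agent.R38.P.Places
import Fermat.Agent.E.S15.HeckeRedMod
import Fermat.Agent.Lib.RedTr.ModularCompat
import Fermat.Agent.Lib.RR.OfModularCFinal
import Fermat.Agent.R38.P.NormRed

set_option autoImplicit false
set_option linter.unusedSectionVars false
set_option linter.style.haveILetI false

noncomputable section

open AlgebraicCurve ModularCurve IntermediateField Fermat.Agent.F3G Fermat.Agent.RR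
  Fermat.Agent.RedTr Fermat.Agent.ES15

namespace Fermat.Agent.R38

section Sep

variable {k E L : Type*} [Field k] [Field E] [Field L] [Algebra k E] [Algebra k L]

/-- if `L` is separable over `k(φ x)`, it is separable over `E` (along `φ : E → L`). -/
theorem r38pl_isSeparable_along (φ : E →ₐ[k] L) (x : E)
    (hsep : Algebra.IsSeparable k⟮φ x⟯ L) :
    letI := algebraAlong φ; Algebra.IsSeparable E L := by
  letI := algebraAlong φ
  haveI := isScalarTower_along φ
  -- `K₀ = k(x) ⊂ E`, with its algebra structure on `L` through `E`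
  letI algK₀ : Algebra k⟮x⟯ L := ((algebraMap E L).comp (algebraMap k⟮x⟯ E)).toAlgebra
  have htower : IsScalarTower k⟮x⟯ E L := IsScalarTower.of_algebraMap_eq fun _ => rfl
  have hmap : (k⟮x⟯).map φ = k⟮φ x⟯ := by
    rw [IntermediateField.adjoin_map, Set.image_singleton]
  let e₁ : k⟮φ x⟯ ≃+* k⟮x⟯ :=
    ((IntermediateField.equivOfEq hmap.symm).trans
      (IntermediateField.equivMap k⟮x⟯ φ).symm).toRingEquiv
  have he : RingHom.comp (algebraMap k⟮x⟯ L) (e₁ : k⟮φ x⟯ →+* k⟮x⟯) =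
      RingHom.comp ((RingEquiv.refl L : L ≃+* L) : L →+* L) (algebraMap k⟮φ x⟯ L) := by
    ext y
    obtain ⟨z, hz⟩ : ∃ z : k⟮x⟯, e₁ y = z := ⟨_, rfl⟩
    have hy : (y : L) = φ (z : E) := by
      have h1 : y = e₁.symm z := by rw [← hz, RingEquiv.symm_apply_apply]
      rw [h1]
      rfl
    show algebraMap E L (algebraMap k⟮x⟯ E (e₁ y)) = (y : L)
    rw [hz, hy]
    rfl
  have hsepK : Algebra.IsSeparable k⟮x⟯ L :=
    Algebra.IsSeparable.of_equiv_equiv e₁ (RingEquiv.refl L) he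
  exact @Algebra.isSeparable_tower_top_of_isSeparable k⟮x⟯ E _ L _ _ _ algK₀ _ htower hsepK

end Sep

section Modular

variable (k : Type*) [Field k] [IsAlgClosed k] (N ℓ : ℕ) [NeZero N] [NeZero ℓ] [NeZero (N * ℓ)]

/-- `ᾱ` is finite. -/
theorem r38pl_finiteAlong_alphaC : FiniteAlong k (heckeAlphaC k N ℓ) :=
  heckeRed_finiteAlong (Fermat.Agent.RRMod.isRRField_fullC' k N)
    (Fermat.Agent.RRMod.isRRField_fullC' k (N * ℓ)) _

/-- `β̄` is finite. -/
theorem r38pl_finiteAlong_betaC : FiniteAlong k (heckeBetaC k N ℓ) :=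
  heckeRed_finiteAlong (Fermat.Agent.RRMod.isRRField_fullC' k N)
    (Fermat.Agent.RRMod.isRRField_fullC' k (N * ℓ)) _

theorem r38pl_isIntegral_alphaC : (heckeAlphaC k N ℓ).toRingHom.IsIntegral := by
  letI := algebraAlong (heckeAlphaC k N ℓ)
  haveI : Module.Finite (modularFunctionFieldFullC k N) (modularFunctionFieldFullC k (N * ℓ)) :=
    r38pl_finiteAlong_alphaC k N ℓ
  intro z
  exact (Algebra.IsIntegral.of_finite (modularFunctionFieldFullC k N)
    (modularFunctionFieldFullC k (N * ℓ))).isIntegral z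

theorem r38pl_isIntegral_betaC : (heckeBetaC k N ℓ).toRingHom.IsIntegral := by
  letI := algebraAlong (heckeBetaC k N ℓ)
  haveI : Module.Finite (modularFunctionFieldFullC k N) (modularFunctionFieldFullC k (N * ℓ)) :=
    r38pl_finiteAlong_betaC k N ℓ
  intro z
  exact (Algebra.IsIntegral.of_finite (modularFunctionFieldFullC k N)
    (modularFunctionFieldFullC k (N * ℓ))).isIntegral z

/-- `F_k(Nℓ)` has principal divisors. -/
theorem r38pl_hasPD : HasPrincipalDivisors k (modularFunctionFieldFullC k (N * ℓ)) :=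
  hasPD (Fermat.Agent.RRMod.isRRField_fullC' k (N * ℓ))

/-- `F_k(Nℓ) / F_k(N)` is separable (any characteristic). -/
theorem r38pl_isSeparable_alphaC :
    letI := algebraAlong (heckeAlphaC k N ℓ)
    Algebra.IsSeparable (modularFunctionFieldFullC k N) (modularFunctionFieldFullC k (N * ℓ)) := by
  apply r38pl_isSeparable_along (heckeAlphaC k N ℓ) (Fermat.Agent.RRMod.jC k N)
  rw [show heckeAlphaC k N ℓ (Fermat.Agent.RRMod.jC k N) = Fermat.Agent.RRMod.jC k (N * ℓ) from
    mc_inclC_jC k (dvd_mul_right N ℓ)]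
  exact Fermat.Agent.RRMod.isSeparable_fullC' k (N * ℓ)

/-- **the norm formula for `ᾱ : F_k(N) → F_k(Nℓ)`**, `k` algebraically closed of any
characteristic. -/
theorem r38pl_normFormula_alphaC :
    haveI := r38pl_hasPD k N ℓ
    NormFormulaAlong k (heckeAlphaC k N ℓ) (r38pl_finiteAlong_alphaC k N ℓ) := by
  haveI := r38pl_hasPD k N ℓ
  exact r38pl_normFormulaAlong (heckeAlphaC k N ℓ) (r38pl_finiteAlong_alphaC k N ℓ)
    (r38pl_isSeparable_alphaC k N ℓ) (Fermat.Agent.RRMod.isFunctionFieldOver_fullC' k N)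
    (Fermat.Agent.RRMod.isFunctionFieldOver_fullC' k (N * ℓ))

/-- **(P-sl) on the residue field**: if every place of `F_k(Nℓ)` over a zero of `u` (via `ᾱ`) goes
to a non-pole of `u` (via `β̄`)  [KEY],  and `p ∣ ord_Q x` at all non-poles `Q` of `u`, then
`p ∣ ord_Q (T̄_ℓ x)` at all zeros `Q` of `u`. -/
theorem r38pl_slope_modular (p : ℤ) (u : modularFunctionFieldFullC k N)
    (hkey : ∀ Q' : Place k (modularFunctionFieldFullC k (N * ℓ)),
      0 < (Q'.restrictAlong (heckeAlphaC k N ℓ) (r38pl_isIntegral_alphaC k N ℓ)).ord u →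
      0 ≤ (Q'.restrictAlong (heckeBetaC k N ℓ) (r38pl_isIntegral_betaC k N ℓ)).ord u)
    {x : modularFunctionFieldFullC k N} (hx : x ≠ 0)
    (hdiv : ∀ Q : Place k (modularFunctionFieldFullC k N), 0 ≤ Q.ord u → p ∣ Q.ord x)
    (Q : Place k (modularFunctionFieldFullC k N)) (hQ : 0 < Q.ord u) :
    p ∣ Q.ord (heckeFunC k N ℓ x) := by
  haveI := r38pl_hasPD k N ℓ
  rw [heckeFunC_apply]
  exact r38pl_slope_core (heckeAlphaC k N ℓ) (heckeBetaC k N ℓ) (r38pl_isIntegral_alphaC k N ℓ)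
    (r38pl_isIntegral_betaC k N ℓ) (r38pl_finiteAlong_alphaC k N ℓ)
    (r38pl_normFormula_alphaC k N ℓ) p (fun Q => 0 < Q.ord u) (fun Q => ¬ 0 ≤ Q.ord u)
    (fun Q' h => not_not.mpr (hkey Q' h)) hx (fun Q h => hdiv Q (not_not.mp h)) Q hQ

/-- the divisor of `T̄_ℓ x`: `ord_Q (T̄_ℓ x) = ∑_{Q' ∣ Q} e_β(Q') · ord_{Q' ∘ β̄} x` (sum over a finite
set of places over `Q`; all inertia degrees are `1`). -/
theorem r38pl_ord_heckeFunC {x : modularFunctionFieldFullC k N} (hx : x ≠ 0)
    (Q : Place k (modularFunctionFieldFullC k N)) :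
    ∃ s : Finset (Place k (modularFunctionFieldFullC k (N * ℓ))),
      (∀ w ∈ s, w.restrictAlong (heckeAlphaC k N ℓ) (r38pl_isIntegral_alphaC k N ℓ) = Q) ∧
      Q.ord (heckeFunC k N ℓ x) = ∑ w ∈ s,
        (Place.ramificationIndexAlong (heckeBetaC k N ℓ) w : ℤ) *
          (w.restrictAlong (heckeBetaC k N ℓ) (r38pl_isIntegral_betaC k N ℓ)).ord x *
          (w.inertiaDegAlong (heckeAlphaC k N ℓ) (r38pl_isIntegral_alphaC k N ℓ) : ℤ) := by
  haveI := r38pl_hasPD k N ℓ
  have hy : heckeBetaC k N ℓ x ≠ 0 := by simpa using hx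
  obtain ⟨s, hs, hsum⟩ := r38pl_ord_norm_eq_sum (heckeAlphaC k N ℓ)
    (r38pl_isIntegral_alphaC k N ℓ) (r38pl_finiteAlong_alphaC k N ℓ)
    (r38pl_normFormula_alphaC k N ℓ) hy Q
  refine ⟨s, hs, ?_⟩
  rw [heckeFunC_apply, hsum]
  refine Finset.sum_congr rfl fun w _ => ?_
  rw [Place.ord_restrictAlong (heckeBetaC k N ℓ) (r38pl_isIntegral_betaC k N ℓ) w x]

end Modular

end Fermat.Agent.R38
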