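/-
Row 38 wave (architect helper81), block P = (PHI) (helper16), seat KEY (helper96), part 2:
**KEY at the level `N * ℓ`**, in the shape `hkey` of `r38pl_slope_modular` (helper15), with
helper67's maps `heckeAlphaC k N ℓ` (inclusion) and `heckeBetaC k N ℓ` (`q ↦ q^ℓ`).

* `keyl_ord_betaC_jC` : `0 ≤ ord_{Q'} j̄ ⟹ 0 ≤ ord_{Q'} (β̄ j̄)` at every level `M = ℓ N` (cast);
* `keyl_ord_betaC_ss` : `0 < ord_{Q'} (ᾱ ū) ⟹ 0 ≤ ord_{Q'} (β̄ ū)` at the level `N * ℓ`;
* `keyl_hkey`, `keyl_hkey_of_ne` : the hypothesis `hkey` of `r38pl_slope_modular`.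
-/
import Mathlib
import Fermat.Agent.R38.P.Key
import Fermat.Agent.R38.P.PlacesMod

set_option autoImplicit false
set_option linter.unusedSectionVars false
set_option linter.style.haveILetI false

noncomputable section

open ModularCurve AlgebraicCurve

set_option synthInstance.maxHeartbeats 400000

namespace Fermat.Agent.R38

open Fermat.Agent.BadRed Fermat.Agent.AtkinLehner Fermat.Agent.ES15 Fermat.Agent.RedTr
  Fermat.Agent.FF Fermat.Agent.RR Fermat.Agent.Deuring Fermat.Agent.GaussInt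

local notation "Qb" => AlgebraicClosure ℚ

variable (A : ValuationSubring Qb) (p : ℕ) (hp : p.Prime) (hA : A.LiesOverPrime p)

include hp hA in
/-- **KEY for `j`, every level `M = ℓ N`** (`ℓ ∤ N` prime, `p ∤ M`). -/
theorem keyl_ord_betaC_jC (N ℓ M : ℕ) [NeZero N] [NeZero ℓ] [NeZero M] (hℓ : ℓ.Prime)
    (hℓN : ¬ ℓ ∣ N) (hM : M = ℓ * N) (h : N * ℓ ∣ M) (hpM : ¬ p ∣ M)
    (hg : genusFF Qb (modularFunctionFieldBar M) =
      genusFF (IsLocalRing.ResidueField A)
        (modularFunctionFieldFullC (IsLocalRing.ResidueField A) M))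
    (Q' : Place (IsLocalRing.ResidueField A)
      (modularFunctionFieldFullC (IsLocalRing.ResidueField A) M))
    (hQ' : 0 ≤ Q'.ord (Fermat.Agent.RRMod.jC (IsLocalRing.ResidueField A) M)) :
    0 ≤ Q'.ord (heckeRed_betaTopC N ℓ M h (IsLocalRing.ResidueField A)
      (Fermat.Agent.RRMod.jC (IsLocalRing.ResidueField A) N)) := by
  obtain ⟨D, hDQ, hDR⟩ := ALData.exists_of_coprime (Q := ℓ) (R := N) hℓ.pos
    (Nat.pos_of_ne_zero (NeZero.ne N)) ((Nat.Prime.coprime_iff_not_dvd hℓ).mpr hℓN)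
  subst hDQ hDR
  subst hM
  exact key_ord_betaC_jC A p hp hA D hℓ hpM hg Q' hQ'

include hp hA in
/-- **KEY at the level `N * ℓ`**: a zero of `ᾱ ū` is not a pole of `β̄ ū`. -/
theorem keyl_ord_betaC_ss (N ℓ : ℕ) [NeZero N] [NeZero ℓ] [NeZero (N * ℓ)] (hℓ : ℓ.Prime)
    (hℓN : ¬ ℓ ∣ N) (hpM : ¬ p ∣ N * ℓ)
    (hg : genusFF Qb (modularFunctionFieldBar (N * ℓ)) =
      genusFF (IsLocalRing.ResidueField A)
        (modularFunctionFieldFullC (IsLocalRing.ResidueField A) (N * ℓ)))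
    (u : modularFunctionFieldFullC (IsLocalRing.ResidueField A) N)
    (hu : (u : LaurentSeries (IsLocalRing.ResidueField A)) =
      ssFun (IsLocalRing.ResidueField A) p)
    (Q' : Place (IsLocalRing.ResidueField A)
      (modularFunctionFieldFullC (IsLocalRing.ResidueField A) (N * ℓ)))
    (h : 0 < Q'.ord (heckeAlphaC (IsLocalRing.ResidueField A) N ℓ u)) :
    0 ≤ Q'.ord (heckeBetaC (IsLocalRing.ResidueField A) N ℓ u) := by
  have hj : 0 ≤ Q'.ord (Fermat.Agent.RRMod.jC (IsLocalRing.ResidueField A) (N * ℓ)) :=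
    ord_jC_nonneg_of_ss_zero (N * ℓ) hp hA
      (heckeAlphaC (IsLocalRing.ResidueField A) N ℓ u)
      (by rw [coe_mc_inclC]; exact hu) Q' h
  obtain ⟨P, -, rfl⟩ := ss_eq_aeval N hp hA u hu
  rw [← Polynomial.aeval_algHom_apply]
  exact ord_aeval_nonneg_of_ord Q'
    (keyl_ord_betaC_jC A p hp hA N ℓ (N * ℓ) hℓ hℓN (mul_comm N ℓ) dvd_rfl hpM hg Q' hj) P

section Abstract

variable {K E F : Type*} [Field K] [Field E] [Field F] [Algebra K E] [Algebra K F]

/-- positivity is read off on the upper field. -/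
theorem keyl_restrict_pos_iff (φ : E →ₐ[K] F) (hφ : φ.toRingHom.IsIntegral) (w : Place K F)
    (x : E) : 0 < (w.restrictAlong φ hφ).ord x ↔ 0 < w.ord (φ x) := by
  have e := Place.ord_restrictAlong φ hφ w x
  have hpos : (0 : ℤ) < (Place.ramificationIndexAlong φ w : ℤ) :=
    Int.natCast_pos.mpr (ramificationIndexAlong_pos φ hφ w)
  rw [e]
  constructor
  · intro h
    exact mul_pos hpos h
  · intro h
    by_contra hcon
    rw [not_lt] at hcon
    have := mul_nonpos_of_nonneg_of_nonpos hpos.le hcon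
    omega

/-- non-negativity is read off on the upper field. -/
theorem keyl_restrict_nonneg_iff (φ : E →ₐ[K] F) (hφ : φ.toRingHom.IsIntegral) (w : Place K F)
    (x : E) : 0 ≤ (w.restrictAlong φ hφ).ord x ↔ 0 ≤ w.ord (φ x) := by
  have e := Place.ord_restrictAlong φ hφ w x
  have hpos : (0 : ℤ) < (Place.ramificationIndexAlong φ w : ℤ) :=
    Int.natCast_pos.mpr (ramificationIndexAlong_pos φ hφ w)
  rw [e]
  constructor
  · intro h
    exact mul_nonneg hpos.le h
  · intro h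
    by_contra hcon
    rw [not_le] at hcon
    have := mul_neg_of_pos_of_neg hpos hcon
    omega

end Abstract

include hp hA in
/-- **the hypothesis `hkey` of `r38pl_slope_modular`** (for any proofs of integrality). -/
theorem keyl_hkey (N ℓ : ℕ) [NeZero N] [NeZero ℓ] [NeZero (N * ℓ)] (hℓ : ℓ.Prime)
    (hℓN : ¬ ℓ ∣ N) (hpM : ¬ p ∣ N * ℓ)
    (hg : genusFF Qb (modularFunctionFieldBar (N * ℓ)) =
      genusFF (IsLocalRing.ResidueField A)
        (modularFunctionFieldFullC (IsLocalRing.ResidueField A) (N * ℓ)))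
    (u : modularFunctionFieldFullC (IsLocalRing.ResidueField A) N)
    (hu : (u : LaurentSeries (IsLocalRing.ResidueField A)) =
      ssFun (IsLocalRing.ResidueField A) p)
    (hα : (heckeAlphaC (IsLocalRing.ResidueField A) N ℓ).toRingHom.IsIntegral)
    (hβ : (heckeBetaC (IsLocalRing.ResidueField A) N ℓ).toRingHom.IsIntegral)
    (Q' : Place (IsLocalRing.ResidueField A)
      (modularFunctionFieldFullC (IsLocalRing.ResidueField A) (N * ℓ)))
    (h : 0 < (Q'.restrictAlong (heckeAlphaC (IsLocalRing.ResidueField A) N ℓ) hα).ord u) :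
    0 ≤ (Q'.restrictAlong (heckeBetaC (IsLocalRing.ResidueField A) N ℓ) hβ).ord u :=
  (keyl_restrict_nonneg_iff _ hβ Q' u).mpr
    (keyl_ord_betaC_ss A p hp hA N ℓ hℓ hℓN hpM hg u hu Q'
      ((keyl_restrict_pos_iff _ hα Q' u).mp h))

include hp hA in
/-- `hkey` for `p ∉ {2, 3}` (genus equality from cluster B). -/
theorem keyl_hkey_of_ne (h2 : p ≠ 2) (h3 : p ≠ 3) (N ℓ : ℕ) [NeZero N] [NeZero ℓ]
    [NeZero (N * ℓ)] (hℓ : ℓ.Prime) (hℓN : ¬ ℓ ∣ N) (hpM : ¬ p ∣ N * ℓ)
    (u : modularFunctionFieldFullC (IsLocalRing.ResidueField A) N)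
    (hu : (u : LaurentSeries (IsLocalRing.ResidueField A)) =
      ssFun (IsLocalRing.ResidueField A) p)
    (hα : (heckeAlphaC (IsLocalRing.ResidueField A) N ℓ).toRingHom.IsIntegral)
    (hβ : (heckeBetaC (IsLocalRing.ResidueField A) N ℓ).toRingHom.IsIntegral)
    (Q' : Place (IsLocalRing.ResidueField A)
      (modularFunctionFieldFullC (IsLocalRing.ResidueField A) (N * ℓ)))
    (h : 0 < (Q'.restrictAlong (heckeAlphaC (IsLocalRing.ResidueField A) N ℓ) hα).ord u) :
    0 ≤ (Q'.restrictAlong (heckeBetaC (IsLocalRing.ResidueField A) N ℓ) hβ).ord u :=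
  keyl_hkey A p hp hA N ℓ hℓ hℓN hpM
    (Fermat.Agent.GoodRed.genusFF_modular_eq (N * ℓ) hp hA hpM h2 h3) u hu hα hβ Q' h

include hp hA in
/-- **(P-sl) on the residue field, unconditional** (`p ∉ {2, 3}`): `r38pl_slope_modular` with
`hkey` discharged. -/
theorem keyl_slope_modular (h2 : p ≠ 2) (h3 : p ≠ 3) (N ℓ : ℕ) [NeZero N] [NeZero ℓ]
    [NeZero (N * ℓ)] (hℓ : ℓ.Prime) (hℓN : ¬ ℓ ∣ N) (hpM : ¬ p ∣ N * ℓ) (n : ℤ)
    (u : modularFunctionFieldFullC (IsLocalRing.ResidueField A) N)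
    (hu : (u : LaurentSeries (IsLocalRing.ResidueField A)) =
      ssFun (IsLocalRing.ResidueField A) p)
    {x : modularFunctionFieldFullC (IsLocalRing.ResidueField A) N} (hx : x ≠ 0)
    (hdiv : ∀ Q : Place (IsLocalRing.ResidueField A)
      (modularFunctionFieldFullC (IsLocalRing.ResidueField A) N), 0 ≤ Q.ord u → n ∣ Q.ord x)
    (Q : Place (IsLocalRing.ResidueField A)
      (modularFunctionFieldFullC (IsLocalRing.ResidueField A) N)) (hQ : 0 < Q.ord u) :
    n ∣ Q.ord (heckeFunC (IsLocalRing.ResidueField A) N ℓ x) := by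
  haveI := isAlgClosed_residue A
  exact r38pl_slope_modular (IsLocalRing.ResidueField A) N ℓ n u
    (fun Q' h => keyl_hkey_of_ne A p hp hA h2 h3 N ℓ hℓ hℓN hpM u hu _ _ Q' h) hx hdiv Q hQ

end Fermat.Agent.R38
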