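/-
Row 38 (S44), block P = (PHI) (owner helper16), seat P-nr (helper67), part 2:
the scaled form and the instance at the bad Gauss setup `v_∞` of level `q R` (`EKp.kpS`).

* `nr_finrankAlong_alpha`, `nr_finrankAlong_alphaC` : `[F_{Nℓ} : F_N] = ℓ + 1 = [F_k(N₀ℓ) : F_k(N₀)]`;
* `nr_heckeFun_algebraMap` : `T_ℓ c = c^(ℓ+1)` for constants;
* `heckeFunC_ne_zero`;
* `nr_heckeFun_red_scaled` : `g / c ∈ O` ⟹ `T_ℓ g / c^(ℓ+1) ∈ O` and
  `red (T_ℓ g / c^(ℓ+1)) = T̄_ℓ (red (g / c))`;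
* `nr_exists_top` : the Gauss setup of level `(q R) ℓ` with residue function field `F_k(R ℓ)`;
* `nr_bad_heckeFun_red` : the instance `S = gaussSetupBad D ..` (`= EKp.kpS D ..`).
-/
import Mathlib
import Fermat.Agent.R38.P.NormRed
import Fermat.Agent.Lib.BadRed.Mod.GaussSetupFinal

set_option autoImplicit false
set_option linter.style.haveILetI false
set_option linter.unusedSectionVars false
set_option synthInstance.maxHeartbeats 400000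

noncomputable section

namespace Fermat.Agent.R38

open AlgebraicCurve ModularCurve IntermediateField Fermat.Agent.RR Fermat.Agent.Deuring
  Fermat.Agent.FF Fermat.Agent.GaussInt Fermat.Agent.F3T Fermat.Agent.F3G Fermat.Agent.RedTr
  Fermat.Agent.BadRed Fermat.Agent.ES15 Fermat.Agent.AtkinLehner

local notation "Qb" => AlgebraicClosure ℚ

section Degree

variable {N ℓ : ℕ} [NeZero N] [NeZero ℓ] [NeZero (N * ℓ)]

/-- `[F_{Nℓ} : F_N] = ℓ + 1`. -/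
theorem nr_finrankAlong_alpha (hℓ : ℓ.Prime) (hℓN : ¬ ℓ ∣ N) :
    finrankAlong Qb (heckeAlphaBar Qb N ℓ) = ℓ + 1 := by
  have hK := fundIdK_tower (inclBar (dvd_mul_right N ℓ)) (Fermat.Agent.S24.jBar N)
  rw [inclBar_jBar, Fermat.Agent.GenusEq.finrank_jBar_eq_psi,
    Fermat.Agent.GenusEq.finrank_jBar_eq_psi, nr_dedekindPsi_mul_prime hℓ hℓN] at hK
  have hpos : 0 < dedekindPsi N := dedekindPsi_pos' (Nat.pos_of_ne_zero (NeZero.ne N))
  exact (Nat.eq_of_mul_eq_mul_left hpos hK).symm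

/-- `[F_k(N₀ℓ) : F_k(N₀)] = ℓ + 1` on the special fibre at `p ∤ N₀ ℓ`. -/
theorem nr_finrankAlong_alphaC (A : ValuationSubring Qb) {p : ℕ} (hp : p.Prime)
    (hA : A.LiesOverPrime p) (hpN : ¬ p ∣ N) (hpℓ : p ≠ ℓ) (hℓ : ℓ.Prime) (hℓN : ¬ ℓ ∣ N) :
    finrankAlong (IsLocalRing.ResidueField A)
      (heckeAlphaC (IsLocalRing.ResidueField A) N ℓ) = ℓ + 1 := by
  have hpNℓ : ¬ p ∣ N * ℓ := by
    intro h
    rcases (Nat.Prime.dvd_mul hp).mp h with h1 | h1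
    · exact hpN h1
    · exact hpℓ ((Nat.prime_dvd_prime_iff_eq hp hℓ).mp h1)
  have hk := fundIdK_tower (mc_inclC (IsLocalRing.ResidueField A) (dvd_mul_right N ℓ))
    (Fermat.Agent.RRMod.jC (IsLocalRing.ResidueField A) N)
  rw [mc_inclC_jC, Fermat.Agent.GenusEq.degreeModL (N * ℓ) p hp hpNℓ A hA,
    Fermat.Agent.GenusEq.degreeModL N p hp hpN A hA, nr_dedekindPsi_mul_prime hℓ hℓN] at hk
  have hpos : 0 < dedekindPsi N := dedekindPsi_pos' (Nat.pos_of_ne_zero (NeZero.ne N))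
  exact (Nat.eq_of_mul_eq_mul_left hpos hk).symm

/-- `T_ℓ` on constants: `T_ℓ c = c ^ [F_{Nℓ} : F_N]`. -/
theorem nr_heckeFun_algebraMap' (c : Qb) :
    heckeFun Qb N ℓ (algebraMap Qb (FBar N) c) =
      algebraMap Qb (FBar N) (c ^ finrankAlong Qb (heckeAlphaBar Qb N ℓ)) := by
  rw [heckeFun_apply, AlgHom.commutes]
  letI := algebraAlong (heckeAlphaBar Qb N ℓ)
  haveI := isScalarTower_along (heckeAlphaBar Qb N ℓ)
  show Algebra.norm (FBar N) (algebraMap Qb (FBar (N * ℓ)) c) = _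
  rw [IsScalarTower.algebraMap_apply Qb (FBar N) (FBar (N * ℓ)), Algebra.norm_algebraMap,
    map_pow]
  rfl

/-- `T_ℓ c = c ^ (ℓ + 1)` for constants. -/
theorem nr_heckeFun_algebraMap (hℓ : ℓ.Prime) (hℓN : ¬ ℓ ∣ N) (c : Qb) :
    heckeFun Qb N ℓ (algebraMap Qb (FBar N) c) = algebraMap Qb (FBar N) (c ^ (ℓ + 1)) := by
  rw [nr_heckeFun_algebraMap', nr_finrankAlong_alpha hℓ hℓN]

/-- `T̄_ℓ r ≠ 0` for `r ≠ 0`. -/
theorem heckeFunC_ne_zero (k : Type*) [Field k] [IsAlgClosed k]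
    (hRR : IsRRField k (modularFunctionFieldFullC k (N * ℓ)))
    {r : modularFunctionFieldFullC k N} (hr : r ≠ 0) : heckeFunC k N ℓ r ≠ 0 := by
  rw [heckeFunC_apply]
  refine normAlong_ne_zero _ (mc_finite_fullC N (N * ℓ) (dvd_mul_right N ℓ) k hRR) ?_
  simpa using hr

end Degree

section Scaled

variable (A : ValuationSubring Qb) {N N₀ ℓ : ℕ} [NeZero N] [NeZero N₀] [NeZero ℓ]
  [NeZero (N * ℓ)] [NeZero (N₀ * ℓ)]
  {S : ValSetup Qb (FBar N) (IsLocalRing.ResidueField A)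
    (modularFunctionFieldFullC (IsLocalRing.ResidueField A) N₀)}
  {S' : ValSetup Qb (FBar (N * ℓ)) (IsLocalRing.ResidueField A)
    (modularFunctionFieldFullC (IsLocalRing.ResidueField A) (N₀ * ℓ))}
  (hS : IsGaussSetup N N₀ A S) (hS' : IsGaussSetup (N * ℓ) (N₀ * ℓ) A S')

include hS hS' in
/-- **P-nr, scaled form**: if `g / c` is integral then `T_ℓ g / c^(ℓ+1)` is integral and
`red (T_ℓ g / c^(ℓ+1)) = T̄_ℓ (red (g / c))`. -/
theorem nr_heckeFun_red_scaled {p : ℕ} (hp : p.Prime) (hA : A.LiesOverPrime p)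
    (hpN₀ : ¬ p ∣ N₀) (hpℓ : p ≠ ℓ) (hℓ : ℓ.Prime) (hℓN : ¬ ℓ ∣ N) (hℓN₀ : ¬ ℓ ∣ N₀)
    {g : FBar N} {c : Qb} (hc : c ≠ 0) (hg : g / algebraMap Qb (FBar N) c ∈ S.Ov) :
    heckeFun Qb N ℓ g / algebraMap Qb (FBar N) (c ^ (ℓ + 1)) ∈ S.Ov ∧
      S.red (heckeFun Qb N ℓ g / algebraMap Qb (FBar N) (c ^ (ℓ + 1))) =
        heckeFunC (IsLocalRing.ResidueField A) N₀ ℓ (S.red (g / algebraMap Qb (FBar N) c)) := by
  have h1 := nr_heckeFun_red A hS hS' hp hA hpN₀ hpℓ hℓ hℓN hℓN₀ hg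
  have hc' : algebraMap Qb (FBar N) c ≠ 0 := (map_ne_zero _).mpr hc
  have hc'' : algebraMap Qb (FBar N) (c ^ (ℓ + 1)) ≠ 0 := (map_ne_zero _).mpr (pow_ne_zero _ hc)
  have e : heckeFun Qb N ℓ (g / algebraMap Qb (FBar N) c) =
      heckeFun Qb N ℓ g / algebraMap Qb (FBar N) (c ^ (ℓ + 1)) := by
    rw [eq_div_iff hc'', ← nr_heckeFun_algebraMap hℓ hℓN, ← map_mul, div_mul_cancel₀ _ hc']
  rw [e] at h1
  exact h1

end Scaled

section Bad

variable (D : ALData) [NeZero D.Q] [NeZero D.R] [NeZero (D.Q * D.R)]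
  (hQ : D.Q.Prime) (hQR : ¬ D.Q ∣ D.R) (A : ValuationSubring Qb) (hA : A.LiesOverPrime D.Q)
  {ℓ : ℕ} [NeZero ℓ] [NeZero (D.Q * D.R * ℓ)] [NeZero (D.R * ℓ)]

include hQ hQR hA in
/-- the Gauss setup `v_∞` of level `(q R) ℓ` with residue function field `F_k(R ℓ)`. -/
theorem nr_exists_top (hℓ : ℓ.Prime) (hQℓ : D.Q ≠ ℓ) :
    ∃ S' : ValSetup Qb (FBar (D.Q * D.R * ℓ)) (IsLocalRing.ResidueField A)
        (modularFunctionFieldFullC (IsLocalRing.ResidueField A) (D.R * ℓ)),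
      IsGaussSetup (D.Q * D.R * ℓ) (D.R * ℓ) A S' ∧ HasLattice S' := by
  have hQRℓ : ¬ D.Q ∣ D.R * ℓ := by
    intro h
    rcases (Nat.Prime.dvd_mul hQ).mp h with h1 | h1
    · exact hQR h1
    · exact hQℓ ((Nat.prime_dvd_prime_iff_eq hQ hℓ).mp h1)
  have hM : D.Q * D.R * ℓ = D.R * ℓ * D.Q := by ring
  exact exists_isGaussSetup_bad hQ hQRℓ A hA (D.Q * D.R * ℓ) hM
    (modFactsAt (D.R * ℓ) D.Q hQ hQRℓ A hA)

/-- **P-nr at the bad Gauss setup** `v_∞ = gaussSetupBad D .. (= EKp.kpS D ..)`: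
if `g / c` is integral then `T_ℓ g / c^(ℓ+1)` is integral and
`red (T_ℓ g / c^(ℓ+1)) = T̄_ℓ (red (g / c))`, `T̄_ℓ = heckeFunC k R ℓ`. -/
theorem nr_bad_heckeFun_red (hℓ : ℓ.Prime) (hℓN : ¬ ℓ ∣ D.Q * D.R)
    {g : FBar (D.Q * D.R)} {c : Qb} (hc : c ≠ 0)
    (hg : g / algebraMap Qb (FBar (D.Q * D.R)) c ∈ (gaussSetupBad D hQ hQR A hA).Ov) :
    heckeFun Qb (D.Q * D.R) ℓ g / algebraMap Qb (FBar (D.Q * D.R)) (c ^ (ℓ + 1)) ∈
        (gaussSetupBad D hQ hQR A hA).Ov ∧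
      (gaussSetupBad D hQ hQR A hA).red
          (heckeFun Qb (D.Q * D.R) ℓ g / algebraMap Qb (FBar (D.Q * D.R)) (c ^ (ℓ + 1))) =
        heckeFunC (IsLocalRing.ResidueField A) D.R ℓ
          ((gaussSetupBad D hQ hQR A hA).red (g / algebraMap Qb (FBar (D.Q * D.R)) c)) := by
  have hQℓ : D.Q ≠ ℓ := fun h => hℓN (h ▸ dvd_mul_right D.Q D.R)
  have hℓR : ¬ ℓ ∣ D.R := fun h => hℓN (h.trans (dvd_mul_left D.R D.Q))
  obtain ⟨S', hS', -⟩ := nr_exists_top D hQ hQR A hA hℓ hQℓ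
  exact nr_heckeFun_red_scaled A (isGaussSetup_gaussSetupBad D hQ hQR A hA) hS' hQ hA hQR hQℓ
    hℓ hℓN hℓR hc hg

include hQ hQR hA in
/-- **P-nr, nonvanishing**: `T̄_ℓ r ≠ 0` for `r ≠ 0` at the bad Gauss setup. -/
theorem nr_bad_heckeFunC_ne_zero (hℓ : ℓ.Prime) (hℓN : ¬ ℓ ∣ D.Q * D.R)
    {r : modularFunctionFieldFullC (IsLocalRing.ResidueField A) D.R} (hr : r ≠ 0) :
    heckeFunC (IsLocalRing.ResidueField A) D.R ℓ r ≠ 0 := by
  have hQℓ : D.Q ≠ ℓ := fun h => hℓN (h ▸ dvd_mul_right D.Q D.R)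
  obtain ⟨S', -, -⟩ := nr_exists_top D hQ hQR A hA hℓ hQℓ
  haveI := isAlgClosed_residue A
  exact heckeFunC_ne_zero _ S'.hFk hr

end Bad

end Fermat.Agent.R38
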