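/-
Row 38 (S44), block P = (PHI) (owner helper16): the WIRING of the junction `SpJP`.

`r38_spJP : SpJW → SpPEps → SpPPush → SpPSl → SpJP`, where

* `SpPEps`  (P-eps, helper27 / helper65): `p ∤ ord_Q ū` at the nodes;
* `SpPPush` (P-push, helper6): `p ∣ ord_Q (red (g / c))` at the places `Q` which are not nodes,
  for a Kummer generator `g`;
* `SpPSl`   (P-pl + KEY, helper15 / helper96 / helper67): the residue-level Hecke operator
  `T̄_ℓ = heckeFunC` carries divisibility by `p` of the orders away from the cusps to the nodes.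

Landed inputs: `r38_phi_abs` (abstract PHI), `nr_bad_heckeFun_red`, `nr_heckeFun_algebraMap`
(P-nr, helper67), `pu_heckeFun_uF` (P-u, helper96), `r38_heckeFun_eig` (P-eig, helper6),
`L.nonEisStatement` (cluster L).
-/
import Mathlib
import Fermat.Agent.R38.Spine
import Fermat.Agent.R38.P.Abs
import Fermat.Agent.R38.P.NormRedKp
import Fermat.Agent.R38.P.EtaNorm
import Fermat.Agent.R38.P.Eig
import Fermat.Agent.L.NonEis.Final
import Fermat.Agent.Lib.Frey.Basic

set_option autoImplicit false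
set_option linter.style.haveILetI false
set_option linter.unusedSectionVars false
set_option linter.unusedVariables false
set_option synthInstance.maxHeartbeats 400000
set_option maxHeartbeats 1000000

noncomputable section

namespace Fermat.Agent.R38

open ModularCurve AlgebraicCurve Fermat.Agent.F3 Fermat.Agent.F3G Fermat.Agent.F3I2
  Fermat.Agent.GaussInt Fermat.Agent.AtkinLehner Fermat.Agent.Deuring Fermat.Agent.RR
  Fermat.Agent.BadRed Fermat.Agent.EKp WeierstrassCurve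

local notation "Qb" => AlgebraicClosure ℚ

/-- **(P-eps)**: the multiplicities of the nodes are prime to `p`. -/
def SpPEps : Prop :=
  ∀ (D : ALData) [NeZero D.Q] [NeZero D.R] [NeZero (D.Q * D.R)]
    (A : ValuationSubring Qb) (hq : D.Q.Prime) (hA : A.LiesOverPrime D.Q) (hqR : ¬ D.Q ∣ D.R)
    [Fact D.Q.Prime] [CharP (IsLocalRing.ResidueField A) D.Q]
    [PerfectRing (IsLocalRing.ResidueField A) D.Q],
    5 ≤ D.Q →
    ∀ Q : Place (IsLocalRing.ResidueField A)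
        (modularFunctionFieldFullC (IsLocalRing.ResidueField A) D.R),
      0 < Q.ord ((kpS D A hq hA hqR).red (fwU D)) →
        ¬ (D.Q : ℤ) ∣ Q.ord ((kpS D A hq hA hqR).red (fwU D))

/-- **(P-push)**: the orders of a normalised reduction of a Kummer generator are divisible by
`p` at the places which are not nodes. -/
def SpPPush : Prop :=
  ∀ (D : ALData) [NeZero D.Q] [NeZero D.R] [NeZero (D.Q * D.R)]
    (A : ValuationSubring Qb) (hq : D.Q.Prime) (hA : A.LiesOverPrime D.Q) (hqR : ¬ D.Q ∣ D.R)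
    [Fact D.Q.Prime] [CharP (IsLocalRing.ResidueField A) D.Q]
    [PerfectRing (IsLocalRing.ResidueField A) D.Q],
    5 ≤ D.Q →
    ∀ (E : Divisor.degZero (K := Qb) (F := FBar (D.Q * D.R))) (g : FBar (D.Q * D.R)),
      IsRootDiv D.Q g E →
      ∀ c : Qb, (kpS D A hq hA hqR).red (g / algebraMap Qb (FBar (D.Q * D.R)) c) ≠ 0 →
      ∀ Q : Place (IsLocalRing.ResidueField A)
          (modularFunctionFieldFullC (IsLocalRing.ResidueField A) D.R),
        Q.ord ((kpS D A hq hA hqR).red (fwU D)) ≤ 0 →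
          (D.Q : ℤ) ∣ Q.ord ((kpS D A hq hA hqR).red (g / algebraMap Qb (FBar (D.Q * D.R)) c))

/-- **(P-sl), residue form**: `T̄_ℓ` carries divisibility by `p` of the orders away from the cusps
to the nodes. -/
def SpPSl : Prop :=
  ∀ (D : ALData) [NeZero D.Q] [NeZero D.R] [NeZero (D.Q * D.R)]
    (A : ValuationSubring Qb) (hq : D.Q.Prime) (hA : A.LiesOverPrime D.Q) (hqR : ¬ D.Q ∣ D.R)
    [Fact D.Q.Prime] [CharP (IsLocalRing.ResidueField A) D.Q]
    [PerfectRing (IsLocalRing.ResidueField A) D.Q],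
    5 ≤ D.Q →
    ∀ (ℓ : ℕ) [NeZero ℓ] [NeZero (D.R * ℓ)], ℓ.Prime → ¬ ℓ ∣ D.Q * D.R →
    ∀ x : modularFunctionFieldFullC (IsLocalRing.ResidueField A) D.R, x ≠ 0 →
      (∀ Q : Place (IsLocalRing.ResidueField A)
          (modularFunctionFieldFullC (IsLocalRing.ResidueField A) D.R),
        0 ≤ Q.ord ((kpS D A hq hA hqR).red (fwU D)) → (D.Q : ℤ) ∣ Q.ord x) →
      ∀ Q : Place (IsLocalRing.ResidueField A)
          (modularFunctionFieldFullC (IsLocalRing.ResidueField A) D.R),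
        0 < Q.ord ((kpS D A hq hA hqR).red (fwU D)) →
          (D.Q : ℤ) ∣ Q.ord (heckeFunC (IsLocalRing.ResidueField A) D.R ℓ x)

/-- the Frey curve is an elliptic curve. -/
theorem r38_frey_isElliptic (P : FreyPackage) : P.freyCurve.IsElliptic := by
  refine ⟨isUnit_iff_ne_zero.mpr ?_⟩
  rw [← Fermat.Agent.FreyLib.freyCurveInt_map P, WeierstrassCurve.map_Δ, eq_intCast]
  exact_mod_cast Fermat.Agent.FreyLib.freyCurveInt_Δ_ne_zero P

section Side

variable (D : ALData) [NeZero D.Q] [NeZero D.R] [NeZero (D.Q * D.R)]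
  (A : ValuationSubring Qb) (hq : D.Q.Prime) (hA : A.LiesOverPrime D.Q) (hqR : ¬ D.Q ∣ D.R)
  [Fact D.Q.Prime] [CharP (IsLocalRing.ResidueField A) D.Q]
  [PerfectRing (IsLocalRing.ResidueField A) D.Q]

/-- **(PHI), one side**: a Kummer generator `g` of a class which is an eigen-class for ONE good
`T_ℓ` with eigenvalue `t ≢ ℓ + 1 mod p`, with (INT): the orders of the normalised reductions of
`g` are divisible by `p` at ALL places. -/
theorem r38_phi_side (h5 : 5 ≤ D.Q) (hEps : SpPEps) (hPush : SpPPush) (hSl : SpPSl)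
    (ℓ : Nat.Primes) (hℓN : ¬ (ℓ : ℕ) ∣ D.Q * D.R) (t : ℤ)
    (ht : ¬ (D.Q : ℤ) ∣ t - ((ℓ : ℕ) + 1))
    (y : JZero (D.Q * D.R)) (hy : heckeOperatorBar (D.Q * D.R) ℓ y = t • y)
    (E : Divisor.degZero (K := Qb) (F := FBar (D.Q * D.R))) (g : FBar (D.Q * D.R))
    (hgen : spIsKumGen D.Q y E g) (hint : spSlopeInt D A hq hA hqR g)
    (r : modularFunctionFieldFullC (IsLocalRing.ResidueField A) D.R)
    (hr : spIsRedInf D A hq hA hqR g r)
    (Q : Place (IsLocalRing.ResidueField A)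
      (modularFunctionFieldFullC (IsLocalRing.ResidueField A) D.R)) :
    (D.Q : ℤ) ∣ Q.ord r := by
  classical
  obtain ⟨c, hc0, hcmem, hcred, hrne⟩ := hr
  have hcne : (kpS D A hq hA hqR).red (g / algebraMap Qb (FBar (D.Q * D.R)) c) ≠ 0 := by
    rw [hcred]
    exact hrne
  rcases le_or_gt (Q.ord ((kpS D A hq hA hqR).red (fwU D))) 0 with hQ | hQ
  · -- not a node
    rw [← hcred]
    exact hPush D A hq hA hqR h5 E g hgen.1 c hcne Q hQ
  · -- a node: abstract (PHI)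
    haveI : NeZero (ℓ : ℕ) := ⟨ℓ.2.ne_zero⟩
    haveI : NeZero (D.R * (ℓ : ℕ)) := ⟨mul_ne_zero (NeZero.ne D.R) ℓ.2.ne_zero⟩
    haveI : NeZero (D.Q * D.R * (ℓ : ℕ)) := ⟨mul_ne_zero (NeZero.ne _) ℓ.2.ne_zero⟩
    set S := kpS D A hq hA hqR with hS
    have hu : S.red (fwU D) ≠ 0 := by
      intro h0
      rw [h0, Place.ord_zero] at hQ
      exact lt_irrefl _ hQ
    have hg0 : g ≠ 0 := hgen.1.1
    rw [← hcred, r38Sl_eq S Q hcne]
    refine r38_phi_abs S hq (heckeFun Qb (D.Q * D.R) (ℓ : ℕ))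
      (heckeFunC (IsLocalRing.ResidueField A) D.R (ℓ : ℕ)) (fwU D) hu ?_ ?_ ?_ ((ℓ : ℕ) + 1)
      ?_ ?_ g hg0 ?_ ?_ t ?_ ?_ Q hQ
    · -- (P-nr)
      intro x hx
      have hx1 : x / algebraMap Qb (FBar (D.Q * D.R)) 1 ∈ (gaussSetupBad D hq hqR A hA).Ov := by
        rw [map_one, div_one]
        exact S.mem_of_red_ne_zero hx
      have := (nr_bad_heckeFun_red D hq hqR A hA ℓ.2 hℓN one_ne_zero hx1).2
      simpa only [one_pow, map_one, div_one] using this
    · -- `T` on constants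
      intro a ha
      exact ⟨a ^ ((ℓ : ℕ) + 1), pow_ne_zero _ ha, nr_heckeFun_algebraMap ℓ.2 hℓN a⟩
    · -- (P-pl)
      intro x hx hdiv Q' hQ'
      exact hSl D A hq hA hqR h5 (ℓ : ℕ) ℓ.2 hℓN x hx hdiv Q' hQ'
    · -- (P-u)
      exact pu_heckeFun_uF (D.Q * D.R) D.Q (Dvd.intro _ rfl) (ℓ : ℕ) ℓ.2 hℓN
    · -- (P-eps)
      intro Q' hQ'
      exact hEps D A hq hA hqR h5 Q' hQ'
    · -- (P-push)
      intro Q' hQ'
      rw [← r38Sl_eq S Q' hcne]
      exact hPush D A hq hA hqR h5 E g hgen.1 c hcne Q' hQ'.le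
    · -- (INT)
      intro Q₁ Q₂ hQ₁ hQ₂
      have h := hint r ⟨c, hc0, hcmem, hcred, hrne⟩ ⟨Q₁, hQ₁⟩ ⟨Q₂, hQ₂⟩
      rw [kpEps_cast, kpEps_cast] at h
      rw [← r38Sl_eq S Q₁ hcne, ← r38Sl_eq S Q₂ hcne, hcred]
      exact h
    · -- (P-eig)
      have hT : heckeOperatorAlong Qb (D.Q * D.R) (ℓ : ℕ) (Pic0.mk E) = t • Pic0.mk E := by
        have := hy
        rw [heckeOperatorBar_apply, ← hgen.2] at this
        exact this
      exact r38_heckeFun_eig (D.Q * D.R) (ℓ : ℕ) D.Q E g hgen.1 t hT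
    · push_cast
      exact ht

end Side

/-- **the junction J-P** from the leaves of block P. -/
theorem r38_spJP (hW : SpJW) (hEps : SpPEps) (hPush : SpPPush) (hSl : SpPSl) : SpJP := by
  intro P D _ _ _ A hq hA hqR _ _ _ hQP hcond hirr W S hWm hSOK y hy E g hgen hint hintw
  have h5 : 5 ≤ D.Q := hQP ▸ P.hp5
  have hp2 : D.Q ≠ 2 := by omega
  haveI := r38_frey_isElliptic P
  -- a non-Eisenstein prime
  have hNE := Fermat.Agent.L.nonEisStatement P.freyCurve hWm hq hp2 (hQP ▸ hirr)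
  obtain ⟨ℓ, hℓ, hℓS, -, -, hℓne⟩ := hNE 1 one_pos S
  have hℓN : ¬ ℓ ∣ D.Q * D.R := by
    intro h
    exact hℓS (hSOK.2.1 ℓ hℓ h)
  have hprimes : ∀ q : ℕ, q.Prime → q ∣ D.Q * D.R → q ∈ S := hSOK.2.1
  obtain ⟨hW1, -, -, hW4⟩ := hW D A hq hA hqR S (fun ℓ => W.apOfModel ℓ) y hprimes
  intro r hr Q
  rcases hr with hr | hr
  · exact r38_phi_side D A hq hA hqR h5 hEps hPush hSl ⟨ℓ, hℓ⟩ hℓN (W.apOfModel ℓ) hℓne y
      (hy.2.2.2 ⟨ℓ, hℓ⟩ hℓS hℓN) E g hgen hint r hr Q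
  · obtain ⟨E', hgen'⟩ := hW4 E g hgen
    have hy' := hW1 hy
    exact r38_phi_side D A hq hA hqR h5 hEps hPush hSl ⟨ℓ, hℓ⟩ hℓN (W.apOfModel ℓ) hℓne
      (Fermat.Agent.F3DegP.pushW D y) (hy'.2.2.2 ⟨ℓ, hℓ⟩ hℓS hℓN) E' (atkinLehner D g) hgen'
      hintw r hr Q

end Fermat.Agent.R38
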