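/-
Row 38 (S44), block P = (PHI) (owner helper16): the leaves `SpPEps` (helper27 / helper65) and
`SpPSl` (helper15 / helper96) of the wiring `r38_spJP`, plugged in:

`r38_spJP_of_push : SpJW → SpPPush → SpJP`.
-/
import Mathlib
import Fermat.Agent.R38.P.Wire
import Fermat.Agent.R38.P.Eps
import Fermat.Agent.R38.P.KeyLevel

set_option autoImplicit false
set_option linter.style.haveILetI false
set_option linter.unusedSectionVars false
set_option linter.unusedVariables false
set_option synthInstance.maxHeartbeats 400000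
set_option maxHeartbeats 1000000

noncomputable section

namespace Fermat.Agent.R38

open ModularCurve AlgebraicCurve Fermat.Agent.F3 Fermat.Agent.F3G Fermat.Agent.F3I2
  Fermat.Agent.GaussInt Fermat.Agent.AtkinLehner Fermat.Agent.Deuring Fermat.Agent.RR
  Fermat.Agent.BadRed Fermat.Agent.EKp WeierstrassCurve

local notation "Qb" => AlgebraicClosure ℚ

/-- **(P-eps)** (helper27, helper65). -/
theorem r38_spPEps : SpPEps := by
  intro D _ _ _ A hq hA hqR _ _ _ h5 Q hQ
  exact r38_not_dvd_ord_red_u D A hq hA hqR h5 Q hQ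

/-- **(P-sl)** (helper15, helper96). -/
theorem r38_spPSl : SpPSl := by
  intro D _ _ _ A hq hA hqR _ _ _ h5 ℓ _ _ hℓ hℓN x hx hdiv Q hQ
  have hℓR : ¬ ℓ ∣ D.R := fun h => hℓN (dvd_mul_of_dvd_right h _)
  have hpM : ¬ D.Q ∣ D.R * ℓ := by
    intro h
    rcases (Nat.Prime.dvd_mul hq).1 h with h | h
    · exact hqR h
    · have h1 := (Nat.prime_dvd_prime_iff_eq hq hℓ).1 h
      exact hℓN (h1 ▸ dvd_mul_right _ _)
  exact keyl_slope_modular A D.Q hq hA (by omega) (by omega) D.R ℓ hℓ hℓR hpM (D.Q : ℤ)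
    ((kpS D A hq hA hqR).red (fwU D))
    (fw_coe_red_uF D A hq hA _ (isGaussSetup_gaussSetupBad D hq hqR A hA)) hx hdiv Q hQ

/-- **J-P** from J-W and (P-push). -/
theorem r38_spJP_of_push (hW : SpJW) (hPush : SpPPush) : SpJP :=
  r38_spJP hW r38_spPEps hPush r38_spPSl

end Fermat.Agent.R38
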