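/-
Row 38 (S44), block P = (PHI) (owner helper16): the leaf `SpPPush` (second proof; first seat:
helper6, `R38/P/Push.lean`), from `push₁` of the modular nodal setup `kpN`, and the FINAL form of
the junction J-P:

`r38_spJP_of_W : SpJW → SpJP`.
-/
import Mathlib
import Fermat.Agent.R38.P.Leaves

set_option autoImplicit false
set_option linter.style.haveILetI false
set_option linter.unusedSectionVars false
set_option linter.unusedVariables false
set_option synthInstance.maxHeartbeats 400000
set_option maxHeartbeats 1000000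

noncomputable section

namespace Fermat.Agent.R38

open ModularCurve AlgebraicCurve Fermat.Agent.F3 Fermat.Agent.F3G Fermat.Agent.F3I2
  Fermat.Agent.GaussInt Fermat.Agent.AtkinLehner Fermat.Agent.Deuring Fermat.Agent.RR
  Fermat.Agent.BadRed Fermat.Agent.EKp WeierstrassCurve

local notation "Qb" => AlgebraicClosure ℚ


/-- **(P-push)**: the orders of a normalised reduction of a Kummer generator are divisible by `p`
at the places which are not nodes. -/
theorem r38_spPPush : SpPPush := by
  intro D _ _ _ A hq hA hqR _ _ _ h5 E g hg c hc Q hQ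
  classical
  have haux : AuxLevelOK D.Q D.R := AuxLevelOK.of_five_le h5
  have hf0 : g / algebraMap Qb (FBar (D.Q * D.R)) c ≠ 0 :=
    (kpS D A hq hA hqR).ne_zero_of_red_ne_zero hc
  have hc0 : c ≠ 0 := by
    rintro rfl
    rw [map_zero, div_zero] at hf0
    exact hf0 rfl
  have hca : algebraMap Qb (FBar (D.Q * D.R)) c ≠ 0 := (map_ne_zero _).mpr hc0
  have hnode : ∀ i, Q ≠ (kpN D A hq hA hqR haux).s₁ i := by
    intro i hi
    have h1 : 0 < Q.ord ((kpS D A hq hA hqR).red (fwU D)) := by
      rw [hi]
      exact i.2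
    omega
  have h := (kpN D A hq hA hqR haux).push₁ (g / algebraMap Qb (FBar (D.Q * D.R)) c)
    ((kpS D A hq hA hqR).mem_of_red_ne_zero hc) ((kpS D A hq hA hqR).inv_mem_of_red_ne_zero hc)
    hf0 Q hnode
  have hdiv : divOf (kpN D A hq hA hqR haux).S₁.hF (g / algebraMap Qb (FBar (D.Q * D.R)) c) =
      (D.Q : ℤ) • (E : Divisor Qb (FBar (D.Q * D.R))) := by
    ext v
    rw [divOf_apply, Finsupp.smul_apply, smul_eq_mul, hg.2 v, div_eq_mul_inv,
      Place.ord_mul v hg.1 (inv_ne_zero hca), Place.ord_inv,
      rootClass_ord_algebraMap v hc0, neg_zero, add_zero]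
  rw [hdiv, Finsupp.mapDomain_smul, Finsupp.smul_apply, smul_eq_mul] at h
  have h2 : Q.ord ((kpS D A hq hA hqR).red (g / algebraMap Qb (FBar (D.Q * D.R)) c)) =
      (D.Q : ℤ) * Finsupp.mapDomain (kpN D A hq hA hqR haux).r
        (E : Divisor Qb (FBar (D.Q * D.R))) (some (Sum.inl Q)) := h.symm
  rw [h2]
  exact dvd_mul_right _ _

/-- **the junction J-P**, from J-W. -/
theorem r38_spJP_of_W (hW : SpJW) : SpJP :=
  r38_spJP_of_push hW r38_spPPush

end Fermat.Agent.R38
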