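/-
Row 38 (S44), block P = (PHI) (owner helper16): **the junction J-P, unconditional.**

`spJP : SpJP`, from `r38_spJP_of_W` (block P) and `spJW` (J-W, helper5).
-/
import Mathlib
import Fermat.Agent.R38.P.PushB
import Fermat.Agent.R38.W.Sym

set_option autoImplicit false

namespace Fermat.Agent.R38

/-- **J-P**: (PHI). -/
theorem spJP : SpJP :=
  r38_spJP_of_W spJW

end Fermat.Agent.R38
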