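/-
Row 38 (S44), block P, seat P-w (core).  Owner: helper17.

**The Hecke operators `T_ℓ` (`ℓ ∤ N`) commute with the Atkin–Lehner push-forward `w_*`** on
`J₀(N)(ℚ̄)`, `N = Q R`:

* `pushAut_eq_smul` : the push-forward along an automorphism `e` of a function field is the action
  of the (semilinear) automorphism `e⁻¹` on divisor classes;
* `pushW_eq_smul` : `w_* y = w • y` (`w` is an involution);
* `heckeOperatorAlong_smul_of_intertwines` : `T_ℓ` commutes with every pair of automorphisms of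
  `F_N`, `F_{Nℓ}` intertwined by both degeneracy maps (abstract form of F3G's Galois case);
* `coe_wAt_heckeBetaBar` : `w'(f(q^ℓ)) = (w f)(q^ℓ)` for `w = w_Q` at level `N`, `w' = w_Q` at level
  `N ℓ` (the `α`-side is `BadRed.coe_wAt_heckeAlphaBar`, helper94);
* `heckeOperatorBar_pushW`, `heckeOperatorBar_pushWAt` : the commutation.
-/
import Mathlib
import Fermat.Agent.Lib.BadRed.Bridge.AuxNew
import Fermat.Agent.F3.I2.Deg.ALLevel
import Fermat.Agent.F3.Galois.HeckeComm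
import Fermat.Agent.E.Desc.Comm.Functorial
import Fermat.Agent.Lib.HeckeInputs.Qbar

set_option autoImplicit false
set_option linter.style.haveILetI false
set_option linter.unusedSectionVars false
set_option linter.unusedVariables false
set_option synthInstance.maxHeartbeats 400000

noncomputable section

namespace Fermat.Agent.R38

open ModularCurve AlgebraicCurve Fermat.Agent.F3G Fermat.Agent.F3Deg Fermat.Agent.F3DegP
  Fermat.Agent.F3DegW Fermat.Agent.BadRed Fermat.Agent.Kronecker Fermat.Agent.S24Diff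
open Fermat.Agent.AtkinLehner (ALData atkinLehner atkinLehner_atkinLehner exists_factor factor_pos)

local notation "Qb" => AlgebraicClosure ℚ

/-! ### push-forward along an automorphism = action of the inverse automorphism -/

section Generic

variable {K F : Type*} [Field K] [Field F] [Algebra K F]

/-- the restriction of a place along an automorphism. -/
theorem wSide_restrictAlong_algEquiv (e : F ≃ₐ[K] F) (he : e.toAlgHom.toRingHom.IsIntegral)
    (w : Place K F) :
    w.restrictAlong e.toAlgHom he = (SemilinearAut.ofAlgAut e)⁻¹ • w := by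
  apply Place.ext
  ext x
  rw [Fermat.Agent.F3G.mem_restrictAlong_iff, mem_smul_place_iff, inv_inv]
  rfl

/-- the push-forward of divisors along an automorphism (all places of degree one). -/
theorem wSide_pushforwardAlong_algEquiv (e : F ≃ₐ[K] F) (he : e.toAlgHom.toRingHom.IsIntegral)
    (hdeg : ∀ v : Place K F, v.deg = 1) (D : Divisor K F) :
    Divisor.pushforwardAlong e.toAlgHom he D = (SemilinearAut.ofAlgAut e)⁻¹ • D := by
  induction D using Finsupp.induction with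
  | zero => rw [map_zero, smul_zero]
  | single_add w n D _ _ ih =>
    rw [map_add, smul_add, ih,
      Fermat.Agent.EDescComm.pushforwardAlong_single_of_deg_one e.toAlgHom he hdeg hdeg w n,
      SemilinearAut.smul_single, wSide_restrictAlong_algEquiv]

variable [IsAlgClosed K] [CharZero K]

/-- **`e_* = (e⁻¹) • ·`** on divisor classes. -/
theorem pushAut_eq_smul (e : F ≃ₐ[K] F) {t : F} (h : IsFunctionFieldOver K F t)
    (hdeg : ∀ v : Place K F, v.deg = 1) (y : Pic0 K F) :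
    pushAut e h y = (SemilinearAut.ofAlgAut e)⁻¹ • y := by
  obtain ⟨E, rfl⟩ := Pic0.mk_surjective y
  rw [pushAut_mk, SemilinearAut.pic0_smul_mk]
  refine congrArg Pic0.mk (Subtype.ext ?_)
  rw [coe_pushDegZero, SemilinearAut.coe_degZeroSMulHom]
  exact wSide_pushforwardAlong_algEquiv e _ hdeg E

end Generic

/-! ### `T_ℓ` commutes with intertwined automorphisms -/

section Abstract

variable {L : Type*} [Field L] [Algebra ℚ L] (N ℓ : ℕ) [NeZero N] [NeZero ℓ]

/-- `T_ℓ` on `Pic⁰ (F_N)` commutes with a semilinear automorphism `g` of `F_N` as soon as some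
semilinear automorphism `g'` of `F_{Nℓ}` is intertwined with `g` by both degeneracy maps. -/
theorem heckeOperatorAlong_smul_of_intertwines
    (g : SemilinearAut L (laurentBaseChange L (modularFunctionFieldFull N)))
    (g' : SemilinearAut L (laurentBaseChange L (modularFunctionFieldFull (N * ℓ))))
    (hα : SemilinearAut.IntertwinesAlong (heckeAlphaBar L N ℓ).toRingHom g g')
    (hβ : SemilinearAut.IntertwinesAlong (heckeBetaBar L N ℓ).toRingHom g g')
    (x : Pic0 L (laurentBaseChange L (modularFunctionFieldFull N))) :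
    heckeOperatorAlong L N ℓ (g • x) = g • heckeOperatorAlong L N ℓ x := by
  by_cases h : HeckeInputsAlong L N ℓ
  · obtain ⟨hα', hβ', hP, hfin, hFI, hN⟩ := h
    haveI := hP
    rw [heckeOperatorAlong_eq hα' hβ' hFI hfin hN]
    exact pic0_correspondence_smul (heckeBetaBar L N ℓ) (heckeAlphaBar L N ℓ) hβ' hα' hFI hfin hN
      hβ hα x
  · rw [heckeOperatorAlong_of_not h]
    simp

end Abstract

/-! ### the Atkin–Lehner involutions at the levels `N` and `N ℓ` -/

section Compat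

/-- `qExpand` only depends on the exponent. -/
theorem wSide_qExpand_congr {a b : ℕ} [NeZero a] [NeZero b] (h : a = b)
    (f : LaurentSeries Qb) : qExpand Qb a f = qExpand Qb b f := by
  subst h
  rfl

/-- **compatibility of `w_Q` at the levels `M = Q R` and `M ℓ = Q (R ℓ)` with `q ↦ q^ℓ`** (on
expansions). -/
theorem coe_wAt_heckeBetaBar (D D' : ALData) {M ℓ : ℕ} [NeZero M] [NeZero ℓ]
    (hM : M = D.Q * D.R) (hM' : M * ℓ = D'.Q * D'.R) (hQ : D'.Q = D.Q) (hR : D'.R = D.R * ℓ)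
    (x : FBar M) :
    ((wAt D' hM' (heckeBetaBar Qb M ℓ x) : FBar (M * ℓ)) : LaurentSeries Qb) =
      qExpand Qb ℓ ((wAt D hM x : FBar M) : LaurentSeries Qb) := by
  set Φ₁ : FBar M →+* LaurentSeries Qb :=
    ((modularFunctionFieldBar (M * ℓ)).val.toRingHom.comp
      ((wAt D' hM').toAlgHom.toRingHom.comp (heckeBetaBar Qb M ℓ).toRingHom)) with hΦ₁
  set Φ₂ : FBar M →+* LaurentSeries Qb :=
    ((modularFunctionFieldBar (M * ℓ)).val.toRingHom.comp
      ((heckeBetaBar Qb M ℓ).toRingHom.comp (wAt D hM).toAlgHom.toRingHom)) with hΦ₂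
  have key : Φ₁ = Φ₂ := by
    refine ringHom_ext_FBar M Φ₁ Φ₂ (fun c => ?_) (fun d hdne hd => ?_)
    · show ((wAt D' hM' (heckeBetaBar Qb M ℓ (algebraMap Qb (FBar M) c)) : FBar (M * ℓ)) :
          LaurentSeries Qb) =
        ((heckeBetaBar Qb M ℓ (wAt D hM (algebraMap Qb (FBar M) c)) : FBar (M * ℓ)) :
          LaurentSeries Qb)
      rw [AlgHom.commutes, AlgEquiv.commutes, AlgEquiv.commutes, AlgHom.commutes]
    · show ((wAt D' hM' (heckeBetaBar Qb M ℓ (jdBar M d hd)) : FBar (M * ℓ)) :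
          LaurentSeries Qb) =
        ((heckeBetaBar Qb M ℓ (wAt D hM (jdBar M d hd)) : FBar (M * ℓ)) : LaurentSeries Qb)
      have hd0 : d ∣ D.Q * D.R := hM ▸ hd
      obtain ⟨d₁, e₁, d₂, f₂, h1, h2, rfl⟩ := exists_factor D hd0
      obtain ⟨p1, p2, p3, p4⟩ := factor_pos D h1 h2
      have hℓ0 : 0 < ℓ := Nat.pos_of_ne_zero (NeZero.ne ℓ)
      haveI : NeZero (e₁ * d₂) := ⟨(Nat.mul_pos p2 p3).ne'⟩
      haveI : NeZero (d₁ * (d₂ * ℓ)) := ⟨(Nat.mul_pos p1 (Nat.mul_pos p3 hℓ0)).ne'⟩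
      haveI : NeZero (e₁ * (d₂ * ℓ)) := ⟨(Nat.mul_pos p2 (Nat.mul_pos p3 hℓ0)).ne'⟩
      haveI : NeZero (ℓ * (d₁ * d₂)) := ⟨(Nat.mul_pos hℓ0 (Nat.mul_pos p1 p3)).ne'⟩
      haveI : NeZero (ℓ * (e₁ * d₂)) := ⟨(Nat.mul_pos hℓ0 (Nat.mul_pos p2 p3)).ne'⟩
      have h2' : d₂ * ℓ * f₂ = D'.R := by
        rw [hR, ← h2]
        ring
      have h1' : d₁ * e₁ = D'.Q := by rw [hQ, h1]
      have hy : ((heckeBetaBar Qb M ℓ (jdBar M (d₁ * d₂) hd) : FBar (M * ℓ)) :
          LaurentSeries Qb) = qExpand Qb (d₁ * (d₂ * ℓ)) (jqModC Qb) := by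
        rw [coe_heckeBetaBar, coe_jdBar, qExpand_qExpand]
        exact wSide_qExpand_congr (by ring) _
      rw [coe_wAt_of_coe_eq D' hM' _ d₁ e₁ (d₂ * ℓ) f₂ h1' h2' hy, coe_heckeBetaBar,
        coe_wAt_of_coe_eq D hM _ d₁ e₁ d₂ f₂ h1 h2 (coe_jdBar M _ hd), qExpand_qExpand]
      exact wSide_qExpand_congr (by ring) _
  have h := congrArg (fun Φ : FBar M →+* LaurentSeries Qb => Φ x) key
  have h' : ((wAt D' hM' (heckeBetaBar Qb M ℓ x) : FBar (M * ℓ)) : LaurentSeries Qb) =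
      ((heckeBetaBar Qb M ℓ (wAt D hM x) : FBar (M * ℓ)) : LaurentSeries Qb) := h
  rw [h', coe_heckeBetaBar]

/-- `α` intertwines `w_Q` at the levels `M` and `M ℓ`. -/
theorem intertwines_heckeAlphaBar_wAt (D D' : ALData) {M ℓ : ℕ} [NeZero M] [NeZero ℓ]
    (hM : M = D.Q * D.R) (hM' : M * ℓ = D'.Q * D'.R) (hQ : D'.Q = D.Q) (hR : D'.R = D.R * ℓ) :
    SemilinearAut.IntertwinesAlong (heckeAlphaBar Qb M ℓ).toRingHom
      (SemilinearAut.ofAlgAut (wAt D hM)) (SemilinearAut.ofAlgAut (wAt D' hM')) := by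
  intro x
  apply Subtype.ext
  show ((wAt D' hM' (heckeAlphaBar Qb M ℓ x) : FBar (M * ℓ)) : LaurentSeries Qb) =
    ((heckeAlphaBar Qb M ℓ (wAt D hM x) : FBar (M * ℓ)) : LaurentSeries Qb)
  rw [coe_wAt_heckeAlphaBar D D' hM hM' hQ hR, coe_heckeAlphaBar]

/-- `β` intertwines `w_Q` at the levels `M` and `M ℓ`. -/
theorem intertwines_heckeBetaBar_wAt (D D' : ALData) {M ℓ : ℕ} [NeZero M] [NeZero ℓ]
    (hM : M = D.Q * D.R) (hM' : M * ℓ = D'.Q * D'.R) (hQ : D'.Q = D.Q) (hR : D'.R = D.R * ℓ) :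
    SemilinearAut.IntertwinesAlong (heckeBetaBar Qb M ℓ).toRingHom
      (SemilinearAut.ofAlgAut (wAt D hM)) (SemilinearAut.ofAlgAut (wAt D' hM')) := by
  intro x
  apply Subtype.ext
  show ((wAt D' hM' (heckeBetaBar Qb M ℓ x) : FBar (M * ℓ)) : LaurentSeries Qb) =
    ((heckeBetaBar Qb M ℓ (wAt D hM x) : FBar (M * ℓ)) : LaurentSeries Qb)
  rw [coe_wAt_heckeBetaBar D D' hM hM' hQ hR, coe_heckeBetaBar]

end Compat

/-! ### the commutation -/

section Main

variable (D : ALData)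

attribute [local instance] Fermat.Agent.F3DegP.neZero_level

/-- `Q` and `R` are coprime. -/
theorem wSide_coprime : Nat.Coprime D.Q D.R := by
  have h : IsCoprime (D.Q : ℤ) (D.R : ℤ) := ⟨D.a, -D.b, by linarith [D.hdet]⟩
  exact Nat.isCoprime_iff_coprime.mp h

/-- **`w_* y = w • y`**: the Atkin–Lehner push-forward is the action of the automorphism `w`. -/
theorem pushW_eq_smul (y : JZero (D.Q * D.R)) :
    pushW D y = SemilinearAut.ofAlgAut (atkinLehner D) • y := by
  have hinv : (SemilinearAut.ofAlgAut (atkinLehner D))⁻¹ =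
      (SemilinearAut.ofAlgAut (atkinLehner D) :
        SemilinearAut Qb (modularFunctionFieldBar (D.Q * D.R))) := by
    rw [inv_eq_iff_mul_eq_one, ← map_mul]
    have : atkinLehner D * atkinLehner D = 1 :=
      AlgEquiv.ext fun x => atkinLehner_atkinLehner D x
    rw [this, map_one]
  unfold pushW
  rw [pushAut_eq_smul _ _
    (fun v => Fermat.Agent.S24Res.deg_eq_one
      (Fermat.Agent.S24.isFunctionFieldOver_jBar (D.Q * D.R)) v), hinv]

/-- **`T_ℓ ∘ w_* = w_* ∘ T_ℓ`** on `J₀(Q R)(ℚ̄)`, `ℓ ∤ Q`. -/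
theorem heckeOperatorBar_pushW (ℓ : Nat.Primes) (hℓ : ¬ (ℓ : ℕ) ∣ D.Q)
    (y : JZero (D.Q * D.R)) :
    heckeOperatorBar (D.Q * D.R) ℓ (pushW D y) = pushW D (heckeOperatorBar (D.Q * D.R) ℓ y) := by
  haveI : NeZero (ℓ : ℕ) := ⟨ℓ.2.ne_zero⟩
  have hcop : Nat.Coprime D.Q (D.R * (ℓ : ℕ)) :=
    Nat.Coprime.mul_right (wSide_coprime D)
      ((Nat.coprime_comm.mp ((Nat.Prime.coprime_iff_not_dvd ℓ.2).mpr hℓ)))
  obtain ⟨D', hQ, hR⟩ := ALData.exists_of_coprime D.hQ (Nat.mul_pos D.hR ℓ.2.pos) hcop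
  have hM' : D.Q * D.R * (ℓ : ℕ) = D'.Q * D'.R := by rw [hQ, hR, mul_assoc]
  have hα := intertwines_heckeAlphaBar_wAt D D' (rfl : D.Q * D.R = D.Q * D.R) hM' hQ hR
  have hβ := intertwines_heckeBetaBar_wAt D D' (rfl : D.Q * D.R = D.Q * D.R) hM' hQ hR
  rw [wAt_eq_rfl] at hα hβ
  rw [heckeOperatorBar_apply, heckeOperatorBar_apply, pushW_eq_smul, pushW_eq_smul]
  exact heckeOperatorAlong_smul_of_intertwines (D.Q * D.R) (ℓ : ℕ) _ _ hα hβ y

/-- **`T_ℓ ∘ w_* = w_* ∘ T_ℓ`** at a level `M = Q R`. -/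
theorem heckeOperatorBar_pushWAt {M : ℕ} [NeZero M] (hM : M = D.Q * D.R) (ℓ : Nat.Primes)
    (hℓ : ¬ (ℓ : ℕ) ∣ D.Q) (y : JZero M) :
    heckeOperatorBar M ℓ (pushWAt D hM y) = pushWAt D hM (heckeOperatorBar M ℓ y) := by
  subst hM
  rw [pushWAt_rfl]
  convert heckeOperatorBar_pushW D ℓ hℓ y

end Main

end Fermat.Agent.R38
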